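import Mathlib
import Fermat.Prelude.Def_ModularCurve_ArithmeticGalois
import Fermat.Prelude.Def_AlgebraicCurve_BaseChangeGalois
import Fermat.Agent.MUL.Lib.BadRed.PeuD.Int
import Fermat.Agent.MUL.Lib.BadRed.PeuD.Coord
import Fermat.Agent.MUL.Lib.BadRed.PeuD.RepM
import Fermat.Agent.MUL.E.Desc.Kp.ModDefs
import Fermat.Agent.MUL.Lib.GenusEq.Main
import Fermat.Agent.MUL.Lib.GenusEq.GenusFM
import Fermat.Agent.MUL.Lib.BadRed.Mod.SSArith
import Fermat.Agent.MUL.Lib.BadRed.Mod.SSDeg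
import Fermat.Agent.MUL.Lib.BadRed.Mod.SeedOfU
import Fermat.Agent.MUL.Lib.BadRed.PeuD.Brk
import Fermat.Agent.MUL.Orig.S18.KeyBasic
import Fermat.Agent.MUL.Lib.BadRed.Nodal.NSDef
import Fermat.Agent.MUL.Lib.BadRed.Nodal.ToricKeyDef
import Fermat.Agent.MUL.Lib.BadRed.Nodal.KeyMain
import Fermat.Agent.MUL.Lib.BadRed.Nodal.KeyJacobi
import Fermat.Agent.MUL.Lib.BadRed.Nodal.P.Cov
import Fermat.Agent.MUL.Lib.BadRed.Nodal.NSBuildLift
import Fermat.Agent.MUL.Lib.BadRed.Nodal.Deuring2.Main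
import Fermat.Agent.MUL.Lib.BadRed.Nodal.P.OrdRepMain
import Fermat.Agent.MUL.Orig.S05.H5.Inertia
import Fermat.Agent.MUL.Lib.BadRed.PeuD.GaussWire
import Fermat.Agent.MUL.Lib.BadRed.PNew.SpDef
import Fermat.Agent.MUL.E.Desc.Kp.ModFinal
import Fermat.Agent.MUL.Lib.BadRed.Nodal.RedSpace2
import Fermat.Agent.MUL.Lib.BadRed.Nodal.Deuring2.Seed
import Fermat.Agent.MUL.S17.Rat.Modular
import Fermat.Agent.MUL.Lib.BadRed.Final.Nodal
import Fermat.Agent.MUL.Lib.BadRed.PeuD.GaussMod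
import Fermat.Agent.MUL.E.Desc.Kp.ValI
import Fermat.Agent.MUL.E.Desc.Kp.ModAnnFix
import Fermat.Agent.MUL.Lib.BadRed.PeuD.SlopeLoc
import Fermat.Agent.MUL.Lib.BadRed.PeuD.RatCoord
import Fermat.Agent.MUL.Lib.BadRed.Nodal.Deuring2.TypeB
import Fermat.Agent.MUL.R38.SpineDefs
import Fermat.Agent.MUL.Lib.BadRed.PeuD.BrkTame
import Fermat.Agent.MUL.Lib.FFL.FB.Defs
import Fermat.Agent.MUL.Lib.BadRed.PeuD.AbsWild
import Fermat.Agent.MUL.R38.D.Defs
import Fermat.Agent.MUL.Lib.BadRed.PeuD.LiftPhi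
import Fermat.Agent.MUL.R38.D.GenIndepFinal
import Fermat.Agent.MUL.R38.D.Pull

section MergeWrap_Lib_BadRed_PeuD_AbsTame -- from Lib/BadRed/PeuD/AbsTame.lean

set_option autoImplicit false
set_option linter.unusedSectionVars false
set_option linter.unusedVariables false
set_option linter.style.haveILetI false

noncomputable section

open AlgebraicCurve Fermat.Agent.RR Fermat.Agent.Deuring Fermat.Agent.BadRed Fermat.Agent.EKp

namespace Fermat.Agent.PeuD

variable {K F k Fk₁ Fk₂ : Type*} [Field K] [Field F] [Algebra K F]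
  [Field k] [Field Fk₁] [Algebra k Fk₁] [Field Fk₂] [Algebra k Fk₂] {ι : Type*} [Fintype ι]

/-! ### the `u`-hypotheses from the annulus datum -/

theorem absTame_hw₂ {N : NodalSeed K F k Fk₁ Fk₂ ι} {u : F} {ϖ : K} (h : AnnulusData N u ϖ) :
    N.S₂.red (algebraMap K F ϖ * u⁻¹) ≠ 0 := by
  rw [← div_eq_mul_inv]
  exact h.red₂_ne

theorem absTame_noDiv {N : NodalSeed K F k Fk₁ Fk₂ ι} {u : F} {ϖ : K} (h : AnnulusData N u ϖ)
    (i : ι) : NoDivAtNode N i u :=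
  fun P hP => h.ord_N P hP.1

/-! ### the `H`-stable representative and its `H`-rational Kummer generator -/

/-- **(REP), tame**: a class `x ∈ Pic⁰(F)[p]` fixed by `H` has an `H`-stable representative `D`
and an `H`-rational Kummer generator `g`, `div g = p D`. -/
theorem absTame_rep (hF : IsRRField K F) (p : ℕ) (H : Subgroup (SemilinearAut K F))
    (hH90 : ∀ f : F, f ≠ 0 → (∀ t ∈ H, ∃ a : K, t • f = algebraMap K F a * f) →
      ∃ a : K, a ≠ 0 ∧ ∀ t ∈ H, t • (algebraMap K F a * f) = algebraMap K F a * f)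
    (oo : Place K F) (hoo : ∀ t ∈ H, t • oo = oo)
    (x : Pic0 K F) (hpx : p • x = 0) (hHx : ∀ t ∈ H, t • x = x) :
    ∃ (D : Divisor.degZero (K := K) (F := F)) (g : F),
      Pic0.mk D = x ∧ (∀ t ∈ H, t • (D : Divisor K F) = (D : Divisor K F)) ∧ g ≠ 0 ∧
        (∀ t ∈ H, t • g = g) ∧ ∀ P : Place K F, P.ord g = p * (D : Divisor K F) P := by
  obtain ⟨D, hDx, hDfix⟩ := Fermat.Agent.EKp.rep_pic0 hF oo (H : Set (SemilinearAut K F))
    hoo x hHx
  have hDinv : ∀ t ∈ H, ∀ v : Place K F, (D : Divisor K F) (t⁻¹ • v) = (D : Divisor K F) v := by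
    intro t ht v
    rw [← SemilinearAut.divisor_smul_apply, hDfix t ht]
  have hpD : Pic0.mk (p • D) = 0 := by
    have : Pic0.mk (p • D) = p • Pic0.mk D := rfl
    rw [this, hDx, hpx]
  obtain ⟨g₀, hg₀, hg₀div⟩ := repM_exists_of_mk_eq_zero hpD
  have hg₀ord : ∀ v : Place K F, v.ord g₀ = p * (D : Divisor K F) v := by
    intro v
    rw [← hg₀div v, AddSubgroup.coe_nsmul, Finsupp.smul_apply, nsmul_eq_mul]
  obtain ⟨a, ha, hafix⟩ := hH90 g₀ hg₀ (fun t ht =>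
    repM_semi_of_div hF t hg₀ (fun v => by rw [hg₀ord, hg₀ord, hDinv t ht]))
  refine ⟨D, algebraMap K F a * g₀, hDx, hDfix, mul_ne_zero (by simpa using ha) hg₀, hafix,
    fun v => ?_⟩
  rw [repM_ord_const_mul v ha hg₀, hg₀ord]

/-! ### ABS-TAME -/

/-- **ABS-TAME** (block D, tame case), with the `H`-rationality of `g` in the conclusion: on a
nodal seed with a coordinate `z` fixed by `H`, every `H`-fixed class `x` of order `p` has a
representative `D` with an `H`-rational Kummer generator `g` for which the slopes of `red₁ g` at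
the nodes are proportional to the thickness exponents modulo `p`. -/
theorem abs_tame_fix [Infinite k] [Nonempty ι] (N : NodalSeed K F k Fk₁ Fk₂ ι) (p : ℕ)
    (hp : p.Prime) {u : F} {ϖ p0 : K} {e : ℕ} {z : F} (hz : CoordData N u ϖ p0 e z)
    {ε : ι → ℕ}
    (hε₁ : ∀ i, (N.s₁ i).ord (N.S₁.red u) = ε i)
    (hε₂ : ∀ i, (N.s₂ i).ord (N.S₂.red (algebraMap K F ϖ * u⁻¹)) = ε i)
    (H : Subgroup (SemilinearAut K F)) (hHin : ∀ t ∈ H, N.nodalSetup.IsInertial t)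
    (hzH : ∀ t ∈ H, t • z = z)
    {π : K} (hπ0 : π ≠ 0) (hπ1 : N.S₁.A.valuation π < 1)
    (hval : ∀ c : K, c ≠ 0 → (∀ t ∈ H, SemilinearAut.baseAut t c = c) →
      ∃ n : ℤ, N.S₁.A.valuation c = N.S₁.A.valuation π ^ n)
    {E : ℕ} (hE : ¬ (p : ℤ) ∣ (E : ℤ))
    (hϖπ : N.S₁.A.valuation ϖ = N.S₁.A.valuation π ^ E)
    (hG1₁ : ∀ f : F, f ≠ 0 → (∀ t ∈ H, t • f = f) →
      ∃ c : K, (∀ t ∈ H, SemilinearAut.baseAut t c = c) ∧ N.S₁.red (f / algebraMap K F c) ≠ 0)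
    (hG1₂ : ∀ f : F, f ≠ 0 → (∀ t ∈ H, t • f = f) →
      ∃ c : K, (∀ t ∈ H, SemilinearAut.baseAut t c = c) ∧ N.S₂.red (f / algebraMap K F c) ≠ 0)
    (hH90 : ∀ f : F, f ≠ 0 → (∀ t ∈ H, ∃ a : K, t • f = algebraMap K F a * f) →
      ∃ a : K, a ≠ 0 ∧ ∀ t ∈ H, t • (algebraMap K F a * f) = algebraMap K F a * f)
    (oo : Place K F) (hoo : ∀ t ∈ H, t • oo = oo)
    (x : Pic0 K F) (hpx : p • x = 0) (hHx : ∀ t ∈ H, t • x = x) :
    ∃ (D : Divisor.degZero (K := K) (F := F)) (g : F),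
      Pic0.mk D = x ∧ g ≠ 0 ∧ (∀ t ∈ H, t • g = g) ∧
        (∀ P : Place K F, P.ord g = p * (D : Divisor K F) P) ∧
        ∀ c : K, N.S₁.red (g / algebraMap K F c) ≠ 0 → ∀ i j : ι,
          (p : ℤ) ∣ (ε j : ℤ) * (N.s₁ i).ord (N.S₁.red (g / algebraMap K F c)) -
            (ε i : ℤ) * (N.s₁ j).ord (N.S₁.red (g / algebraMap K F c)) := by
  obtain ⟨D, g, hDx, hDfix, hg0, hgH, hgord⟩ :=
    absTame_rep N.S₁.hF p H hH90 oo hoo x hpx hHx
  refine ⟨D, g, hDx, hg0, hgH, hgord, fun c hc i j => ?_⟩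
  have hp1 : ¬ (p : ℤ) ∣ ((1 : ℕ) : ℤ) := by
    rw [Nat.cast_one]
    intro h
    have h1 : p ∣ 1 := by exact_mod_cast h
    exact hp.one_lt.ne' (Nat.dvd_one.mp h1)
  have hη : ∀ l : ι, ∃ (m : ℕ) (η : F), ¬ (p : ℤ) ∣ (m : ℤ) ∧ η ≠ 0 ∧
      (∀ t ∈ (H : Set (SemilinearAut K F)), t • η = η) ∧
      ∀ P : Place K F, IsNodeOf N P l → P.ord η = m * (D : Divisor K F) P := by
    intro l
    obtain ⟨η, hη0, hηord, hηfix⟩ := hz.exists_eta (D : Divisor K F) l
    refine ⟨1, η, hp1, hη0, fun t ht => hηfix t (hHin t ht) (hzH t ht) (hDfix t ht),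
      fun P hP => ?_⟩
    rw [hηord P hP, Nat.cast_one, one_mul]
  exact int_abs_tame N p hp hz.ann.varpi_ne hz.ann.red₁_ne (absTame_hw₂ hz.ann) hε₁ hε₂
    (absTame_noDiv hz.ann) (H : Set (SemilinearAut K F)) hπ0 hπ1 hval hE hϖπ hG1₁ hG1₂
    (fun P => (D : Divisor K F) P) hg0 hgH (fun P l _ => hgord P) hη hc i j

/-- **ABS-TAME** in the shape of helper62's WIRING v1, par. 1-2 (the conclusion of ABS-WILD). -/
theorem abs_tame [Infinite k] [Nonempty ι] (N : NodalSeed K F k Fk₁ Fk₂ ι) (p : ℕ)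
    (hp : p.Prime) {u : F} {ϖ p0 : K} {e : ℕ} {z : F} (hz : CoordData N u ϖ p0 e z)
    {ε : ι → ℕ}
    (hε₁ : ∀ i, (N.s₁ i).ord (N.S₁.red u) = ε i)
    (hε₂ : ∀ i, (N.s₂ i).ord (N.S₂.red (algebraMap K F ϖ * u⁻¹)) = ε i)
    (H : Subgroup (SemilinearAut K F)) (hHin : ∀ t ∈ H, N.nodalSetup.IsInertial t)
    (hzH : ∀ t ∈ H, t • z = z)
    {π : K} (hπ0 : π ≠ 0) (hπ1 : N.S₁.A.valuation π < 1)
    (hval : ∀ c : K, c ≠ 0 → (∀ t ∈ H, SemilinearAut.baseAut t c = c) →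
      ∃ n : ℤ, N.S₁.A.valuation c = N.S₁.A.valuation π ^ n)
    {E : ℕ} (hE : ¬ (p : ℤ) ∣ (E : ℤ))
    (hϖπ : N.S₁.A.valuation ϖ = N.S₁.A.valuation π ^ E)
    (hG1₁ : ∀ f : F, f ≠ 0 → (∀ t ∈ H, t • f = f) →
      ∃ c : K, (∀ t ∈ H, SemilinearAut.baseAut t c = c) ∧ N.S₁.red (f / algebraMap K F c) ≠ 0)
    (hG1₂ : ∀ f : F, f ≠ 0 → (∀ t ∈ H, t • f = f) →
      ∃ c : K, (∀ t ∈ H, SemilinearAut.baseAut t c = c) ∧ N.S₂.red (f / algebraMap K F c) ≠ 0)
    (hH90 : ∀ f : F, f ≠ 0 → (∀ t ∈ H, ∃ a : K, t • f = algebraMap K F a * f) →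
      ∃ a : K, a ≠ 0 ∧ ∀ t ∈ H, t • (algebraMap K F a * f) = algebraMap K F a * f)
    (oo : Place K F) (hoo : ∀ t ∈ H, t • oo = oo)
    (x : Pic0 K F) (hpx : p • x = 0) (hHx : ∀ t ∈ H, t • x = x) :
    ∃ (D : Divisor.degZero (K := K) (F := F)) (g : F),
      Pic0.mk D = x ∧ g ≠ 0 ∧ (∀ P : Place K F, P.ord g = p * (D : Divisor K F) P) ∧
        ∀ c : K, N.S₁.red (g / algebraMap K F c) ≠ 0 → ∀ i j : ι,
          (p : ℤ) ∣ (ε j : ℤ) * (N.s₁ i).ord (N.S₁.red (g / algebraMap K F c)) -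
            (ε i : ℤ) * (N.s₁ j).ord (N.S₁.red (g / algebraMap K F c)) := by
  obtain ⟨D, g, h1, h2, -, h3, h4⟩ := abs_tame_fix N p hp hz hε₁ hε₂ H hHin hzH hπ0 hπ1 hval hE
    hϖπ hG1₁ hG1₂ hH90 oo hoo x hpx hHx
  exact ⟨D, g, h1, h2, h3, h4⟩

/-- **ABS-TAME** with the thickness exponents of the coordinate (`ε_i = e` for all `i`, by
`CoordData.eps_eq`): only the hypothesis on the second side remains. -/
theorem abs_tame_e [Infinite k] [Nonempty ι] (N : NodalSeed K F k Fk₁ Fk₂ ι) (p : ℕ)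
    (hp : p.Prime) {u : F} {ϖ p0 : K} {e : ℕ} {z : F} (hz : CoordData N u ϖ p0 e z)
    (hε₂ : ∀ i, (N.s₂ i).ord (N.S₂.red (algebraMap K F ϖ * u⁻¹)) = e)
    (H : Subgroup (SemilinearAut K F)) (hHin : ∀ t ∈ H, N.nodalSetup.IsInertial t)
    (hzH : ∀ t ∈ H, t • z = z)
    {π : K} (hπ0 : π ≠ 0) (hπ1 : N.S₁.A.valuation π < 1)
    (hval : ∀ c : K, c ≠ 0 → (∀ t ∈ H, SemilinearAut.baseAut t c = c) →
      ∃ n : ℤ, N.S₁.A.valuation c = N.S₁.A.valuation π ^ n)
    {E : ℕ} (hE : ¬ (p : ℤ) ∣ (E : ℤ))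
    (hϖπ : N.S₁.A.valuation ϖ = N.S₁.A.valuation π ^ E)
    (hG1₁ : ∀ f : F, f ≠ 0 → (∀ t ∈ H, t • f = f) →
      ∃ c : K, (∀ t ∈ H, SemilinearAut.baseAut t c = c) ∧ N.S₁.red (f / algebraMap K F c) ≠ 0)
    (hG1₂ : ∀ f : F, f ≠ 0 → (∀ t ∈ H, t • f = f) →
      ∃ c : K, (∀ t ∈ H, SemilinearAut.baseAut t c = c) ∧ N.S₂.red (f / algebraMap K F c) ≠ 0)
    (hH90 : ∀ f : F, f ≠ 0 → (∀ t ∈ H, ∃ a : K, t • f = algebraMap K F a * f) →
      ∃ a : K, a ≠ 0 ∧ ∀ t ∈ H, t • (algebraMap K F a * f) = algebraMap K F a * f)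
    (oo : Place K F) (hoo : ∀ t ∈ H, t • oo = oo)
    (x : Pic0 K F) (hpx : p • x = 0) (hHx : ∀ t ∈ H, t • x = x) :
    ∃ (D : Divisor.degZero (K := K) (F := F)) (g : F),
      Pic0.mk D = x ∧ g ≠ 0 ∧ (∀ t ∈ H, t • g = g) ∧
        (∀ P : Place K F, P.ord g = p * (D : Divisor K F) P) ∧
        ∀ c : K, N.S₁.red (g / algebraMap K F c) ≠ 0 → ∀ i j : ι,
          (p : ℤ) ∣ (e : ℤ) * (N.s₁ i).ord (N.S₁.red (g / algebraMap K F c)) -
            (e : ℤ) * (N.s₁ j).ord (N.S₁.red (g / algebraMap K F c)) :=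
  abs_tame_fix N p hp hz (ε := fun _ => e) (fun i => hz.eps_eq i) hε₂ H hHin hzH hπ0 hπ1 hval hE
    hϖπ hG1₁ hG1₂ hH90 oo hoo x hpx hHx

end Fermat.Agent.PeuD
end
end MergeWrap_Lib_BadRed_PeuD_AbsTame

section MergeWrap_Lib_BadRed_PeuD_AuxCount -- from Lib/BadRed/PeuD/AuxCount.lean

set_option autoImplicit false
set_option linter.style.haveILetI false
set_option linter.unusedSectionVars false
set_option synthInstance.maxHeartbeats 400000

noncomputable section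

namespace Fermat.Agent.PeuD

open IntermediateField ModularCurve AlgebraicCurve Fermat.Agent.F3 Fermat.Agent.F3G
  Fermat.Agent.GaussInt Fermat.Agent.AtkinLehner Fermat.Agent.Deuring Fermat.Agent.RR
  Fermat.Agent.BadRed Fermat.Agent.EKp

local notation "Qb" => AlgebraicClosure ℚ

attribute [local instance] Fermat.Agent.BadRed.fwFintype

/-- the sum of the orders of a function over its zeros is the degree of its zero divisor. -/
theorem auxCount_sum_zeros {k Fk : Type*} [Field k] [Field Fk] [Algebra k Fk]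
    (hRR : IsRRField k Fk) (f : Fk) [Fintype {v : Place k Fk // 0 < v.ord f}] :
    ∑ i : {v : Place k Fk // 0 < v.ord f}, i.1.ord f = Divisor.degree (poleDiv hRR f⁻¹) := by
  classical
  rw [degree_eq_sum hRR]
  have hmem : ∀ v : Place k Fk, v ∈ (poleDiv hRR f⁻¹).support ↔ 0 < v.ord f := by
    intro v
    rw [Finsupp.mem_support_iff, poleDiv_apply, v.ord_inv, neg_neg]
    constructor
    · intro h
      by_contra hle
      exact h (max_eq_right (not_lt.mp hle))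
    · intro h
      rw [max_eq_left h.le]
      exact h.ne'
  rw [Finset.sum_subtype _ hmem]
  refine Finset.sum_congr rfl fun i _ => ?_
  rw [poleDiv_apply, i.1.ord_inv, neg_neg, max_eq_left i.2.le]

variable (D : ALData) [NeZero D.Q] [NeZero D.R] [NeZero (D.Q * D.R)]
  (A : ValuationSubring Qb) (hq : D.Q.Prime) (hA : A.LiesOverPrime D.Q) (hqR : ¬ D.Q ∣ D.R)
  [Fact D.Q.Prime] [CharP (IsLocalRing.ResidueField A) D.Q]
  [PerfectRing (IsLocalRing.ResidueField A) D.Q]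

/-- the zeros of `ū`, counted with multiplicity: `∑_i ord_{s₁ i} ū = (q - 1) ψ(R)`. -/
theorem auxCount_sum_ord :
    ∑ i : kpIota D A hq hA hqR, i.1.ord ((kpS D A hq hA hqR).red (fwU D)) =
      (((D.Q - 1) * dedekindPsi D.R : ℕ) : ℤ) := by
  haveI : IsAlgClosed (IsLocalRing.ResidueField A) := Fermat.Agent.GaussInt.isAlgClosed_residue A
  have hS := isGaussSetup_gaussSetupBad D hq hqR A hA
  have hRR := Fermat.Agent.RRMod.isRRField_fullC' (IsLocalRing.ResidueField A) D.R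
  have hss := fw_coe_red_uF D A hq hA (kpS D A hq hA hqR) hS
  have hdeg := degree_poleDiv_ss D.R hq hqR hA hRR _ hss
  rw [← SeedPoles.degree_poleDiv_inv hRR] at hdeg
  rw [← hdeg]
  exact auxCount_sum_zeros hRR _

/-- `kpD = ∑_i ε_i = (q - 1) ψ(R)`. -/
theorem auxCount_kpD : kpD D A hq hA hqR = (D.Q - 1) * dedekindPsi D.R := by
  have h := auxCount_sum_ord D A hq hA hqR
  have h2 : ((kpD D A hq hA hqR : ℕ) : ℤ) =
      ∑ i : kpIota D A hq hA hqR, i.1.ord ((kpS D A hq hA hqR).red (fwU D)) := by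
    unfold kpD
    rw [Nat.cast_sum]
    exact Finset.sum_congr rfl fun i _ => kpEps_cast D A hq hA hqR i
  rw [h] at h2
  exact_mod_cast h2

/-- `12 * #nodes = (q - 1) ψ(R)` at a level `R` divisible by `4` or `9`. -/
theorem auxCount_card (haux : AuxLevelOK D.Q D.R) (h4 : 4 ∣ D.R ∨ 9 ∣ D.R) :
    12 * Fintype.card (kpIota D A hq hA hqR) = (D.Q - 1) * dedekindPsi D.R := by
  have hrel : genusFF Qb (modularFunctionFieldBar (D.Q * D.R)) + 1 =
      genusFF (IsLocalRing.ResidueField A)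
          (modularFunctionFieldFullC (IsLocalRing.ResidueField A) D.R) +
        genusFF (IsLocalRing.ResidueField A)
          (modularFunctionFieldFullC (IsLocalRing.ResidueField A) D.R) +
        Fintype.card (kpIota D A hq hA hqR) := kpN_genusRel D A hq hA hqR haux
  have heq := Fermat.Agent.GenusEq.genusFF_eq D.R h4 D.Q hq hqR A hA
  have h4' : 4 ∣ D.Q * D.R ∨ 9 ∣ D.Q * D.R := by
    rcases h4 with h | h
    · exact Or.inl (h.mul_left _)
    · exact Or.inr (h.mul_left _)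
  have e1 := Fermat.Agent.GenusEq.twelve_genusFF_add (D.Q * D.R) h4'
  have e2 := Fermat.Agent.GenusEq.twelve_genusFF_add D.R h4
  have e3 := Fermat.Agent.BadRed.SSA.cuspCount_prime_mul hq hqR (NeZero.ne D.R)
  have e4 := Fermat.Agent.BadRed.SSA.dedekindPsi_prime_mul hq hqR
  obtain ⟨q', hq'⟩ : ∃ q' : ℕ, D.Q = q' + 1 := ⟨D.Q - 1, by have := hq.pos; omega⟩
  have e5 : D.Q - 1 = q' := by omega
  rw [e5]
  have e6 : dedekindPsi (D.Q * D.R) = q' * dedekindPsi D.R + 2 * dedekindPsi D.R := by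
    rw [e4, hq']
    ring
  rw [← heq] at hrel
  rw [e3, e6] at e1
  generalize q' * dedekindPsi D.R = X at *
  omega

/-- **AUX-EQ**: `∑_i ε_i = 12 * #nodes` at a level `q R` with `4 ∣ R` or `9 ∣ R`: every node has
thickness `1` on average (hence, by the slope count, each of them). -/
theorem auxEq (haux : AuxLevelOK D.Q D.R) (h4 : 4 ∣ D.R ∨ 9 ∣ D.R) :
    ∑ i : kpIota D A hq hA hqR, kpEps D A hq hA hqR i =
      12 * Fintype.card (kpIota D A hq hA hqR) := by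
  rw [auxCount_card D A hq hA hqR haux h4]
  exact auxCount_kpD D A hq hA hqR

/-- **AUX-EQ**, `ℤ`-form. -/
theorem auxEq_int (haux : AuxLevelOK D.Q D.R) (h4 : 4 ∣ D.R ∨ 9 ∣ D.R) :
    ∑ i : kpIota D A hq hA hqR, i.1.ord ((kpS D A hq hA hqR).red (fwU D)) =
      12 * (Fintype.card (kpIota D A hq hA hqR) : ℤ) := by
  rw [auxCount_sum_ord D A hq hA hqR, ← auxCount_card D A hq hA hqR haux h4]
  push_cast
  ring

end Fermat.Agent.PeuD
end
end MergeWrap_Lib_BadRed_PeuD_AuxCount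

section MergeWrap_Lib_BadRed_PeuD_BrkWire -- from Lib/BadRed/PeuD/BrkWire.lean

set_option autoImplicit false
set_option linter.unusedSectionVars false
set_option linter.unusedVariables false

noncomputable section

namespace Fermat.Agent.PeuD

open Fermat.Agent.FFL Fermat.Agent.FFL.FB Fermat.Agent.PeuDBreak ModularCurve AlgebraicCurve

local notation "Kb" => AlgebraicClosure ℚ
local notation "GK" => (AlgebraicClosure ℚ ≃ₐ[ℚ] AlgebraicClosure ℚ)

/-- valuation form ⟹ quotient form. -/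
theorem brkW_div_mem {K : Type*} [Field K] (A : ValuationSubring K) {x π : K} (n : ℕ)
    (h : A.valuation x ≤ A.valuation π ^ n) : x / π ^ n ∈ A := by
  rw [← A.valuation_le_one_iff, map_div₀, map_pow]
  exact div_le_one_of_le₀ h zero_le

/-- `p ∤ 12 (p - 1)` for a prime `p ≥ 5`. -/
theorem brkW_not_dvd {p : ℕ} (hp : p.Prime) (h5 : 5 ≤ p) :
    ¬ (p : ℤ) ∣ ((12 * (p - 1) : ℕ) : ℤ) := by
  rw [Int.natCast_dvd_natCast]
  intro h
  rcases (Nat.Prime.dvd_mul hp).1 h with h12 | h1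
  · have h23 : p ∣ 2 ^ 2 * 3 := by
      rw [show 2 ^ 2 * 3 = 12 by norm_num]
      exact h12
    rcases (Nat.Prime.dvd_mul hp).1 h23 with h2 | h3
    · have := Nat.le_of_dvd (by norm_num) (hp.dvd_of_dvd_pow h2)
      omega
    · have := Nat.le_of_dvd (by norm_num) h3
      omega
  · have hle : p ≤ p - 1 := Nat.le_of_dvd (by omega) h1
    omega

variable {p : ℕ} {P : ValuationSubring Kb} {ζ α z : Kb}
  (F₀ : IntermediateField ℚ (LaurentSeries ℚ))

/-! ### the wild case -/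

section Wild

/-- **(BRK), modular wild case**, for `H` the image of `Gal(ℚ̄ / M)`. -/
theorem brkW_wild (S : PeuSetting p P ζ α z) {s₀ : GK} (hs : s₀ ∈ stabI P ζ) (hsα : s₀ α = ζ * α)
    (H : Set (SemilinearAut Kb (laurentBaseChange Kb F₀)))
    (hH : ∀ t, t ∈ H ↔ ∃ σ ∈ peuStab P ζ α, t = arithmeticGalois F₀ σ) :
    Brk P (fun c => ∀ t ∈ H, SemilinearAut.baseAut t c = c)
      (SemilinearAut.baseAut (arithmeticGalois F₀ s₀)) p (peuUnif ζ α) (-1) := by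
  refine (brk_of_peu S hs hsα).of_imp ?_ ?_ (fun c => rfl)
  · intro c hc σ hσ
    exact hc _ ((hH _).2 ⟨σ, hσ, rfl⟩)
  · intro t ht
    obtain ⟨σ, hσ, rfl⟩ := (hH t).1 ht
    exact S.unif_fixed σ hσ

/-- the image of `Gal(ℚ̄ / M)` as a set. -/
def brkWH (P : ValuationSubring Kb) (ζ α : Kb) :
    Set (SemilinearAut Kb (laurentBaseChange Kb F₀)) :=
  (fun σ => arithmeticGalois F₀ σ) '' (peuStab P ζ α : Set GK)

theorem mem_brkWH (t : SemilinearAut Kb (laurentBaseChange Kb F₀)) :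
    t ∈ brkWH F₀ P ζ α ↔ ∃ σ ∈ peuStab P ζ α, t = arithmeticGalois F₀ σ := by
  constructor
  · rintro ⟨σ, hσ, rfl⟩
    exact ⟨σ, hσ, rfl⟩
  · rintro ⟨σ, hσ, rfl⟩
    exact ⟨σ, hσ, rfl⟩

theorem mem_map_peuStab (t : SemilinearAut Kb (laurentBaseChange Kb F₀)) :
    t ∈ ((peuStab P ζ α).map (arithmeticGalois F₀) :
      Set (SemilinearAut Kb (laurentBaseChange Kb F₀))) ↔
      ∃ σ ∈ peuStab P ζ α, t = arithmeticGalois F₀ σ := by
  constructor
  · rintro ⟨σ, hσ, rfl⟩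
    exact ⟨σ, hσ, rfl⟩
  · rintro ⟨σ, hσ, rfl⟩
    exact ⟨σ, hσ, rfl⟩

/-- (BRK) for the subgroup `H = (peuStab P ζ α).map arithmeticGalois`. -/
theorem brkW_wild_map (S : PeuSetting p P ζ α z) {s₀ : GK} (hs : s₀ ∈ stabI P ζ) (hsα : s₀ α = ζ * α) :
    Brk P (fun c => ∀ t ∈ (peuStab P ζ α).map (arithmeticGalois F₀),
        SemilinearAut.baseAut t c = c)
      (SemilinearAut.baseAut (arithmeticGalois F₀ s₀)) p (peuUnif ζ α) (-1) :=
  brkW_wild F₀ S hs hsα _ (mem_map_peuStab F₀)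

/-- `hsπ` of `int_abs_wild`. -/
theorem brkW_hsπ (S : PeuSetting p P ζ α z) {s₀ : GK} (hs : s₀ ∈ stabI P ζ) (hsα : s₀ α = ζ * α) :
    (SemilinearAut.baseAut (arithmeticGalois F₀ s₀) (peuUnif ζ α) -
      peuUnif ζ α * (1 + (-1) * peuUnif ζ α)) / peuUnif ζ α ^ 3 ∈ P :=
  brkW_div_mem P 3 (peu_val_s_unif S hs hsα)

/-- `hA1` of `int_abs_wild`. -/
theorem brkW_hA1 (S : PeuSetting p P ζ α z) {s₀ : GK} (hs : s₀ ∈ stabI P ζ) (hsα : s₀ α = ζ * α)
    (H : Set (SemilinearAut Kb (laurentBaseChange Kb F₀)))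
    (hH : ∀ t, t ∈ H ↔ ∃ σ ∈ peuStab P ζ α, t = arithmeticGalois F₀ σ) :
    ∀ c : Kb, c ∈ P → (∀ t ∈ H, SemilinearAut.baseAut t c = c) →
      (SemilinearAut.baseAut (arithmeticGalois F₀ s₀) c - c) / peuUnif ζ α ^ 2 ∈ P :=
  fun c hc hcH => brkW_div_mem P 2 ((brkW_wild F₀ S hs hsα H hH).depth c hcH hc)

/-- `hval` of `int_abs_wild`. -/
theorem brkW_hval (S : PeuSetting p P ζ α z) {s₀ : GK} (hs : s₀ ∈ stabI P ζ) (hsα : s₀ α = ζ * α)
    (H : Set (SemilinearAut Kb (laurentBaseChange Kb F₀)))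
    (hH : ∀ t, t ∈ H ↔ ∃ σ ∈ peuStab P ζ α, t = arithmeticGalois F₀ σ) :
    ∀ c : Kb, c ≠ 0 → (∀ t ∈ H, SemilinearAut.baseAut t c = c) →
      ∃ n : ℤ, P.valuation c = P.valuation (peuUnif ζ α) ^ n :=
  fun c hc0 hcH => (brkW_wild F₀ S hs hsα H hH).val_rat c hcH hc0

/-- `hϖπ` of `int_abs_wild`: `v (p ^ 12) = v π ^ (p E')`, `E' = 12 (p - 1)`. -/
theorem brkW_hϖπ (S : PeuSetting p P ζ α z) :
    P.valuation ((p : Kb) ^ 12) = P.valuation (peuUnif ζ α) ^ (p * (12 * (p - 1))) := by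
  rw [map_pow, ← S.val_unif, ← pow_mul]
  congr 1
  ring

/-- `α₀ = -1` is integral. -/
theorem brkW_neg_one_mem (P : ValuationSubring Kb) : (-1 : Kb) ∈ P := neg_mem (one_mem P)

end Wild

/-! ### the tame case -/

section Tame

/-- the value group of a totally ramified layer is generated by the uniformiser. -/
theorem brkW_mono_val {Γ0 Γ : Subgroup GK} {d : ℕ} {π0 ϖ : Kb}
    (S : MonoSetting p P Γ0 Γ d π0 ϖ) {x : Kb} (hx0 : x ≠ 0) (hx : ∀ σ ∈ Γ, σ x = x) :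
    ∃ k : ℤ, P.valuation x = P.valuation ϖ ^ k := by
  have key : ∀ y : Kb, y ≠ 0 → y ∈ P → (∀ σ ∈ Γ, σ y = y) →
      ∃ n : ℕ, P.valuation y = P.valuation ϖ ^ n := fun y hy0 hyP hy =>
    fm_val_eq_pow S.hp S.hP Γ S.ϖ_ne_zero S.ϖ_mem_nonunits S.hϖfix
      (fun _ hy hfix => S.unif hy hfix) hy0 hyP hy
  rcases P.mem_or_inv_mem x with hxP | hxP
  · obtain ⟨n, hn⟩ := key x hx0 hxP hx
    exact ⟨n, by rw [hn, zpow_natCast]⟩
  · obtain ⟨n, hn⟩ := key x⁻¹ (inv_ne_zero hx0) hxP (fun σ hσ => by rw [map_inv₀, hx σ hσ])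
    refine ⟨-(n : ℤ), ?_⟩
    rw [map_inv₀] at hn
    rw [zpow_neg, zpow_natCast, ← hn, inv_inv]

variable (hp : p.Prime) (hp2 : p ≠ 2) (hP : P.LiesOverPrime p) (hζ : IsPrimitiveRoot ζ p)
include hp hp2 hP hζ

/-- an auxiliary `PeuSetting` (with `z = 1`), to reach the cyclotomic layer. -/
theorem brkW_exists_peu : ∃ α : Kb, PeuSetting p P ζ α 1 := by
  obtain ⟨α, hα⟩ := IsAlgClosed.exists_pow_nat_eq (1 + (p : Kb) * 1) hp.pos
  refine ⟨α, ⟨hp, hp2, hP, hζ, ?_, ?_, hα⟩⟩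
  · exact ⟨one_mem P, fun σ _ => map_one σ⟩
  · rw [P.mem_nonunits_iff, map_one]
    exact lt_irrefl _

/-- the cyclotomic layer `K1 = K0(ζ)`. -/
theorem brkW_monoSetting_cyc :
    MonoSetting p P (P.inertiaSubgroupIn ℚ) (stabI P ζ) (p - 1) (p : Kb) (ζ - 1) := by
  obtain ⟨α, S⟩ := brkW_exists_peu hp hp2 hP hζ
  exact S.monoSetting_cyc

theorem brkT_π_ne : ζ - 1 ≠ 0 := (brkW_monoSetting_cyc hp hp2 hP hζ).ϖ_ne_zero

theorem brkT_π_lt : P.valuation (ζ - 1) < 1 := (brkW_monoSetting_cyc hp hp2 hP hζ).val_ϖ_lt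

/-- `hval` of `int_abs_tame`, on `ℚ̄`. -/
theorem brkT_val {c : Kb} (hc0 : c ≠ 0) (hc : ∀ σ ∈ stabI P ζ, σ c = c) :
    ∃ n : ℤ, P.valuation c = P.valuation (ζ - 1) ^ n :=
  brkW_mono_val (brkW_monoSetting_cyc hp hp2 hP hζ) hc0 hc

/-- `hπH` of `int_abs_tame`. -/
theorem brkT_hπH (H : Set (SemilinearAut Kb (laurentBaseChange Kb F₀)))
    (hH : ∀ t, t ∈ H ↔ ∃ σ ∈ stabI P ζ, t = arithmeticGalois F₀ σ) :
    ∀ t ∈ H, SemilinearAut.baseAut t (ζ - 1) = ζ - 1 := by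
  intro t ht
  obtain ⟨σ, hσ, rfl⟩ := (hH t).1 ht
  show σ (ζ - 1) = ζ - 1
  rw [map_sub, map_one, (mem_stabI.1 hσ).2]

/-- `hval` of `int_abs_tame`. -/
theorem brkT_hval (H : Set (SemilinearAut Kb (laurentBaseChange Kb F₀)))
    (hH : ∀ t, t ∈ H ↔ ∃ σ ∈ stabI P ζ, t = arithmeticGalois F₀ σ) :
    ∀ c : Kb, c ≠ 0 → (∀ t ∈ H, SemilinearAut.baseAut t c = c) →
      ∃ n : ℤ, P.valuation c = P.valuation (ζ - 1) ^ n :=
  fun c hc0 hcH => brkT_val hp hp2 hP hζ hc0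
    (fun σ hσ => hcH _ ((hH _).2 ⟨σ, hσ, rfl⟩))

/-- `hϖπ` of `int_abs_tame`: `v (p ^ 12) = v π ^ E`, `E = 12 (p - 1)`. -/
theorem brkT_hϖπ :
    P.valuation ((p : Kb) ^ 12) = P.valuation (ζ - 1) ^ (12 * (p - 1)) := by
  rw [map_pow, ← (brkW_monoSetting_cyc hp hp2 hP hζ).val_pow, ← pow_mul]
  congr 1
  ring

end Tame

end Fermat.Agent.PeuD
end
end MergeWrap_Lib_BadRed_PeuD_BrkWire

section MergeWrap_Lib_BadRed_PeuD_H90Mod -- from Lib/BadRed/PeuD/H90Mod.lean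

set_option autoImplicit false
set_option linter.unusedSectionVars false

noncomputable section

namespace Fermat.Agent.PeuD

open HahnSeries ModularCurve AlgebraicCurve

variable {L : Type*} [Field L] [Algebra ℚ L] (F₀ : IntermediateField ℚ (LaurentSeries ℚ))

/-- the leading `q`-coefficient of a function. -/
def h90Lc (f : laurentBaseChange L F₀) : L := (f : LaurentSeries L).leadingCoeff

theorem h90Lc_ne_zero {f : laurentBaseChange L F₀} (hf : f ≠ 0) : h90Lc F₀ f ≠ 0 := by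
  rw [h90Lc, HahnSeries.leadingCoeff_ne_zero]
  exact fun h => hf (Subtype.ext h)

theorem h90Lc_algebraMap_mul (c : L) (f : laurentBaseChange L F₀) :
    h90Lc F₀ (algebraMap L (laurentBaseChange L F₀) c * f) = c * h90Lc F₀ f := by
  have e : ((algebraMap L (laurentBaseChange L F₀) c * f : laurentBaseChange L F₀) :
      LaurentSeries L) = HahnSeries.single 0 c * (f : LaurentSeries L) := by
    rw [← algebraMap_laurentSeries_eq_single]
    rfl
  rw [h90Lc, e, HahnSeries.leadingCoeff_mul, HahnSeries.leadingCoeff_of_single]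
  rfl

/-- an injective coefficient map preserves the order. -/
theorem h90_order_coeffMap {σ : L →+* L} (hσ : Function.Injective σ) (x : LaurentSeries L) :
    (coeffMap σ x).order = x.order := by
  rcases eq_or_ne x 0 with rfl | hx
  · rw [map_zero]
  have hx' : coeffMap σ x ≠ 0 := by
    intro h
    apply hx
    ext n
    have := congrArg (fun y : LaurentSeries L => y.coeff n) h
    simp only [coeffMap_coeff, HahnSeries.coeff_zero] at this
    rw [HahnSeries.coeff_zero]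
    exact hσ (by rw [this, map_zero])
  refine le_antisymm ?_ ?_
  · refine HahnSeries.order_le_of_coeff_ne_zero ?_
    rw [coeffMap_coeff]
    intro h
    exact (HahnSeries.coeff_order_eq_zero.not.2 hx) (hσ (by rw [h, map_zero]))
  · refine HahnSeries.order_le_of_coeff_ne_zero ?_
    intro h
    apply HahnSeries.coeff_order_eq_zero.not.2 hx'
    rw [coeffMap_coeff, h, map_zero]

theorem h90_leadingCoeff_coeffMap {σ : L →+* L} (hσ : Function.Injective σ)
    (x : LaurentSeries L) : (coeffMap σ x).leadingCoeff = σ x.leadingCoeff := by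
  rw [HahnSeries.leadingCoeff_eq, HahnSeries.leadingCoeff_eq, h90_order_coeffMap hσ,
    coeffMap_coeff]

theorem h90Lc_smul (σ : L ≃ₐ[ℚ] L) (f : laurentBaseChange L F₀) :
    h90Lc F₀ (arithmeticGalois F₀ σ • f) = σ (h90Lc F₀ f) := by
  rw [h90Lc, coe_arithmeticGalois_smul, h90_leadingCoeff_coeffMap (σ := (σ : L →+* L)) σ.injective]
  rfl

theorem h90Lc_smul' (σ : L ≃ₐ[ℚ] L) (f : laurentBaseChange L F₀) :
    h90Lc F₀ (arithmeticGalois F₀ σ • f) =
      SemilinearAut.baseAut (arithmeticGalois F₀ σ) (h90Lc F₀ f) :=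
  h90Lc_smul F₀ σ f

/-- **H90-MOD** (Hilbert 90 for the constants): an `H`-semi-invariant function can be rescaled to
an `H`-fixed one, for `H` a set of arithmetic automorphisms. -/
theorem h90_mod (H : Set (SemilinearAut L (laurentBaseChange L F₀)))
    (hH : ∀ t ∈ H, ∃ σ : L ≃ₐ[ℚ] L, t = arithmeticGalois F₀ σ)
    (f : laurentBaseChange L F₀) (hf : f ≠ 0)
    (hsemi : ∀ t ∈ H, ∃ a : L, t • f = algebraMap L (laurentBaseChange L F₀) a * f) :
    ∃ a : L, a ≠ 0 ∧ ∀ t ∈ H, t • (algebraMap L (laurentBaseChange L F₀) a * f) =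
      algebraMap L (laurentBaseChange L F₀) a * f := by
  have hl := h90Lc_ne_zero F₀ hf
  refine ⟨(h90Lc F₀ f)⁻¹, inv_ne_zero hl, fun t ht => ?_⟩
  obtain ⟨σ, rfl⟩ := hH t ht
  obtain ⟨c, hc⟩ := hsemi _ ht
  -- compare leading coefficients in `t • f = c f`
  have h1 : σ (h90Lc F₀ f) = c * h90Lc F₀ f := by
    rw [← h90Lc_smul, hc, h90Lc_algebraMap_mul]
  have hσl : σ (h90Lc F₀ f) ≠ 0 := (map_ne_zero _).2 hl
  have h2 : σ (h90Lc F₀ f)⁻¹ * c = (h90Lc F₀ f)⁻¹ := by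
    rw [map_inv₀, h1]
    have hc0 : c ≠ 0 := by
      rintro rfl
      rw [zero_mul] at h1
      exact hσl h1
    field_simp
  rw [smul_mul', SemilinearAut.smul_algebraMap, hc, ← mul_assoc, ← map_mul]
  have h3 : SemilinearAut.baseAut (arithmeticGalois F₀ σ) (h90Lc F₀ f)⁻¹ * c =
      (h90Lc F₀ f)⁻¹ := h2
  rw [h3]

/-- the same for a subgroup (the shape of `hH90` in `exists_datM`). -/
theorem h90_mod_subgroup (H : Subgroup (SemilinearAut L (laurentBaseChange L F₀)))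
    (hH : ∀ t ∈ H, ∃ σ : L ≃ₐ[ℚ] L, t = arithmeticGalois F₀ σ) :
    ∀ f : laurentBaseChange L F₀, f ≠ 0 →
      (∀ t ∈ H, ∃ a : L, t • f = algebraMap L (laurentBaseChange L F₀) a * f) →
      ∃ a : L, a ≠ 0 ∧ ∀ t ∈ H, t • (algebraMap L (laurentBaseChange L F₀) a * f) =
        algebraMap L (laurentBaseChange L F₀) a * f :=
  fun f hf hsemi => h90_mod F₀ (H : Set _) hH f hf hsemi

/-- the image of a subgroup of the Galois group consists of arithmetic automorphisms. -/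
theorem h90_map_arith (Γ : Subgroup (L ≃ₐ[ℚ] L)) :
    ∀ t ∈ Γ.map (arithmeticGalois F₀), ∃ σ : L ≃ₐ[ℚ] L, t = arithmeticGalois F₀ σ := by
  rintro _ ⟨σ, -, rfl⟩
  exact ⟨σ, rfl⟩

end Fermat.Agent.PeuD
end
end MergeWrap_Lib_BadRed_PeuD_H90Mod

section MergeWrap_Lib_BadRed_PeuD_JacFix -- from Lib/BadRed/PeuD/JacFix.lean

set_option autoImplicit false
set_option linter.unusedSectionVars false

noncomputable section

open AlgebraicCurve Fermat.Agent.RR Fermat.Agent.Deuring Fermat.Agent.BadRed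

namespace Fermat.Agent.PeuD

variable {K F k Fk₁ Fk₂ : Type*} [Field K] [Field F] [Algebra K F]
  [Field k] [Field Fk₁] [Algebra k Fk₁] [Field Fk₂] [Algebra k Fk₂] {ι : Type*}

variable {N : NodalSetup K F k Fk₁ Fk₂ ι}

/-- `r_* (div f) (X) = ord_X (pair reduction of f)` at a point `X` which is the reduction of a
place, for a unit `f` of both valuation rings. -/
theorem jacFix_push {f : F} (h₁ : N.S₁.red f ≠ 0) (h₂ : N.S₂.red f ≠ 0)
    {X : Place k Fk₁ ⊕ Place k Fk₂} {P₀ : Place K F} (hP₀ : N.r P₀ = some X) :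
    Finsupp.mapDomain N.r (divOf N.S₁.hF f) (some X) =
      pairOrd X (N.S₁.red f) (N.S₂.red f) := by
  rcases X with Q | Q
  · exact N.push₁ f (N.S₁.mem_of_red_ne_zero h₁) (N.S₁.inv_mem_of_red_ne_zero h₁)
      (N.S₁.ne_zero_of_red_ne_zero h₁) Q (fun i h => N.r_ne_node₁ P₀ i (by rw [hP₀, h]))
  · exact N.push₂ f (N.S₂.mem_of_red_ne_zero h₂) (N.S₂.inv_mem_of_red_ne_zero h₂)
      (N.S₂.ne_zero_of_red_ne_zero h₂) Q (fun i h => N.r_ne_node₂ P₀ i (by rw [hP₀, h]))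

/-- **a simple zero of the reduction lifts to exactly one zero in the residue disc.** -/
theorem unique_zero_in_disc {f : F} (h₁ : N.S₁.red f ≠ 0) (h₂ : N.S₂.red f ≠ 0)
    {X : Place k Fk₁ ⊕ Place k Fk₂}
    (hX : pairOrd X (N.S₁.red f) (N.S₂.red f) = 1)
    (hreg : ∀ P : Place K F, N.r P = some X → 0 ≤ P.ord f)
    {P P' : Place K F} (hP : N.r P = some X) (hpos : 0 < P.ord f)
    (hP' : N.r P' = some X) (hpos' : 0 < P'.ord f) : P = P' := by
  by_contra hne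
  have hpush := jacFix_push h₁ h₂ hP
  rw [hX] at hpush
  have hle := Fermat.Agent.S18Key.add_le_mapDomain N.r (divOf N.S₁.hF f) (some X)
    (fun Q hQ => by rw [divOf_apply]; exact hreg Q hQ) P P' hne hP hP'
  rw [hpush, divOf_apply, divOf_apply] at hle
  omega

/-- the order of the unique zero is `1`. -/
theorem ord_eq_one_of_zero_in_disc {f : F} (h₁ : N.S₁.red f ≠ 0) (h₂ : N.S₂.red f ≠ 0)
    {X : Place k Fk₁ ⊕ Place k Fk₂}
    (hX : pairOrd X (N.S₁.red f) (N.S₂.red f) = 1)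
    (hreg : ∀ P : Place K F, N.r P = some X → 0 ≤ P.ord f)
    {P : Place K F} (hP : N.r P = some X) (hpos : 0 < P.ord f) : P.ord f = 1 := by
  have hpush := jacFix_push h₁ h₂ hP
  rw [hX] at hpush
  have hle := Fermat.Agent.S18Key.le_mapDomain N.r (divOf N.S₁.hF f) (some X)
    (fun Q hQ => by rw [divOf_apply]; exact hreg Q hQ) P hP
  rw [hpush, divOf_apply] at hle
  omega

/-- **the unique zero of a function fixed by an inertial automorphism is fixed.** -/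
theorem fixed_of_unique_zero {f : F} (h₁ : N.S₁.red f ≠ 0) (h₂ : N.S₂.red f ≠ 0)
    {X : Place k Fk₁ ⊕ Place k Fk₂}
    (hX : pairOrd X (N.S₁.red f) (N.S₂.red f) = 1)
    (hreg : ∀ P : Place K F, N.r P = some X → 0 ≤ P.ord f)
    {P : Place K F} (hP : N.r P = some X) (hpos : 0 < P.ord f)
    {τ : SemilinearAut K F} (hτ : N.IsInertial τ) (hfix : τ • f = f) : τ • P = P := by
  refine unique_zero_in_disc h₁ h₂ hX hreg (P := τ • P) (P' := P) ?_ ?_ hP hpos
  · rw [hτ.r_smul, hP]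
  · have h := SemilinearAut.ord_smul τ P f
    rw [hfix] at h
    rw [h]
    exact hpos

/-- the base point `R i` of a `NodalNS` is THE zero of the parameter `t i` in the disc of
`Rb i`. -/
theorem nodalNS_eq_R_of_zero {g : ℕ} (NS : NodalNS N g) (i : Fin g) {P : Place K F}
    (hP : N.r P = some (NS.Rb i)) (hpos : 0 < P.ord (NS.t i)) : P = NS.R i :=
  unique_zero_in_disc (NS.t_red₁ i) (NS.t_red₂ i) (NS.ord_t_self i)
    (fun Q hQ => NS.t_reg i i Q hQ) hP hpos (NS.r_R i) (NS.t_R i)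

/-- **JAC-FIX**: if the parameter `t i` is fixed by the inertial automorphism `τ`, so is the
base point `R i`. -/
theorem nodalNS_smul_R {g : ℕ} (NS : NodalNS N g) (i : Fin g) {τ : SemilinearAut K F}
    (hτ : N.IsInertial τ) (hfix : τ • NS.t i = NS.t i) : τ • NS.R i = NS.R i :=
  fixed_of_unique_zero (NS.t_red₁ i) (NS.t_red₂ i) (NS.ord_t_self i)
    (fun Q hQ => NS.t_reg i i Q hQ) (NS.r_R i) (NS.t_R i) hτ hfix

end Fermat.Agent.PeuD
end
end MergeWrap_Lib_BadRed_PeuD_JacFix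

section MergeWrap_Lib_BadRed_PeuD_JacUniq -- from Lib/BadRed/PeuD/JacUniq.lean

set_option autoImplicit false
set_option linter.unusedSectionVars false

noncomputable section

open AlgebraicCurve Fermat.Agent.RR Fermat.Agent.Deuring Fermat.Agent.BadRed

namespace Fermat.Agent.PeuD

variable {K F k Fk₁ Fk₂ : Type*} [Field K] [Field F] [Algebra K F]
  [Field k] [Field Fk₁] [Algebra k Fk₁] [Field Fk₂] [Algebra k Fk₂] {ι : Type*}

variable {N : NodalSetup K F k Fk₁ Fk₂ ι} {g : ℕ}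

/-- local datum for moving the base point: a parameter `t'` with the same reductions as `t i`,
regular on the discs, vanishing at `P'`. -/
theorem jacUniq_exists_param (NS : NodalNS N g) (i : Fin g) (P' : Place K F)
    (hP' : N.r P' = some (NS.Rb i)) :
    ∃ t' : F, t' ∈ N.S₁.Ov ∧ t' ∈ N.S₂.Ov ∧ N.S₁.red t' = N.S₁.red (NS.t i) ∧
      N.S₂.red t' = N.S₂.red (NS.t i) ∧
      (∀ j P, N.r P = some (NS.Rb j) → 0 ≤ P.ord t') ∧ 0 < P'.ord t' := by
  by_cases hne : P' = NS.R i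
  · refine ⟨NS.t i, NS.t_mem₁ i, NS.t_mem₂ i, rfl, rfl, fun j P hP => NS.t_reg i j P hP, ?_⟩
    rw [hne]
    exact NS.t_R i
  · obtain ⟨a, _, haA, hai, _, hs⟩ := NK.kl_exists_self₂ NS i P' hP' hne
    obtain ⟨hU, hr₁, hr₂⟩ := NK.kl_s_isU₂ NS i haA hai
    refine ⟨NS.t i - algebraMap K F a, hU.u₁.mem, hU.u₂.mem, hr₁, hr₂, fun j P hP => ?_, ?_⟩
    · exact Fermat.Agent.S18Key.ord_nonneg_sub P (NS.t_reg i j P hP)
        (Fermat.Agent.S18Key.ord_const_nonneg P a)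
    · rw [hs P' hP', Finsupp.single_eq_same]
      exact one_pos

/-- **moving the base points**: the base points `R i` of a `NodalNS` may be replaced by any
points `P' i` of the residue discs of the `Rb i`. -/
theorem nodalNS_moveBase (NS : NodalNS N g) (P' : Fin g → Place K F)
    (hP' : ∀ i, N.r (P' i) = some (NS.Rb i)) :
    ∃ NS' : NodalNS N g, NS'.Rb = NS.Rb ∧ NS'.R = P' ∧ NS'.P0 = NS.P0 := by
  choose t' ht₁ ht₂ hr₁ hr₂ hreg hpos using fun i => jacUniq_exists_param NS i (P' i) (hP' i)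
  exact ⟨{ Rb := NS.Rb
           Rb_inj := NS.Rb_inj
           R := P'
           r_R := hP'
           t := t'
           t_mem₁ := ht₁
           t_mem₂ := ht₂
           t_red₁ := fun i => by rw [hr₁]; exact NS.t_red₁ i
           t_red₂ := fun i => by rw [hr₂]; exact NS.t_red₂ i
           ord_t_self := fun i => by rw [hr₁, hr₂]; exact NS.ord_t_self i
           ord_t_other := fun i j hij => by rw [hr₁, hr₂]; exact NS.ord_t_other i j hij
           t_reg := fun i j P hP => hreg i j P hP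
           t_R := hpos
           nonspecial := NS.nonspecial
           P0 := NS.P0
           P0_ord := NS.P0_ord
           r_P0 := NS.r_P0 }, rfl, rfl, rfl⟩

/-- **JAC-UNIQ, uniqueness of the Jacobi form**: a function whose divisor is `∑ (P i - P' i)`,
with `P i` and `P' i` in the residue disc of `Rb i`, forces `P i = P' i`. -/
theorem jac_uniq (NS : NodalNS N g) (P P' : Fin g → Place K F)
    (hP : ∀ i, N.r (P i) = some (NS.Rb i)) (hP' : ∀ i, N.r (P' i) = some (NS.Rb i))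
    {φ : F} (hφ : φ ≠ 0)
    (hdiv : ∀ v : Place K F, v.ord φ =
      ∑ i, (Finsupp.single (P i) (1 : ℤ) v - Finsupp.single (P' i) (1 : ℤ) v)) :
    ∀ i, P i = P' i := by
  obtain ⟨NS', hRb, hR, -⟩ := nodalNS_moveBase NS P' hP'
  have h1 : ((1 : ℕ) : K) ≠ 0 := by rw [Nat.cast_one]; exact one_ne_zero
  have h1A : (((1 : ℕ) : K))⁻¹ ∈ N.S₁.A := by rw [Nat.cast_one, inv_one]; exact one_mem _
  have := NK.kl_main₂ NS' 1 h1 h1A P (fun i => by rw [hRb]; exact hP i) φ hφ (fun v => by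
    rw [hdiv v, hR, Nat.cast_one, one_mul])
  intro i
  rw [this i, hR]

/-- the same with a multiplicity `m` invertible in `A`. -/
theorem jac_uniq_mul (NS : NodalNS N g) (m : ℕ) (hm0 : (m : K) ≠ 0)
    (hmA : ((m : K))⁻¹ ∈ N.S₁.A) (P P' : Fin g → Place K F)
    (hP : ∀ i, N.r (P i) = some (NS.Rb i)) (hP' : ∀ i, N.r (P' i) = some (NS.Rb i))
    {φ : F} (hφ : φ ≠ 0)
    (hdiv : ∀ v : Place K F, v.ord φ =
      m * ∑ i, (Finsupp.single (P i) (1 : ℤ) v - Finsupp.single (P' i) (1 : ℤ) v)) :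
    ∀ i, P i = P' i := by
  obtain ⟨NS', hRb, hR, -⟩ := nodalNS_moveBase NS P' hP'
  have := NK.kl_main₂ NS' m hm0 hmA P (fun i => by rw [hRb]; exact hP i) φ hφ (fun v => by
    rw [hdiv v, hR])
  intro i
  rw [this i, hR]

/-- **two Jacobi forms of the same divisor have the same points.** -/
theorem jac_uniq_of_forms (NS : NodalNS N g) (D : Divisor K F) (R P P' : Fin g → Place K F)
    (hP : ∀ i, N.r (P i) = some (NS.Rb i)) (hP' : ∀ i, N.r (P' i) = some (NS.Rb i))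
    {φ φ' : F} (hφ : φ ≠ 0) (hφ' : φ' ≠ 0)
    (hE : ∀ v : Place K F, D v + v.ord φ =
      ∑ i, (Finsupp.single (P i) (1 : ℤ) v - Finsupp.single (R i) (1 : ℤ) v))
    (hE' : ∀ v : Place K F, D v + v.ord φ' =
      ∑ i, (Finsupp.single (P' i) (1 : ℤ) v - Finsupp.single (R i) (1 : ℤ) v)) :
    ∀ i, P i = P' i := by
  refine jac_uniq NS P P' hP hP' (φ := φ / φ') (div_ne_zero hφ hφ') (fun v => ?_)
  rw [div_eq_mul_inv, v.ord_mul hφ (inv_ne_zero hφ'), v.ord_inv]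
  have h1 := hE v
  have h2 := hE' v
  have h3 : ∑ i, (Finsupp.single (P i) (1 : ℤ) v - Finsupp.single (P' i) (1 : ℤ) v) =
      ∑ i, (Finsupp.single (P i) (1 : ℤ) v - Finsupp.single (R i) (1 : ℤ) v) -
        ∑ i, (Finsupp.single (P' i) (1 : ℤ) v - Finsupp.single (R i) (1 : ℤ) v) := by
    rw [← Finset.sum_sub_distrib]
    exact Finset.sum_congr rfl (fun i _ => by ring)
  rw [h3, ← h1, ← h2]
  ring

/-- transport of a point mass by a semilinear automorphism. -/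
theorem jacUniq_single_smul (τ : SemilinearAut K F) (P w : Place K F) :
    Finsupp.single (τ • P) (1 : ℤ) w = Finsupp.single P (1 : ℤ) (τ⁻¹ • w) := by
  classical
  by_cases h : w = τ • P
  · subst h
    rw [inv_smul_smul, Finsupp.single_eq_same, Finsupp.single_eq_same]
  · have h' : τ⁻¹ • w ≠ P := fun e => h (by rw [← e, smul_inv_smul])
    rw [Finsupp.single_eq_of_ne h, Finsupp.single_eq_of_ne h']

/-- **the points of the Jacobi form of an invariant class are fixed**: if `τ` is inertial, fixes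
the base points `R i`, and `τ • D = D + div ψ`, then `τ` fixes the points `P i` of the Jacobi
form `D + div φ = ∑ (P i - R i)`. -/
theorem jac_fixed_of_forms (NS : NodalNS N g) {τ : SemilinearAut K F} (hτ : N.IsInertial τ)
    (D : Divisor K F) (R P : Fin g → Place K F) (hR : ∀ i, τ • R i = R i)
    (hP : ∀ i, N.r (P i) = some (NS.Rb i))
    {φ ψ : F} (hφ : φ ≠ 0) (hψ : ψ ≠ 0)
    (hE : ∀ v : Place K F, D v + v.ord φ =
      ∑ i, (Finsupp.single (P i) (1 : ℤ) v - Finsupp.single (R i) (1 : ℤ) v))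
    (hτD : ∀ v : Place K F, (τ • D) v = D v + v.ord ψ) :
    ∀ i, τ • P i = P i := by
  have hτφ : τ • φ ≠ 0 := by simpa using hφ
  have key := jac_uniq_of_forms NS D R (fun i => τ • P i) P
    (fun i => by rw [hτ.r_smul]; exact hP i) hP
    (φ := ψ * τ • φ) (φ' := φ) (mul_ne_zero hψ hτφ) hφ (fun w => ?_) hE
  · exact key
  · rw [w.ord_mul hψ hτφ]
    have h1 := hE (τ⁻¹ • w)
    have h2 := hτD w
    rw [SemilinearAut.divisor_smul_apply] at h2
    have h3 : w.ord (τ • φ) = (τ⁻¹ • w).ord φ := by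
      have := SemilinearAut.ord_smul τ (τ⁻¹ • w) φ
      rwa [smul_inv_smul] at this
    have h4 : ∑ i, (Finsupp.single (τ • P i) (1 : ℤ) w - Finsupp.single (R i) (1 : ℤ) w) =
        ∑ i, (Finsupp.single (P i) (1 : ℤ) (τ⁻¹ • w) -
          Finsupp.single (R i) (1 : ℤ) (τ⁻¹ • w)) := by
      refine Finset.sum_congr rfl (fun i _ => ?_)
      rw [jacUniq_single_smul τ (P i) w]
      congr 1
      rw [← jacUniq_single_smul τ (R i) w, hR i]
    rw [h4, ← h1, h3]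
    omega

/-- **JAC-UNIQ + JAC-FIX**: for a package whose parameters `t i` are fixed by the inertial
automorphism `τ`, the points of the Jacobi form (relative to the base points `NS.R i`) of a
divisor whose class is fixed by `τ` are fixed by `τ`. -/
theorem jac_fixed (NS : NodalNS N g) {τ : SemilinearAut K F} (hτ : N.IsInertial τ)
    (ht : ∀ i, τ • NS.t i = NS.t i)
    (D : Divisor K F) (P : Fin g → Place K F) (hP : ∀ i, N.r (P i) = some (NS.Rb i))
    {φ ψ : F} (hφ : φ ≠ 0) (hψ : ψ ≠ 0)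
    (hE : ∀ v : Place K F, D v + v.ord φ =
      ∑ i, (Finsupp.single (P i) (1 : ℤ) v - Finsupp.single (NS.R i) (1 : ℤ) v))
    (hτD : ∀ v : Place K F, (τ • D) v = D v + v.ord ψ) :
    ∀ i, τ • P i = P i :=
  jac_fixed_of_forms NS hτ D NS.R P (fun i => nodalNS_smul_R NS i hτ (ht i)) hP hφ hψ hE hτD

end Fermat.Agent.PeuD
end
end MergeWrap_Lib_BadRed_PeuD_JacUniq

section MergeWrap_Lib_BadRed_PeuD_Jac -- from Lib/BadRed/PeuD/Jac.lean

set_option autoImplicit false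
set_option linter.unusedSectionVars false
set_option linter.unusedVariables false
set_option linter.style.haveILetI false

noncomputable section

open AlgebraicCurve Fermat.Agent.RR Fermat.Agent.Deuring Fermat.Agent.BadRed

namespace Fermat.Agent.PeuD

variable {K F k Fk Fk₁ Fk₂ : Type*} [Field K] [Field F] [Algebra K F]
  [Field k] [Field Fk] [Algebra k Fk] [Field Fk₁] [Algebra k Fk₁] [Field Fk₂] [Algebra k Fk₂]
  {ι : Type*}

/-- **(JAC)**, the statement. -/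
def JacStatement (N : NodalSetup K F k Fk₁ Fk₂ ι) (g : ℕ) (NS : NodalNS N g) (p : ℕ)
    (Γ : Subgroup (SemilinearAut K F)) : Prop :=
  ∀ (l : Pic0 K F), (∀ t ∈ Γ, t • l = l) →
    ∀ (E : Divisor.degZero (K := K) (F := F)), Pic0.mk E = l →
    ∀ g₀ : F, g₀ ≠ 0 → (∀ v : Place K F, v.ord g₀ = p * (E : Divisor K F) v) →
      (∃ c₁ : K, c₁ ≠ 0 ∧ ∃ a₁ : Fk₁, a₁ ≠ 0 ∧ N.S₁.red (g₀ / algebraMap K F c₁) = a₁ ^ p) →
      (∃ c₂ : K, c₂ ≠ 0 ∧ ∃ a₂ : Fk₂, a₂ ≠ 0 ∧ N.S₂.red (g₀ / algebraMap K F c₂) = a₂ ^ p) →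
      ∃ (P : Fin g → Place K F) (Dl : Divisor.degZero (K := K) (F := F)) (hl : F),
        (∀ i, N.r (P i) = some (NS.Rb i)) ∧ (∀ t ∈ Γ, ∀ i, t • P i = P i) ∧
        (Dl : Divisor K F) = PTor.jacobiDiv NS P ∧ Pic0.mk Dl = l ∧
        N.RedTrivial (Dl : Divisor K F) ∧ (∀ t ∈ Γ, t • (Dl : Divisor K F) = Dl) ∧
        hl ≠ 0 ∧ (∀ v : Place K F, v.ord hl = p * (Dl : Divisor K F) v) ∧
        N.S₁.red hl = 1 ∧ N.S₂.red hl = 1 ∧ ∀ t ∈ Γ, t • hl = hl

/-! ### one valuation -/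

/-- dividing a function with constant reduction `cb ≠ 0` by a lift of `cb`. -/
theorem jac_red_div_const (S : ValSetup K F k Fk) {W : F} {cb : k} (hcb : cb ≠ 0)
    (hW : S.red W = algebraMap k Fk cb) {a : K} (ha : a ∈ S.A) (hres : S.res ⟨a, ha⟩ = cb) :
    S.red (W / algebraMap K F a) = 1 := by
  have hcbF : algebraMap k Fk cb ≠ 0 := by simpa using hcb
  have hared : S.red (algebraMap K F a) = algebraMap k Fk cb := by
    rw [S.red_algebraMap ha, hres]
  have hane : S.red (algebraMap K F a) ≠ 0 := by rw [hared]; exact hcbF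
  have hWne : S.red W ≠ 0 := by rw [hW]; exact hcbF
  rw [div_eq_mul_inv, S.red_mul (S.mem_of_red_ne_zero hWne) (S.inv_mem_of_red_ne_zero hane),
    S.red_inv (S.mem_of_red_ne_zero hane) (S.inv_mem_of_red_ne_zero hane)
      (S.ne_zero_of_red_ne_zero hane), hW, hared]
  exact mul_inv_cancel₀ hcbF

/-- a constant `e` with `e * u` a unit, `red u = 1`, lies in `A` and `red (e * u)` is its
residue. -/
theorem jac_const_of_unit (S : ValSetup K F k Fk) {u : F} (hu : S.red u = 1) {e : K}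
    (hne : S.red (algebraMap K F e * u) ≠ 0) :
    ∃ he : e ∈ S.A, S.res ⟨e, he⟩ ≠ 0 ∧
      S.red (algebraMap K F e * u) = algebraMap k Fk (S.res ⟨e, he⟩) := by
  have hu1 : S.red u ≠ 0 := by rw [hu]; exact one_ne_zero
  have hu0 := S.ne_zero_of_red_ne_zero hu1
  have hmem : algebraMap K F e ∈ S.Ov := by
    have e1 : algebraMap K F e = algebraMap K F e * u * u⁻¹ := by
      rw [mul_assoc, mul_inv_cancel₀ hu0, mul_one]
    rw [e1]
    exact mul_mem (S.mem_of_red_ne_zero hne) (S.inv_mem_of_red_ne_zero hu1)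
  have he : e ∈ S.A := (S.mem_Ov_iff e).mp hmem
  have hred : S.red (algebraMap K F e * u) = algebraMap k Fk (S.res ⟨e, he⟩) := by
    rw [S.red_mul hmem (S.mem_of_red_ne_zero hu1), hu, mul_one, S.red_algebraMap he]
  refine ⟨he, ?_, hred⟩
  intro h0
  rw [hred, h0, map_zero] at hne
  exact hne rfl

/-! ### the Kummer generator of a Jacobi form -/

variable {N : NodalSetup K F k Fk₁ Fk₂ ι} {g : ℕ}

/-- **normalisation**: a function whose divisor is a multiple of a Jacobi form is, up to ONE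
constant, a unit of both valuation rings with both reductions `1`. -/
theorem jac_normalise (NS : NodalNS N g) (P : Fin g → Place K F)
    (hP : ∀ i, N.r (P i) = some (NS.Rb i)) (n : ℤ) {u : F} (hu : u ≠ 0)
    (hdiv : ∀ v : Place K F, v.ord u = n * PTor.jacobiDiv NS P v) :
    ∃ c : K, c ≠ 0 ∧ N.S₁.red (u / algebraMap K F c) = 1 ∧
      N.S₂.red (u / algebraMap K F c) = 1 := by
  classical
  have hoff : ∀ v, (∀ j ∈ (Finset.univ : Finset (Fin g)), N.r v ≠ some (NS.Rb j)) →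
      v.ord u = 0 := by
    intro v hv
    rw [hdiv, PCov.jacobiDiv_apply_of_ne NS P hP (fun i => hv i (Finset.mem_univ i)), mul_zero]
  have hdisc : ∀ j ∈ (Finset.univ : Finset (Fin g)),
      Finsupp.mapDomain N.r (divOf N.S₁.hF u) (some (NS.Rb j)) = 0 := by
    intro j _
    have hD : divOf N.S₁.hF u = n • PTor.jacobiDiv NS P := by
      ext v
      rw [divOf_apply, hdiv, Finsupp.smul_apply, smul_eq_mul]
    rw [hD, Finsupp.mapDomain_smul, PCov.jacobiDiv_mapDomain NS P hP, smul_zero]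
    rfl
  obtain ⟨c, hc0, hU, -⟩ := NK.kl_normalise₂ NS Finset.univ hu hoff hdisc
  have hord : ∀ v : Place K F, v.ord (u / algebraMap K F c) = v.ord u := fun v =>
    Fermat.Agent.S18Key.kl_ord_div_const v hc0 u
  have hdivW : divOf N.S₁.hF (u / algebraMap K F c) = divOf N.S₁.hF u := by
    ext v
    rw [divOf_apply, divOf_apply, hord]
  have hkey : ∀ j, NK.ordRed N (NS.Rb j) (u / algebraMap K F c) = 0 := by
    intro j
    have hsm := NK.isSm_of_r N (NS.r_R j)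
    have hd := hdisc j (Finset.mem_univ j)
    rw [← hdivW] at hd
    revert hd hsm
    generalize NS.Rb j = X
    intro hsm hd
    cases X with
    | inl Q => exact (NK.push_eq (S := NK.side₁ N) hU.u₁ Q hsm).symm.trans hd
    | inr Q => exact (NK.push_eq (S := NK.side₂ N) hU.u₂ Q hsm).symm.trans hd
  obtain ⟨cb, hcb₁, hcb₂⟩ := NK.red_const_of_reg NS Finset.univ hU.u₁.mem hU.u₂.mem
    (fun v hv => by rw [hord, hoff v hv]) (fun j _ => by rw [hkey j]; norm_num)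
  have hcb0 : cb ≠ 0 := by
    rintro rfl
    have := hU.u₁.red_ne_zero
    rw [NK.side₁_red, hcb₁, map_zero] at this
    exact this rfl
  obtain ⟨⟨a, haA⟩, ha⟩ := N.S₁.res_surj cb
  have haA₂ : a ∈ N.S₂.A := N.A_eq ▸ haA
  have ha₂ : N.S₂.res ⟨a, haA₂⟩ = cb := by rw [← N.res_eq a haA haA₂, ha]
  have ha0 : a ≠ 0 := by
    rintro rfl
    have h0 : N.S₁.res ⟨0, haA⟩ = 0 := map_zero N.S₁.res
    rw [h0] at ha
    exact hcb0 ha.symm
  have e : u / algebraMap K F (c * a) = u / algebraMap K F c / algebraMap K F a := by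
    rw [map_mul, div_div]
  refine ⟨c * a, mul_ne_zero hc0 ha0, ?_, ?_⟩
  · rw [e]
    exact jac_red_div_const N.S₁ hcb0 hcb₁ haA ha
  · rw [e]
    exact jac_red_div_const N.S₂ hcb0 hcb₂ haA₂ ha₂

/-- the Jacobi form has degree `0`. -/
theorem jac_degree_jacobiDiv (NS : NodalNS N g) (P : Fin g → Place K F) :
    Divisor.degree (PTor.jacobiDiv NS P) = 0 := by
  have hF : IsRRField K F := N.S₁.hF
  unfold PTor.jacobiDiv
  rw [map_sum]
  apply Finset.sum_eq_zero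
  intro i _
  rw [map_sub, Divisor.degree_single, Divisor.degree_single, hF.deg_one, hF.deg_one, sub_self]

/-- the Jacobi form is in the kernel of reduction. -/
theorem jac_redTrivial (NS : NodalNS N g) (P : Fin g → Place K F)
    (hP : ∀ i, N.r (P i) = some (NS.Rb i)) : N.RedTrivial (PTor.jacobiDiv NS P) :=
  ⟨PCov.jacobiDiv_isOrdDiv NS P hP, fun Q => by
    rw [PCov.jacobiDiv_mapDomain NS P hP]
    rfl⟩

/-- a Jacobi form with fixed points is fixed. -/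
theorem jac_smul_jacobiDiv (NS : NodalNS N g) (P : Fin g → Place K F)
    (t : SemilinearAut K F) (hR : ∀ i, t • NS.R i = NS.R i) (hPt : ∀ i, t • P i = P i) :
    t • PTor.jacobiDiv NS P = PTor.jacobiDiv NS P := by
  ext v
  rw [SemilinearAut.divisor_smul_apply, PCov.jacobiDiv_apply, PCov.jacobiDiv_apply]
  refine Finset.sum_congr rfl (fun i _ => ?_)
  rw [← jacUniq_single_smul t (P i) v, ← jacUniq_single_smul t (NS.R i) v, hR i, hPt i]

/-! ### (JAC) -/

/-- **(JAC)**. -/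
theorem exists_jac (NS : NodalNS N g) (hg : genusFF K F = g) (p : ℕ) (hp : p ≠ 0)
    (Γ : Subgroup (SemilinearAut K F)) (hΓ : ∀ t ∈ Γ, N.IsInertial t)
    (hR0 : PTor.OrdRepStatement N p)
    (hRfix : ∀ t ∈ Γ, ∀ i, t • NS.R i = NS.R i)
    (hH90 : ∀ f : F, f ≠ 0 → (∀ t ∈ Γ, ∃ a : K, t • f = algebraMap K F a * f) →
      ∃ a : K, a ≠ 0 ∧ ∀ t ∈ Γ, t • (algebraMap K F a * f) = algebraMap K F a * f)
    (hG1₁ : ∀ f : F, f ≠ 0 → (∀ t ∈ Γ, t • f = f) →
      ∃ a : K, a ≠ 0 ∧ (∀ t ∈ Γ, SemilinearAut.baseAut t a = a) ∧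
        N.S₁.red (f / algebraMap K F a) ≠ 0)
    (hres : ∀ γ : k, ∃ (a : K) (ha : a ∈ N.S₁.A),
      (∀ t ∈ Γ, SemilinearAut.baseAut t a = a) ∧ N.S₁.res ⟨a, ha⟩ = γ) :
    JacStatement N g NS p Γ := by
  classical
  intro l hlΓ E hE g₀ hg₀ hdiv h₁ h₂
  have hF : IsRRField K F := N.S₁.hF
  have hp' : (p : ℤ) ≠ 0 := by exact_mod_cast hp
  have hdvd : ∀ P : Place K F, (p : ℤ) ∣ P.ord g₀ := fun P => ⟨_, hdiv P⟩
  -- (R0) and (N2c)
  obtain ⟨φ, c, D, hφ0, hc0, hdeg, hredD, hordg₁, -, -⟩ := hR0 g₀ hg₀ hdvd h₁ h₂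
  obtain ⟨ψ, P, hψ0, hP, hEq⟩ := NJ.nodalJacobi N g NS hg D hdeg hredD
  have hcF : algebraMap K F c ≠ 0 := by simpa using hc0
  have hφp0 : φ ^ p ≠ 0 := pow_ne_zero _ hφ0
  have hDE : ∀ v : Place K F, D v = (E : Divisor K F) v + v.ord φ := by
    intro v
    have h := hordg₁ v
    rw [mul_assoc, repM_ord_const_mul v hc0 (mul_ne_zero hφp0 hg₀), v.ord_mul hφp0 hg₀,
      repM_ord_pow, hdiv v] at h
    have h2 : (p : ℤ) * (v.ord φ + (E : Divisor K F) v) = p * D v := by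
      rw [mul_add]
      exact h
    have h3 := mul_left_cancel₀ hp' h2
    rw [← h3]
    ring
  have hφψ0 : φ * ψ ≠ 0 := mul_ne_zero hφ0 hψ0
  have hJ : ∀ v : Place K F,
      PTor.jacobiDiv NS P v = (E : Divisor K F) v + v.ord (φ * ψ) := by
    intro v
    rw [PCov.jacobiDiv_apply, ← hEq v, hDE v, v.ord_mul hφ0 hψ0]
    ring
  -- the divisor `Dl`
  obtain ⟨Dl, hDlval⟩ : ∃ Dl : Divisor.degZero (K := K) (F := F),
      (Dl : Divisor K F) = PTor.jacobiDiv NS P :=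
    ⟨⟨PTor.jacobiDiv NS P, Divisor.mem_degZero.mpr (jac_degree_jacobiDiv NS P)⟩, rfl⟩
  have hDl : Pic0.mk Dl = l := by
    rw [← hE]
    have h0 : Pic0.mk (Dl - E) = 0 := by
      refine (QuotientAddGroup.eq_zero_iff _).mpr ?_
      refine ⟨φ * ψ, hφψ0, fun v => ?_⟩
      show ((Dl - E : Divisor.degZero (K := K) (F := F)) : Divisor K F) v = _
      rw [AddSubgroup.coe_sub, Finsupp.sub_apply, hDlval, hJ v]
      ring
    have h2 : Pic0.mk (Dl - E) = Pic0.mk Dl - Pic0.mk E := rfl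
    rw [h2, sub_eq_zero] at h0
    exact h0
  -- the points are fixed
  have hPfix : ∀ t ∈ Γ, ∀ i, t • P i = P i := by
    intro t ht
    have hcl : Pic0.mk (SemilinearAut.degZeroSMulHom t Dl - Dl) = 0 := by
      have : Pic0.mk (SemilinearAut.degZeroSMulHom t Dl - Dl) =
          t • Pic0.mk Dl - Pic0.mk Dl := rfl
      rw [this, hDl, hlΓ t ht, sub_self]
    obtain ⟨f, hf0, hfdiv⟩ := repM_exists_of_mk_eq_zero hcl
    refine jac_fixed_of_forms NS (hΓ t ht) (PTor.jacobiDiv NS P) NS.R P (hRfix t ht) hP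
      (φ := 1) (ψ := f) one_ne_zero hf0 (fun v => ?_) (fun v => ?_)
    · rw [Place.ord_one, add_zero, PCov.jacobiDiv_apply]
    · have h := hfdiv v
      simp only [AddSubgroup.coe_sub, SemilinearAut.coe_degZeroSMulHom, Finsupp.sub_apply] at h
      rw [hDlval] at h
      rw [← h]
      ring
  have hDlfix : ∀ t ∈ Γ, t • (Dl : Divisor K F) = Dl := by
    intro t ht
    rw [hDlval]
    exact jac_smul_jacobiDiv NS P t (hRfix t ht) (hPfix t ht)
  -- the Kummer generator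
  have hu₁0 : g₀ * (φ * ψ) ^ p ≠ 0 := mul_ne_zero hg₀ (pow_ne_zero _ hφψ0)
  have hu₁div : ∀ v : Place K F, v.ord (g₀ * (φ * ψ) ^ p) = (p : ℤ) * PTor.jacobiDiv NS P v := by
    intro v
    rw [v.ord_mul hg₀ (pow_ne_zero _ hφψ0), repM_ord_pow, hdiv v, hJ v]
    ring
  obtain ⟨c₁, hc₁0, hr₁, hr₂⟩ := jac_normalise NS P hP (p : ℤ) hu₁0 hu₁div
  have hc₁F : algebraMap K F c₁ ≠ 0 := by simpa using hc₁0
  obtain ⟨u₂, hu₂def⟩ : ∃ u₂ : F, u₂ = g₀ * (φ * ψ) ^ p / algebraMap K F c₁ := ⟨_, rfl⟩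
  rw [← hu₂def] at hr₁ hr₂
  have hu₂0 : u₂ ≠ 0 := by
    rw [hu₂def]
    exact div_ne_zero hu₁0 hc₁F
  have hu₂div : ∀ v : Place K F, v.ord u₂ = (p : ℤ) * (Dl : Divisor K F) v := by
    intro v
    rw [hu₂def, Fermat.Agent.S18Key.kl_ord_div_const v hc₁0, hu₁div, hDlval]
  -- Hilbert 90
  obtain ⟨a, ha0, hafix⟩ := hH90 u₂ hu₂0 (fun t ht =>
    repM_semi_of_div hF t hu₂0 (fun v => by
      rw [hu₂div, hu₂div, ← SemilinearAut.divisor_smul_apply, hDlfix t ht]))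
  have haF : algebraMap K F a ≠ 0 := by simpa using ha0
  have hf0 : algebraMap K F a * u₂ ≠ 0 := mul_ne_zero haF hu₂0
  obtain ⟨b, hb0, hbrat, hbred⟩ := hG1₁ _ hf0 hafix
  have hbF : algebraMap K F b ≠ 0 := by simpa using hb0
  have e1 : algebraMap K F a * u₂ / algebraMap K F b = algebraMap K F (a / b) * u₂ := by
    rw [map_div₀]
    field_simp
  rw [e1] at hbred
  obtain ⟨heA, hγ0, hγ⟩ := jac_const_of_unit N.S₁ hr₁ hbred
  have heA₂ : a / b ∈ N.S₂.A := N.A_eq ▸ heA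
  have hγ₂ : N.S₂.red (algebraMap K F (a / b) * u₂) =
      algebraMap k Fk₂ (N.S₁.res ⟨a / b, heA⟩) := by
    have hu1 : N.S₂.red u₂ ≠ 0 := by rw [hr₂]; exact one_ne_zero
    rw [N.S₂.red_mul ((N.S₂.mem_Ov_iff _).mpr heA₂) (N.S₂.mem_of_red_ne_zero hu1), hr₂, mul_one,
      N.S₂.red_algebraMap heA₂, N.res_eq (a / b) heA heA₂]
  obtain ⟨a', ha'A, ha'rat, ha'res⟩ := hres (N.S₁.res ⟨a / b, heA⟩)
  have ha'A₂ : a' ∈ N.S₂.A := N.A_eq ▸ ha'A
  have ha'res₂ : N.S₂.res ⟨a', ha'A₂⟩ = N.S₁.res ⟨a / b, heA⟩ := by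
    rw [← N.res_eq a' ha'A ha'A₂, ha'res]
  have ha'0 : a' ≠ 0 := by
    rintro rfl
    have h0 : N.S₁.res ⟨0, ha'A⟩ = 0 := map_zero N.S₁.res
    rw [h0] at ha'res
    exact hγ0 ha'res.symm
  have ha'F : algebraMap K F a' ≠ 0 := by simpa using ha'0
  -- the function `hl`
  refine ⟨P, Dl, algebraMap K F (a / b) * u₂ / algebraMap K F a', hP, hPfix, hDlval, hDl, ?_,
    hDlfix, ?_, ?_, ?_, ?_, ?_⟩
  · rw [hDlval]
    exact jac_redTrivial NS P hP
  · exact div_ne_zero (mul_ne_zero (by simpa using div_ne_zero ha0 hb0) hu₂0) ha'F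
  · intro v
    rw [Fermat.Agent.S18Key.kl_ord_div_const v ha'0,
      repM_ord_const_mul v (div_ne_zero ha0 hb0) hu₂0, hu₂div]
  · exact jac_red_div_const N.S₁ hγ0 hγ ha'A ha'res
  · exact jac_red_div_const N.S₂ hγ0 hγ₂ ha'A₂ ha'res₂
  · intro t ht
    have h1 : algebraMap K F (a / b) * u₂ / algebraMap K F a' =
        algebraMap K F a * u₂ / algebraMap K F b / algebraMap K F a' := by rw [e1]
    rw [h1]
    have h2 : t • (algebraMap K F a * u₂ / algebraMap K F b / algebraMap K F a') =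
        t • (algebraMap K F a * u₂) / algebraMap K F (SemilinearAut.baseAut t b) /
          algebraMap K F (SemilinearAut.baseAut t a') := by
      simp only [SemilinearAut.smul_def, map_div₀, SemilinearAut.commutes]
    rw [h2, hafix t ht, hbrat t ht, ha'rat t ht]

end Fermat.Agent.PeuD
end
end MergeWrap_Lib_BadRed_PeuD_Jac

section MergeWrap_Lib_BadRed_PeuD_JacNS -- from Lib/BadRed/PeuD/JacNS.lean

set_option autoImplicit false
set_option linter.style.haveILetI false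
set_option linter.unusedSectionVars false

noncomputable section

open AlgebraicCurve Fermat.Agent.RR Fermat.Agent.Deuring

namespace Fermat.Agent.BadRed

variable {K F k Fk₁ Fk₂ : Type*} [Field K] [Field F] [Algebra K F]
  [Field k] [Field Fk₁] [Algebra k Fk₁] [Field Fk₂] [Algebra k Fk₂] {ι : Type*}

variable (N : NodalSetup K F k Fk₁ Fk₂ ι)

/-- the lifting property (LIFT) with lifts satisfying the property `Pr`. -/
def NodalSetup.HasLiftProp (Pr : F → Prop) (D₀ : Divisor K F) (R₁ : Divisor k Fk₁)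
    (R₂ : Divisor k Fk₂) : Prop :=
  ∃ m₀ : ℕ, ∀ m : ℕ, m₀ ≤ m → ∀ (a : Fk₁) (b : Fk₂),
    (a, b) ∈ nodalRR N.s₁ N.s₂ (m • R₁) (m • R₂) →
    ∃ f : F, f ∈ riemannRochSpace (m • D₀) ∧ f ∈ N.S₁.Ov ∧ f ∈ N.S₂.Ov ∧
      N.S₁.red f = a ∧ N.S₂.red f = b ∧ Pr f

/-- the lifting property (LIFT) with lifts fixed by `Γ`. -/
def NodalSetup.HasLiftFix (Γ : Set (SemilinearAut K F)) (D₀ : Divisor K F)
    (R₁ : Divisor k Fk₁) (R₂ : Divisor k Fk₂) : Prop :=
  ∃ m₀ : ℕ, ∀ m : ℕ, m₀ ≤ m → ∀ (a : Fk₁) (b : Fk₂),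
    (a, b) ∈ nodalRR N.s₁ N.s₂ (m • R₁) (m • R₂) →
    ∃ f : F, f ∈ riemannRochSpace (m • D₀) ∧ f ∈ N.S₁.Ov ∧ f ∈ N.S₂.Ov ∧
      N.S₁.red f = a ∧ N.S₂.red f = b ∧ ∀ t ∈ Γ, t • f = f

theorem NodalSetup.hasLiftFix_iff (Γ : Set (SemilinearAut K F)) (D₀ : Divisor K F)
    (R₁ : Divisor k Fk₁) (R₂ : Divisor k Fk₂) :
    N.HasLiftFix Γ D₀ R₁ R₂ ↔ N.HasLiftProp (fun f => ∀ t ∈ Γ, t • f = f) D₀ R₁ R₂ :=
  Iff.rfl

theorem NodalSetup.HasLiftProp.hasLift {Pr : F → Prop} {D₀ : Divisor K F}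
    {R₁ : Divisor k Fk₁} {R₂ : Divisor k Fk₂} (h : N.HasLiftProp Pr D₀ R₁ R₂) :
    N.HasLift D₀ R₁ R₂ := by
  obtain ⟨m₀, hm₀⟩ := h
  refine ⟨m₀, fun m hm a b hab => ?_⟩
  obtain ⟨f, h1, h2, h3, h4, h5, -⟩ := hm₀ m hm a b hab
  exact ⟨f, h1, h2, h3, h4, h5⟩

end Fermat.Agent.BadRed

namespace Fermat.Agent.PeuD

open Fermat.Agent.BadRed

variable {K F k Fk₁ Fk₂ : Type*} [Field K] [Field F] [Algebra K F]
  [Field k] [Field Fk₁] [Algebra k Fk₁] [Field Fk₂] [Algebra k Fk₂] {ι : Type*}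

variable (N : NodalSetup K F k Fk₁ Fk₂ ι)

/-- **construction of `NodalNS` from (LIFT) with a property**: the parameters `t i` satisfy
`Pr`. -/
theorem exists_nodalNS_prop [IsAlgClosed k] [Fintype ι] [Nonempty ι]
    (hg : N.GenusRel) (Pr : F → Prop) (D₀ : Divisor K F) (R₁ : Divisor k Fk₁)
    (R₂ : Divisor k Fk₂)
    (hR₁ : 0 < Divisor.degree R₁) (hR₂ : 0 < Divisor.degree R₂)
    (hn₁ : ∀ i, R₁ (N.s₁ i) = 0) (hn₂ : ∀ i, R₂ (N.s₂ i) = 0)
    (hlift : N.HasLiftProp Pr D₀ R₁ R₂) :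
    ∃ NS : NodalNS N (genusFF K F), ∀ i, Pr (NS.t i) := by
  classical
  haveI : Infinite k := IsAlgClosed.instInfinite
  haveI : Infinite (Place k Fk₁) := infinite_place N.S₁.hFk
  obtain ⟨Rb, hinj, havoid, hnode₁, hnode₂, hns⟩ :=
    exists_nodal_nonspecial_fin N.S₁.hFk N.S₂.hFk N.s₁ N.s₂ N.s₁_inj
      (fun _ => N.liftAvoid D₀ R₁ R₂) (genusFF K F) hg
  have hav := fun i => N.notMem_liftAvoid (havoid i)
  obtain ⟨m₀, hm₀⟩ := hlift
  -- the multiple
  set m : ℕ := max m₀ (2 * (genusFF k Fk₁ + genusFF k Fk₂) + Fintype.card ι + 1) with hm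
  have hm1 : m₀ ≤ m := le_max_left _ _
  have hm2 : 2 * (genusFF k Fk₁ + genusFF k Fk₂) + Fintype.card ι + 1 ≤ m := le_max_right _ _
  have hm2' : (2 * ((genusFF k Fk₁ : ℤ) + genusFF k Fk₂) + Fintype.card ι + 1 : ℤ) ≤ m := by
    exact_mod_cast hm2
  have hdeg₁ : 2 * (genusFF k Fk₁ : ℤ) + Fintype.card ι < Divisor.degree (m • R₁) := by
    rw [map_nsmul, nsmul_eq_mul]
    have h3 : (m : ℤ) ≤ m * Divisor.degree R₁ := by
      have := Int.natCast_nonneg m
      nlinarith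
    have := Int.natCast_nonneg (genusFF k Fk₂)
    omega
  have hdeg₂ : 2 * (genusFF k Fk₂ : ℤ) + Fintype.card ι < Divisor.degree (m • R₂) := by
    rw [map_nsmul, nsmul_eq_mul]
    have h3 : (m : ℤ) ≤ m * Divisor.degree R₂ := by
      have := Int.natCast_nonneg m
      nlinarith
    have := Int.natCast_nonneg (genusFF k Fk₁)
    omega
  -- the parameters
  have hpar : ∀ i, ∃ t : F, t ∈ riemannRochSpace (m • D₀) ∧ t ∈ N.S₁.Ov ∧ t ∈ N.S₂.Ov ∧
      N.S₁.red t ≠ 0 ∧ N.S₂.red t ≠ 0 ∧ pairOrd (Rb i) (N.S₁.red t) (N.S₂.red t) = 1 ∧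
        (∀ j, j ≠ i → pairOrd (Rb j) (N.S₁.red t) (N.S₂.red t) = 0) ∧ Pr t := by
    intro i
    obtain ⟨a, b, ha0, hb0, hab, hself, hother⟩ := N.exists_pair_at Rb hinj (m • R₁) (m • R₂)
      (fun j => by rw [Finsupp.smul_apply, hn₁ j, smul_zero])
      (fun j => by rw [Finsupp.smul_apply, hn₂ j, smul_zero])
      (fun j Q hQ => by rw [Finsupp.smul_apply, (hav j).1 Q hQ, smul_zero])
      (fun j Q hQ => by rw [Finsupp.smul_apply, (hav j).2.1 Q hQ, smul_zero])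
      hnode₁ hnode₂ hdeg₁ hdeg₂ i
    obtain ⟨t, ht, ht₁, ht₂, hra, hrb, hPr⟩ := hm₀ m hm1 a b hab
    refine ⟨t, ht, ht₁, ht₂, by rw [hra]; exact ha0, by rw [hrb]; exact hb0, ?_, ?_, hPr⟩
    · rw [hra, hrb]; exact hself
    · intro j hj
      rw [hra, hrb]; exact hother j hj
  choose t ht ht₁ ht₂ hred₁ hred₂ hself hother hPr using hpar
  -- the lifts
  have hlifts : ∀ i, ∃ R : Place K F, N.r R = some (Rb i) ∧ 0 < R.ord (t i) := fun i =>
    N.exists_zero_of_pairOrd_pos (hred₁ i) (hred₂ i) (Rb i) (hnode₁ i) (hnode₂ i)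
      (by rw [hself i]; norm_num)
  choose R hrR hRpos using hlifts
  -- the base point
  obtain ⟨Q₀, hQ₀⟩ := Infinite.exists_notMem_finset
    ((Finset.univ.image N.s₁) ∪ (Finset.univ.image Rb).toLeft)
  rw [Finset.mem_union, not_or] at hQ₀
  have hQ₀n : ∀ i, Q₀ ≠ N.s₁ i := fun i h =>
    hQ₀.1 (Finset.mem_image.mpr ⟨i, Finset.mem_univ _, h.symm⟩)
  have hQ₀R : ∀ i, Rb i ≠ Sum.inl Q₀ := fun i h =>
    hQ₀.2 (Finset.mem_toLeft.mpr (Finset.mem_image.mpr ⟨i, Finset.mem_univ _, h⟩))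
  obtain ⟨P0, hP0⟩ := N.r_surj₁ Q₀ hQ₀n
  refine ⟨{
    Rb := Rb
    Rb_inj := hinj
    R := R
    r_R := hrR
    t := t
    t_mem₁ := ht₁
    t_mem₂ := ht₂
    t_red₁ := hred₁
    t_red₂ := hred₂
    ord_t_self := hself
    ord_t_other := fun i j hij => hother i j (Ne.symm hij)
    t_reg := fun i j P hP => by
      have h0 : t i ≠ 0 := N.S₁.ne_zero_of_red_ne_zero (hred₁ i)
      have h1 := ((mem_riemannRochSpace_iff.mp (ht i)) P).resolve_left h0
      rw [Finsupp.smul_apply, (hav j).2.2 P hP, smul_zero, neg_zero] at h1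
      exact h1
    t_R := hRpos
    nonspecial := fun f b hnod h1 h2 h3 => by
      refine hns f b h1 ?_ h2 ?_ (fun i => (hnod i).2.2)
      · intro Q
        by_cases hQ : ∃ i, Rb i = Sum.inl Q
        · obtain ⟨i, hi⟩ := hQ
          have := h3 i
          rw [hi] at this
          exact this
        · push Not at hQ
          have := h1 Q hQ
          omega
      · intro Q
        by_cases hQ : ∃ i, Rb i = Sum.inr Q
        · obtain ⟨i, hi⟩ := hQ
          have := h3 i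
          rw [hi] at this
          exact this
        · push Not at hQ
          have := h2 Q hQ
          omega
    P0 := P0
    P0_ord := ⟨_, hP0⟩
    r_P0 := fun i h => hQ₀R i (by
      rw [hP0] at h
      exact (Option.some.inj h).symm) }, hPr⟩

/-- **JAC-NS**: a `NodalNS` with `Γ`-fixed parameters, from (LIFT) with `Γ`-fixed lifts. -/
theorem exists_nodalNS_fix [IsAlgClosed k] [Fintype ι] [Nonempty ι]
    (hg : N.GenusRel) (Γ : Set (SemilinearAut K F)) (D₀ : Divisor K F) (R₁ : Divisor k Fk₁)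
    (R₂ : Divisor k Fk₂)
    (hR₁ : 0 < Divisor.degree R₁) (hR₂ : 0 < Divisor.degree R₂)
    (hn₁ : ∀ i, R₁ (N.s₁ i) = 0) (hn₂ : ∀ i, R₂ (N.s₂ i) = 0)
    (hlift : N.HasLiftFix Γ D₀ R₁ R₂) :
    ∃ NS : NodalNS N (genusFF K F), ∀ t ∈ Γ, ∀ i, t • NS.t i = NS.t i := by
  obtain ⟨NS, h⟩ := exists_nodalNS_prop N hg (fun f => ∀ t ∈ Γ, t • f = f) D₀ R₁ R₂ hR₁ hR₂
    hn₁ hn₂ hlift
  exact ⟨NS, fun t ht i => h i t ht⟩

variable {N}

/-- `HasLiftFix` from `HasLift` and (LiftFix). -/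
theorem hasLiftFix_of_liftFix {Γ : Set (SemilinearAut K F)} {D₀ : Divisor K F}
    {R₁ : Divisor k Fk₁} {R₂ : Divisor k Fk₂} (hlift : N.HasLift D₀ R₁ R₂)
    (hfix : ∀ (m : ℕ) (f : F), f ∈ riemannRochSpace (m • D₀) → f ∈ N.S₁.Ov → f ∈ N.S₂.Ov →
      ∃ g : F, g ∈ riemannRochSpace (m • D₀) ∧ g ∈ N.S₁.Ov ∧ g ∈ N.S₂.Ov ∧
        N.S₁.red g = N.S₁.red f ∧ N.S₂.red g = N.S₂.red f ∧ ∀ t ∈ Γ, t • g = g) :
    N.HasLiftFix Γ D₀ R₁ R₂ := by
  obtain ⟨m₀, hm₀⟩ := hlift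
  refine ⟨m₀, fun m hm a b hab => ?_⟩
  obtain ⟨f, h1, h2, h3, h4, h5⟩ := hm₀ m hm a b hab
  obtain ⟨g, g1, g2, g3, g4, g5, g6⟩ := hfix m f h1 h2 h3
  exact ⟨g, g1, g2, g3, g4.trans h4, g5.trans h5, g6⟩

/-- **JAC-NS + JAC-FIX**: a `NodalNS` whose parameters AND base points are fixed by `Γ`
(`Γ` inertial). -/
theorem exists_nodalNS_fix_R [IsAlgClosed k] [Fintype ι] [Nonempty ι]
    (hg : N.GenusRel) (Γ : Set (SemilinearAut K F)) (hΓ : ∀ t ∈ Γ, N.IsInertial t)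
    (D₀ : Divisor K F) (R₁ : Divisor k Fk₁) (R₂ : Divisor k Fk₂)
    (hR₁ : 0 < Divisor.degree R₁) (hR₂ : 0 < Divisor.degree R₂)
    (hn₁ : ∀ i, R₁ (N.s₁ i) = 0) (hn₂ : ∀ i, R₂ (N.s₂ i) = 0)
    (hlift : N.HasLiftFix Γ D₀ R₁ R₂) :
    ∃ NS : NodalNS N (genusFF K F), (∀ t ∈ Γ, ∀ i, t • NS.t i = NS.t i) ∧
      ∀ t ∈ Γ, ∀ i, t • NS.R i = NS.R i := by
  obtain ⟨NS, h⟩ := exists_nodalNS_fix N hg Γ D₀ R₁ R₂ hR₁ hR₂ hn₁ hn₂ hlift
  exact ⟨NS, h, fun t ht i => nodalNS_smul_R NS i (hΓ t ht) (h t ht i)⟩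

/-- the hypothesis `hUniq` of `exists_jac` (JAC-UNIQ), in unfolded form. -/
theorem jacUniqStatement_all {g : ℕ} (NS : NodalNS N g) :
    ∀ P P' : Fin g → Place K F, (∀ i, N.r (P i) = some (NS.Rb i)) →
      (∀ i, N.r (P' i) = some (NS.Rb i)) → ∀ φ : F, φ ≠ 0 →
      (∀ v : Place K F, v.ord φ =
        ∑ i, (Finsupp.single (P i) (1 : ℤ) v - Finsupp.single (P' i) (1 : ℤ) v)) →
      ∀ i, P i = P' i :=
  fun P P' hP hP' _ hφ hdiv => jac_uniq NS P P' hP hP' hφ hdiv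

end Fermat.Agent.PeuD
end
end MergeWrap_Lib_BadRed_PeuD_JacNS

section MergeWrap_Lib_BadRed_PeuD_JacNSSeed -- from Lib/BadRed/PeuD/JacNSSeed.lean

set_option autoImplicit false
set_option linter.style.haveILetI false
set_option linter.unusedSectionVars false

noncomputable section

open AlgebraicCurve Fermat.Agent.RR Fermat.Agent.Deuring Fermat.Agent.BadRed

namespace Fermat.Agent.PeuD

variable {K F k Fk₁ Fk₂ : Type*} [Field K] [Field F] [Algebra K F]
  [Field k] [Field Fk₁] [Algebra k Fk₁] [Field Fk₂] [Algebra k Fk₂] {ι : Type*} [Fintype ι]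

/-- (LiftFix) for a seed: every function of `L(m D₀) ∩ O₁ ∩ O₂` has the same pair reduction as
a `Γ`-fixed one. -/
def SeedLiftFix (N : NodalSeed K F k Fk₁ Fk₂ ι) (Γ : Set (SemilinearAut K F)) : Prop :=
  ∀ (m : ℕ) (f : F), f ∈ riemannRochSpace (m • N.D₀) → f ∈ N.S₁.Ov → f ∈ N.S₂.Ov →
    ∃ g : F, g ∈ riemannRochSpace (m • N.D₀) ∧ g ∈ N.S₁.Ov ∧ g ∈ N.S₂.Ov ∧
      N.S₁.red g = N.S₁.red f ∧ N.S₂.red g = N.S₂.red f ∧ ∀ t ∈ Γ, t • g = g

variable [Infinite k]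

/-- (LIFT) with `Γ`-fixed lifts, for the nodal package of a seed. -/
theorem seed_hasLiftFix (N : NodalSeed K F k Fk₁ Fk₂ ι) {Γ : Set (SemilinearAut K F)}
    (hfix : SeedLiftFix N Γ) : N.nodalSetup.HasLiftFix Γ N.D₀ N.R₁ N.R₂ :=
  hasLiftFix_of_liftFix (N := N.nodalSetup) N.nodalSetup_hasLift hfix

/-- **JAC-NS, seed form**: a `NodalNS` of the nodal package of a seed whose parameters and base
points are fixed by `Γ`. -/
theorem seed_exists_nodalNS_fix [IsAlgClosed k] [Nonempty ι] (N : NodalSeed K F k Fk₁ Fk₂ ι)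
    {Γ : Set (SemilinearAut K F)} (hΓ : ∀ t ∈ Γ, N.nodalSetup.IsInertial t)
    (hfix : SeedLiftFix N Γ) :
    ∃ NS : NodalNS N.nodalSetup (genusFF K F), (∀ t ∈ Γ, ∀ i, t • NS.t i = NS.t i) ∧
      ∀ t ∈ Γ, ∀ i, t • NS.R i = NS.R i :=
  exists_nodalNS_fix_R (N := N.nodalSetup) N.nodalSetup_genusRel Γ hΓ N.D₀ N.R₁ N.R₂
    N.R₁_pos N.R₂_pos N.R₁_node N.R₂_node (seed_hasLiftFix N hfix)

/-- **JAC-NS + JAC-UNIQ + JAC-FIX, seed form**: the package consumed by (JAC): a `NodalNS` with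
`Γ`-fixed base points, for which the Jacobi form is unique and the points of the Jacobi form of
a divisor with `Γ`-invariant class are `Γ`-fixed. -/
theorem seed_exists_nodalNS_jac [IsAlgClosed k] [Nonempty ι] (N : NodalSeed K F k Fk₁ Fk₂ ι)
    {Γ : Set (SemilinearAut K F)} (hΓ : ∀ t ∈ Γ, N.nodalSetup.IsInertial t)
    (hfix : SeedLiftFix N Γ) :
    ∃ NS : NodalNS N.nodalSetup (genusFF K F),
      (∀ t ∈ Γ, ∀ i, t • NS.t i = NS.t i) ∧ (∀ t ∈ Γ, ∀ i, t • NS.R i = NS.R i) ∧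
      (∀ P P' : Fin (genusFF K F) → Place K F, (∀ i, N.nodalSetup.r (P i) = some (NS.Rb i)) →
        (∀ i, N.nodalSetup.r (P' i) = some (NS.Rb i)) → ∀ φ : F, φ ≠ 0 →
        (∀ v : Place K F, v.ord φ =
          ∑ i, (Finsupp.single (P i) (1 : ℤ) v - Finsupp.single (P' i) (1 : ℤ) v)) →
        ∀ i, P i = P' i) ∧
      (∀ t ∈ Γ, ∀ (D : Divisor K F) (P : Fin (genusFF K F) → Place K F),
        (∀ i, N.nodalSetup.r (P i) = some (NS.Rb i)) → ∀ φ ψ : F, φ ≠ 0 → ψ ≠ 0 →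
        (∀ v : Place K F, D v + v.ord φ =
          ∑ i, (Finsupp.single (P i) (1 : ℤ) v - Finsupp.single (NS.R i) (1 : ℤ) v)) →
        (∀ v : Place K F, (t • D) v = D v + v.ord ψ) → ∀ i, t • P i = P i) := by
  obtain ⟨NS, ht, hR⟩ := seed_exists_nodalNS_fix N hΓ hfix
  exact ⟨NS, ht, hR, jacUniqStatement_all NS, fun t htΓ D P hP φ ψ hφ hψ hE hD =>
    jac_fixed NS (hΓ t htΓ) (ht t htΓ) D P hP hφ hψ hE hD⟩

end Fermat.Agent.PeuD
end
end MergeWrap_Lib_BadRed_PeuD_JacNSSeed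

section MergeWrap_Lib_BadRed_PeuD_JacSeed -- from Lib/BadRed/PeuD/JacSeed.lean

set_option autoImplicit false
set_option linter.unusedSectionVars false
set_option linter.unusedVariables false
set_option linter.style.haveILetI false

noncomputable section

open AlgebraicCurve Fermat.Agent.RR Fermat.Agent.Deuring Fermat.Agent.BadRed

namespace Fermat.Agent.PeuD

variable {K F k Fk₁ Fk₂ : Type*} [Field K] [Field F] [Algebra K F]
  [Field k] [Field Fk₁] [Algebra k Fk₁] [Field Fk₂] [Algebra k Fk₂] {ι : Type*} [Fintype ι]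

/-- **(JAC), seed form.** -/
theorem seed_jac [IsAlgClosed K] [IsAlgClosed k] [Nonempty ι] (N : NodalSeed K F k Fk₁ Fk₂ ι)
    (p : ℕ) [Fact p.Prime] [CharP k p]
    (Γ : Subgroup (SemilinearAut K F)) (hΓ : ∀ t ∈ Γ, N.nodalSetup.IsInertial t)
    (hfix : SeedLiftFix N (Γ : Set (SemilinearAut K F)))
    (hH90 : ∀ f : F, f ≠ 0 → (∀ t ∈ Γ, ∃ a : K, t • f = algebraMap K F a * f) →
      ∃ a : K, a ≠ 0 ∧ ∀ t ∈ Γ, t • (algebraMap K F a * f) = algebraMap K F a * f)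
    (hG1₁ : ∀ f : F, f ≠ 0 → (∀ t ∈ Γ, t • f = f) →
      ∃ a : K, a ≠ 0 ∧ (∀ t ∈ Γ, SemilinearAut.baseAut t a = a) ∧
        N.nodalSetup.S₁.red (f / algebraMap K F a) ≠ 0)
    (hres : ∀ γ : k, ∃ (a : K) (ha : a ∈ N.nodalSetup.S₁.A),
      (∀ t ∈ Γ, SemilinearAut.baseAut t a = a) ∧ N.nodalSetup.S₁.res ⟨a, ha⟩ = γ) :
    ∃ NS : NodalNS N.nodalSetup (genusFF K F),
      (∀ t ∈ Γ, ∀ i, t • NS.t i = NS.t i) ∧ (∀ t ∈ Γ, ∀ i, t • NS.R i = NS.R i) ∧
      JacStatement N.nodalSetup (genusFF K F) NS p Γ := by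
  haveI : Infinite k := IsAlgClosed.instInfinite
  obtain ⟨NS, ht, hR⟩ := seed_exists_nodalNS_fix N (Γ := (Γ : Set (SemilinearAut K F)))
    (fun t h => hΓ t h) hfix
  refine ⟨NS, fun t h => ht t h, fun t h => hR t h, ?_⟩
  exact exists_jac NS rfl p (Fact.out : p.Prime).ne_zero Γ hΓ
    (NodalP.ordRepStatement_of_isAlgClosed p N.nodalSetup_genusRel) (fun t h => hR t h)
    hH90 hG1₁ hres

end Fermat.Agent.PeuD
end
end MergeWrap_Lib_BadRed_PeuD_JacSeed

section MergeWrap_Lib_BadRed_PeuD_ResLift -- from Lib/BadRed/PeuD/ResLift.lean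

set_option autoImplicit false
set_option linter.style.haveILetI false

noncomputable section

namespace Fermat.Agent.PeuD

open Polynomial

local notation "Qb" => AlgebraicClosure ℚ

/-! ### finite fields: algebraic elements have order prime to `p` -/

/-- a nonzero element of a field of characteristic `p` which is algebraic over the prime field has
finite order prime to `p`. -/
theorem resLift_pow_eq_one {k : Type*} [Field k] (p : ℕ) [Fact p.Prime] [Algebra (ZMod p) k]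
    (x : k) (hx0 : x ≠ 0) (hx : IsAlgebraic (ZMod p) x) :
    ∃ n : ℕ, 0 < n ∧ ¬ p ∣ n ∧ x ^ n = 1 := by
  classical
  haveI : FiniteDimensional (ZMod p) (IntermediateField.adjoin (ZMod p) {x}) :=
    IntermediateField.adjoin.finiteDimensional hx.isIntegral
  haveI : Finite (IntermediateField.adjoin (ZMod p) {x}) := Module.finite_of_finite (ZMod p)
  letI : Fintype (IntermediateField.adjoin (ZMod p) {x}) := Fintype.ofFinite _
  haveI : CharP (IntermediateField.adjoin (ZMod p) {x}) p :=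
    charP_of_injective_algebraMap (algebraMap (ZMod p) _).injective p
  obtain ⟨f, -, hcard⟩ := FiniteField.card (IntermediateField.adjoin (ZMod p) {x}) p
  let y : IntermediateField.adjoin (ZMod p) {x} :=
    ⟨x, IntermediateField.mem_adjoin_simple_self (ZMod p) x⟩
  have hy0 : y ≠ 0 := fun h => hx0 (congrArg Subtype.val h)
  have hpow := FiniteField.pow_card_sub_one_eq_one y hy0
  rw [hcard] at hpow
  have hp2 : 2 ≤ p := (Fact.out : p.Prime).two_le
  have hpf : p ≤ p ^ (f : ℕ) := by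
    calc p = p ^ 1 := (pow_one p).symm
      _ ≤ p ^ (f : ℕ) := Nat.pow_le_pow_right (by omega) f.2
  refine ⟨p ^ (f : ℕ) - 1, by omega, ?_, ?_⟩
  · intro hdvd
    have h1 : p ∣ p ^ (f : ℕ) := dvd_pow_self p (PNat.ne_zero f)
    have h2 : p ∣ p ^ (f : ℕ) - (p ^ (f : ℕ) - 1) := Nat.dvd_sub h1 hdvd
    have h3 : p ^ (f : ℕ) - (p ^ (f : ℕ) - 1) = 1 := by omega
    rw [h3] at h2
    have := Nat.le_of_dvd one_pos h2
    omega
  · have := congrArg Subtype.val hpow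
    simpa [y] using this

/-! ### the residue field of a place of `ℚ̄` -/

variable (A : ValuationSubring Qb) {p : ℕ}

theorem resLift_natCast_mem_maximalIdeal (hA : A.LiesOverPrime p) :
    ((p : ℕ) : A) ∈ IsLocalRing.maximalIdeal A := by
  obtain ⟨ha, h⟩ := (A.mem_nonunits_iff_exists_mem_maximalIdeal).1 hA
  have : ((p : ℕ) : A) = ⟨(p : Qb), ha⟩ := Subtype.ext (by simp)
  rw [this]
  exact h

theorem resLift_charP (hp : p.Prime) (hA : A.LiesOverPrime p) :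
    CharP (IsLocalRing.ResidueField A) p := by
  rw [CharP.charP_iff_prime_eq_zero hp]
  have h := resLift_natCast_mem_maximalIdeal A hA
  rw [← IsLocalRing.residue_eq_zero_iff] at h
  simpa using h

/-- the residue of an element of `A` is algebraic over the prime field. -/
theorem resLift_isAlgebraic [Fact p.Prime] [Algebra (ZMod p) (IsLocalRing.ResidueField A)]
    (c : A) : IsAlgebraic (ZMod p) (IsLocalRing.residue A c) := by
  -- a primitive integral equation of `c`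
  have h1 : IsAlgebraic ℚ (c : Qb) := (AlgebraicClosure.isAlgebraic ℚ).isAlgebraic _
  have h2 : IsAlgebraic ℤ (c : Qb) := (IsFractionRing.isAlgebraic_iff ℤ ℚ Qb).mpr h1
  obtain ⟨P, hP0, hP⟩ := h2
  have hQ : aeval (c : Qb) P.primPart = 0 := aeval_primPart_eq_zero hP0 hP
  have hprim : P.primPart.IsPrimitive := P.isPrimitive_primPart
  refine ⟨P.primPart.map (Int.castRingHom (ZMod p)), ?_, ?_⟩
  · intro h0
    have hdvd : C (p : ℤ) ∣ P.primPart := by
      rw [C_dvd_iff_dvd_coeff]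
      intro i
      have := congrArg (fun R : (ZMod p)[X] => R.coeff i) h0
      simp only [coeff_map, coeff_zero, eq_intCast] at this
      exact (ZMod.intCast_zmod_eq_zero_iff_dvd _ p).mp this
    have hu := hprim _ hdvd
    have hp : p.Prime := Fact.out
    rw [Int.isUnit_iff] at hu
    rcases hu with hu | hu
    · have : p = 1 := by exact_mod_cast hu
      exact hp.one_lt.ne' this
    · have h3 : (0 : ℤ) ≤ p := Int.natCast_nonneg p
      omega
  · -- the equation holds in `A`, hence in the residue field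
    have hA0 : eval₂ (Int.castRingHom A) c P.primPart = 0 := by
      apply Subtype.ext
      have h4 : ((eval₂ (Int.castRingHom A) c P.primPart : A) : Qb)
          = eval₂ (Int.castRingHom Qb) (c : Qb) P.primPart := by
        have := hom_eval₂ P.primPart (Int.castRingHom A) A.subtype c
        rw [RingHom.eq_intCast' (A.subtype.comp (Int.castRingHom A))] at this
        exact this
      rw [h4, ZeroMemClass.coe_zero, ← hQ, aeval_def]
      congr 1
    rw [aeval_def, eval₂_map]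
    have h5 : (algebraMap (ZMod p) (IsLocalRing.ResidueField A)).comp (Int.castRingHom (ZMod p))
        = (IsLocalRing.residue A).comp (Int.castRingHom A) :=
      (RingHom.eq_intCast' _).trans (RingHom.eq_intCast' _).symm
    rw [h5, ← hom_eval₂, hA0, map_zero]

/-- **finite order of the residues**: an element of `A` is in `m_A` or a power of it, of
exponent prime to `p`, is `≡ 1`. -/
theorem resLift_pow_sub_one (hp : p.Prime) (hA : A.LiesOverPrime p) {c : Qb} (hc : c ∈ A) :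
    c ∈ A.nonunits ∨ ∃ n : ℕ, 0 < n ∧ ¬ p ∣ n ∧ c ^ n - 1 ∈ A.nonunits := by
  haveI : Fact p.Prime := ⟨hp⟩
  haveI := resLift_charP A hp hA
  letI : Algebra (ZMod p) (IsLocalRing.ResidueField A) := ZMod.algebra _ p
  by_cases h0 : IsLocalRing.residue A ⟨c, hc⟩ = 0
  · left
    rw [IsLocalRing.residue_eq_zero_iff] at h0
    exact (A.mem_nonunits_iff_exists_mem_maximalIdeal).2 ⟨hc, h0⟩
  · right
    obtain ⟨n, hn, hpn, hpow⟩ := resLift_pow_eq_one p _ h0 (resLift_isAlgebraic A ⟨c, hc⟩)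
    refine ⟨n, hn, hpn, ?_⟩
    have h1 : IsLocalRing.residue A ((⟨c, hc⟩ : A) ^ n - 1) = 0 := by
      rw [map_sub, map_pow, hpow, map_one, sub_self]
    rw [IsLocalRing.residue_eq_zero_iff] at h1
    exact (A.mem_nonunits_iff_exists_mem_maximalIdeal).2 ⟨_, h1⟩

/-! ### roots of unity -/

theorem resLift_val_lt_one_iff {a : Qb} : a ∈ A.nonunits ↔ A.valuation a < 1 :=
  A.mem_nonunits_iff

/-- a root of unity is a unit of `A`. -/
theorem resLift_val_root {ζ : Qb} {n : ℕ} (hn : 0 < n) (hζ : ζ ^ n = 1) :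
    A.valuation ζ = 1 := by
  have h1 : A.valuation ζ ^ n = 1 := by rw [← map_pow, hζ, map_one]
  exact (pow_eq_one_iff_of_nonneg zero_le hn.ne').mp h1

/-- a natural number prime to `p` is a unit of `A`. -/
theorem resLift_val_natCast (hp : p.Prime) (hA : A.LiesOverPrime p) {n : ℕ} (hpn : ¬ p ∣ n) :
    A.valuation (n : Qb) = 1 := by
  have hle : A.valuation (n : Qb) ≤ 1 := (A.valuation_le_one_iff _).2 (natCast_mem A n)
  refine le_antisymm hle ?_
  by_contra hlt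
  rw [not_le] at hlt
  have hcop : Nat.Coprime n p := ((Nat.Prime.coprime_iff_not_dvd hp).mpr hpn).symm
  obtain ⟨m, -, hm⟩ := Nat.exists_mul_mod_eq_one_of_coprime hcop hp.one_lt
  have hdiv := Nat.div_add_mod (n * m) p
  rw [hm] at hdiv
  -- `1 = n m - p t`
  have h1 : (1 : Qb) = (n : Qb) * (m : Qb) - (p : Qb) * ((n * m / p : ℕ) : Qb) := by
    have : ((p * (n * m / p) + 1 : ℕ) : Qb) = ((n * m : ℕ) : Qb) := by rw [hdiv]
    push_cast at this
    linear_combination this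
  have h2 : A.valuation ((n : Qb) * (m : Qb)) < 1 := by
    rw [map_mul]
    calc A.valuation (n : Qb) * A.valuation (m : Qb)
        ≤ A.valuation (n : Qb) * 1 :=
          mul_le_mul' le_rfl ((A.valuation_le_one_iff _).2 (natCast_mem A m))
      _ = A.valuation (n : Qb) := mul_one _
      _ < 1 := hlt
  have h3 : A.valuation ((p : Qb) * ((n * m / p : ℕ) : Qb)) < 1 := by
    rw [map_mul]
    calc A.valuation (p : Qb) * A.valuation ((n * m / p : ℕ) : Qb)
        ≤ A.valuation (p : Qb) * 1 :=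
          mul_le_mul' le_rfl ((A.valuation_le_one_iff _).2 (natCast_mem A _))
      _ = A.valuation (p : Qb) := mul_one _
      _ < 1 := (resLift_val_lt_one_iff A).mp hA
  have h4 : A.valuation (1 : Qb) < 1 := by
    rw [h1]
    exact Valuation.map_sub_lt _ h2 h3
  rw [map_one] at h4
  exact lt_irrefl _ h4

/-- two roots of unity of order prime to `p` which are congruent modulo `m_A` are equal. -/
theorem resLift_root_eq (hp : p.Prime) (hA : A.LiesOverPrime p) {n : ℕ} (hn : 0 < n)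
    (hpn : ¬ p ∣ n) {ζ ζ' : Qb} (hζ : ζ ^ n = 1) (hζ' : ζ' ^ n = 1)
    (h : ζ' - ζ ∈ A.nonunits) : ζ' = ζ := by
  by_contra hne
  have hζ0 : ζ ≠ 0 := by
    rintro rfl
    rw [zero_pow hn.ne'] at hζ
    exact zero_ne_one hζ
  set η : Qb := ζ' * ζ⁻¹ with hη
  have hηn : η ^ n = 1 := by rw [hη, mul_pow, inv_pow, hζ, hζ', inv_one, mul_one]
  have hη1 : η ≠ 1 := by
    intro h1
    apply hne
    have : ζ' = η * ζ := by rw [hη, mul_assoc, inv_mul_cancel₀ hζ0, mul_one]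
    rw [this, h1, one_mul]
  have hvη : A.valuation η = 1 := resLift_val_root A hn hηn
  have hvη1 : A.valuation (η - 1) < 1 := by
    have : η - 1 = (ζ' - ζ) * ζ⁻¹ := by rw [hη, sub_mul, mul_inv_cancel₀ hζ0]
    rw [this, map_mul, map_inv₀, resLift_val_root A hn hζ, inv_one, mul_one]
    exact (resLift_val_lt_one_iff A).mp h
  -- the geometric sum vanishes
  have hsum : ∑ i ∈ Finset.range n, η ^ i = 0 := by
    have h1 := geom_sum_mul η n
    rw [hηn, sub_self] at h1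
    rcases mul_eq_zero.mp h1 with h2 | h2
    · exact h2
    · exact absurd (sub_eq_zero.mp h2) hη1
  -- but it is `≡ n`
  have hpow : ∀ i : ℕ, A.valuation (η ^ i - 1) < 1 := by
    intro i
    rw [← mul_geom_sum η i, map_mul]
    have hle : A.valuation (∑ j ∈ Finset.range i, η ^ j) ≤ 1 := by
      apply Valuation.map_sum_le
      intro j _
      rw [map_pow, hvη, one_pow]
    calc A.valuation (η - 1) * A.valuation (∑ j ∈ Finset.range i, η ^ j)
        ≤ A.valuation (η - 1) * 1 := mul_le_mul' le_rfl hle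
      _ = A.valuation (η - 1) := mul_one _
      _ < 1 := hvη1
  have hn1 : A.valuation (∑ i ∈ Finset.range n, (η ^ i - 1)) < 1 :=
    Valuation.map_sum_lt _ one_ne_zero fun i _ => hpow i
  rw [Finset.sum_sub_distrib, hsum, Finset.sum_const, Finset.card_range, nsmul_eq_mul, mul_one,
    zero_sub, Valuation.map_neg, resLift_val_natCast A hp hA hpn] at hn1
  exact lt_irrefl _ hn1

/-! ### the lifting -/

/-- **(res)**: every element of `A` is congruent modulo `m_A` to an element of `A` which is fixed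
by the inertia group. -/
theorem resLift_exists (hp : p.Prime) (hA : A.LiesOverPrime p) {c : Qb} (hc : c ∈ A) :
    ∃ c₀ : Qb, c₀ ∈ A ∧ (∀ σ ∈ A.inertiaSubgroupIn ℚ, σ c₀ = c₀) ∧ c - c₀ ∈ A.nonunits := by
  classical
  rcases resLift_pow_sub_one A hp hA hc with h0 | ⟨n, hn, hpn, hcn⟩
  · exact ⟨0, zero_mem A, fun σ _ => map_zero σ, by rwa [sub_zero]⟩
  · -- the roots of `X ^ n - 1`
    have hn0 : (n : ℚ) ≠ 0 := by exact_mod_cast hn.ne'
    haveI : NeZero (n : ℚ) := ⟨hn0⟩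
    obtain ⟨ζ₀, hζ₀⟩ := HasEnoughRootsOfUnity.exists_primitiveRoot Qb n
    have hprod := X_pow_sub_one_eq_prod hn hζ₀
    have heval : c ^ n - 1 = ∏ ζ ∈ nthRootsFinset n (1 : Qb), (c - ζ) := by
      have := congrArg (eval c) hprod
      simpa [eval_prod] using this
    -- some factor is in `m_A`
    have hex : ∃ ζ ∈ nthRootsFinset n (1 : Qb), A.valuation (c - ζ) < 1 := by
      by_contra hcon
      push Not at hcon
      have hone : ∀ ζ ∈ nthRootsFinset n (1 : Qb), A.valuation (c - ζ) = 1 := by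
        intro ζ hζ
        refine le_antisymm ?_ (hcon ζ hζ)
        have hζn : ζ ^ n = 1 := (mem_nthRootsFinset hn (1 : Qb)).mp hζ
        have hζA : ζ ∈ A := (A.valuation_le_one_iff _).1 (resLift_val_root A hn hζn).le
        exact (A.valuation_le_one_iff _).2 (sub_mem hc hζA)
      have h1 : A.valuation (c ^ n - 1) = 1 := by
        rw [heval, map_prod]
        exact Finset.prod_eq_one hone
      have h2 := (resLift_val_lt_one_iff A).mp hcn
      rw [h1] at h2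
      exact lt_irrefl _ h2
    obtain ⟨ζ, hζ, hlt⟩ := hex
    have hζn : ζ ^ n = 1 := (mem_nthRootsFinset hn (1 : Qb)).mp hζ
    have hζA : ζ ∈ A := (A.valuation_le_one_iff _).1 (resLift_val_root A hn hζn).le
    refine ⟨ζ, hζA, fun σ hσ => ?_, (resLift_val_lt_one_iff A).mpr hlt⟩
    apply resLift_root_eq A hp hA hn hpn hζn
    · rw [← map_pow, hζn, map_one]
    · exact S05H5.inertiaIn_sub_mem_nonunits A σ hσ hζA

/-- **(res)** in the shape of `PeuD.pivot_lift`, for the inertia field `K0`. -/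
theorem resLift_fixedField (hp : p.Prime) (hA : A.LiesOverPrime p) (c : Qb)
    (hc : A.valuation c ≤ 1) :
    ∃ c₀ : IntermediateField.fixedField (A.inertiaSubgroupIn ℚ),
      A.valuation (c - algebraMap (IntermediateField.fixedField (A.inertiaSubgroupIn ℚ)) Qb c₀)
        < 1 := by
  obtain ⟨c₀, -, hfix, hlt⟩ := resLift_exists A hp hA ((A.valuation_le_one_iff c).1 hc)
  refine ⟨⟨c₀, ?_⟩, (resLift_val_lt_one_iff A).mp hlt⟩
  rw [IntermediateField.mem_fixedField_iff]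
  exact fun σ hσ => hfix σ hσ

end Fermat.Agent.PeuD
end
end MergeWrap_Lib_BadRed_PeuD_ResLift

section MergeWrap_Lib_BadRed_PeuD_JacMod -- from Lib/BadRed/PeuD/JacMod.lean

set_option autoImplicit false
set_option linter.style.haveILetI false
set_option linter.unusedSectionVars false
set_option linter.unusedVariables false
set_option synthInstance.maxHeartbeats 400000
set_option maxHeartbeats 1000000

noncomputable section

namespace Fermat.Agent.PeuD

open IntermediateField ModularCurve AlgebraicCurve Fermat.Agent.F3 Fermat.Agent.F3G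
  Fermat.Agent.GaussInt Fermat.Agent.AtkinLehner Fermat.Agent.Deuring Fermat.Agent.RR
  Fermat.Agent.BadRed Fermat.Agent.F3I2 Fermat.Agent.EKp

local notation "Qb" => AlgebraicClosure ℚ
local notation "GQb" => (AlgebraicClosure ℚ ≃ₐ[ℚ] AlgebraicClosure ℚ)

attribute [local instance] Fermat.Agent.BadRed.fwFintype

variable (D : ALData) [NeZero D.Q] [NeZero D.R] [NeZero (D.Q * D.R)]
  (A : ValuationSubring Qb) (hq : D.Q.Prime) (hA : A.LiesOverPrime D.Q) (hqR : ¬ D.Q ∣ D.R)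
  [Fact D.Q.Prime] [CharP (IsLocalRing.ResidueField A) D.Q]
  [PerfectRing (IsLocalRing.ResidueField A) D.Q]

/-- the image of a subgroup of `G_ℚ` in the semilinear automorphisms of `F_{QR}`. -/
def jacΓ (Γ₀ : Subgroup GQb) : Subgroup (SemilinearAut Qb (modularFunctionFieldBar (D.Q * D.R))) :=
  Γ₀.map (arithmeticGalois (modularFunctionFieldFull (D.Q * D.R)))

theorem mem_jacΓ {Γ₀ : Subgroup GQb} {τ : GQb} (hτ : τ ∈ Γ₀) :
    arithmeticGalois (modularFunctionFieldFull (D.Q * D.R)) τ ∈ jacΓ D Γ₀ :=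
  ⟨τ, hτ, rfl⟩

/-- the modular nodal package behind `kpN`. -/
def jacM (haux : AuxLevelOK D.Q D.R) : ModularNodal D A :=
  fwModularNodal D A hq hA hqR (kpS D A hq hA hqR) (isGaussSetup_gaussSetupBad D hq hqR A hA)
    (hasLattice_gaussSetupBad D hq hqR A hA) haux
    (fw_sep D A hq hA hqR _ (isGaussSetup_gaussSetupBad D hq hqR A hA) haux)

theorem jacM_N (haux : AuxLevelOK D.Q D.R) :
    (jacM D A hq hA hqR haux).N = kpN D A hq hA hqR haux := rfl

/-- a function with Gauss reduction `1` has `S₁`-reduction `1`. -/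
theorem jac_red_eq_one_of_redAt {f : FBar (D.Q * D.R)}
    (h : RedAt A (AlgEquiv.refl : FBar (D.Q * D.R) ≃ₐ[Qb] FBar (D.Q * D.R)) f 1) :
    (kpS D A hq hA hqR).red f = 1 := by
  have hS := isGaussSetup_gaussSetupBad D hq hqR A hA
  obtain ⟨hmem, hres⟩ := h
  rw [AlgEquiv.coe_refl, id] at hmem hres
  have hmem' : f ∈ (kpS D A hq hA hqR).Ov := (hS.mem_iff f).mpr hmem
  apply Subtype.ext
  rw [hS.coe_red f hmem', hres]
  rfl

/-- **(RES)** for the constants: every residue class contains an inertia-fixed element. -/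
theorem jac_res (γ : IsLocalRing.ResidueField A) :
    ∃ (a : Qb) (ha : a ∈ (kpS D A hq hA hqR).A),
      (∀ σ ∈ A.inertiaSubgroupIn ℚ, σ a = a) ∧ (kpS D A hq hA hqR).res ⟨a, ha⟩ = γ := by
  have hS := isGaussSetup_gaussSetupBad D hq hqR A hA
  obtain ⟨⟨x, hx⟩, rfl⟩ := (kpS D A hq hA hqR).res_surj γ
  have hxA : x ∈ A := hS.A_eq ▸ hx
  obtain ⟨c₀, hc₀A, hfix, hsub⟩ := resLift_exists A hq hA hxA
  have hc₀S : c₀ ∈ (kpS D A hq hA hqR).A := hS.A_eq.symm ▸ hc₀A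
  refine ⟨c₀, hc₀S, hfix, ?_⟩
  rw [hS.res_eq c₀ hc₀S hc₀A, hS.res_eq x hx hxA]
  have h1 : IsLocalRing.residue A (⟨x, hxA⟩ - ⟨c₀, hc₀A⟩) = 0 := by
    rw [IsLocalRing.residue_eq_zero_iff]
    exact ((A.mem_nonunits_iff_exists_mem_maximalIdeal).1 hsub).2
  rw [map_sub, sub_eq_zero] at h1
  exact h1.symm

/-- **JAC-MOD**, with (LiftFix) for the modular seed as a hypothesis. -/
theorem jac_mod (haux : AuxLevelOK D.Q D.R) (Γ₀ : Subgroup GQb)
    (hΓ₀ : ∀ τ ∈ Γ₀, τ ∈ A.inertiaSubgroupIn ℚ)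
    (hfix : SeedLiftFix (kpSeed D A hq hA hqR haux) (kpΓ D A))
    {σ : GQb} (hσ : σ ∈ A.inertiaSubgroupIn ℚ) {y : JZero (D.Q * D.R)} (hy : D.Q • y = 0)
    (hl : ∀ τ ∈ Γ₀, τ • (σ • y - y) = σ • y - y) :
    ∃ (Dl : Divisor.degZero (K := Qb) (F := FBar (D.Q * D.R))) (hl : FBar (D.Q * D.R)),
      (Pic0.mk Dl : JZero (D.Q * D.R)) = σ • y - y ∧ hl ≠ 0 ∧
      (∀ v : Place Qb (FBar (D.Q * D.R)), v.ord hl = D.Q * (Dl : Divisor Qb (FBar (D.Q * D.R))) v) ∧
      (kpN D A hq hA hqR haux).S₁.red hl = 1 ∧ (kpN D A hq hA hqR haux).S₂.red hl = 1 ∧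
      (kpN D A hq hA hqR haux).RedTrivial (Dl : Divisor Qb (FBar (D.Q * D.R))) ∧
      (∀ t ∈ jacΓ D Γ₀, t • (Dl : Divisor Qb (FBar (D.Q * D.R))) = Dl) ∧
      (∀ t ∈ jacΓ D Γ₀, t • hl = hl) := by
  classical
  haveI := infinite_residue A
  haveI := Fermat.Agent.GaussInt.isAlgClosed_residue A
  haveI : Nonempty (kpIota D A hq hA hqR) :=
    fw_nonempty D A hq hA (kpS D A hq hA hqR) (isGaussSetup_gaussSetupBad D hq hqR A hA)
  have hS := isGaussSetup_gaussSetupBad D hq hqR A hA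
  -- the group is inertial
  have hΓin : ∀ t ∈ jacΓ D Γ₀, (kpSeed D A hq hA hqR haux).nodalSetup.IsInertial t := by
    rintro _ ⟨τ, hτ, rfl⟩
    exact kpΓ_isInertial D A hq hA hqR haux _ ⟨τ, hΓ₀ τ hτ, rfl⟩
  have hfix' : SeedLiftFix (kpSeed D A hq hA hqR haux)
      ((jacΓ D Γ₀ : Subgroup _) : Set (SemilinearAut Qb (modularFunctionFieldBar (D.Q * D.R)))) := by
    intro m f hf h₁ h₂
    obtain ⟨g, hg, hg₁, hg₂, hr₁, hr₂, hgfix⟩ := hfix m f hf h₁ h₂
    refine ⟨g, hg, hg₁, hg₂, hr₁, hr₂, ?_⟩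
    rintro _ ⟨τ, hτ, rfl⟩
    exact hgfix _ ⟨τ, hΓ₀ τ hτ, rfl⟩
  -- the constants
  have hH90 := h90_mod_subgroup (modularFunctionFieldFull (D.Q * D.R)) (jacΓ D Γ₀)
    (h90_map_arith (modularFunctionFieldFull (D.Q * D.R)) Γ₀)
  have hG1 : ∀ f : FBar (D.Q * D.R), f ≠ 0 → (∀ t ∈ jacΓ D Γ₀, t • f = f) →
      ∃ a : Qb, a ≠ 0 ∧ (∀ t ∈ jacΓ D Γ₀, SemilinearAut.baseAut t a = a) ∧
        (kpSeed D A hq hA hqR haux).nodalSetup.S₁.red
          (f / algebraMap Qb (FBar (D.Q * D.R)) a) ≠ 0 := by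
    intro f hf0 hffix
    obtain ⟨c, hcfix, hcred⟩ := gau_G1₁ (jacM D A hq hA hqR haux) hq hA (Γ₀ : Set GQb) f hf0
      (by
        rintro _ ⟨τ, hτ, rfl⟩
        exact hffix _ (mem_jacΓ D hτ))
    refine ⟨c, ?_, ?_, hcred⟩
    · rintro rfl
      apply hcred
      rw [map_zero, div_zero]
      exact ValSetup.red_zero _
    · rintro _ ⟨τ, hτ, rfl⟩
      exact hcfix _ (mem_gauH hτ)
  have hres : ∀ γ : IsLocalRing.ResidueField A,
      ∃ (a : Qb) (ha : a ∈ (kpSeed D A hq hA hqR haux).nodalSetup.S₁.A),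
        (∀ t ∈ jacΓ D Γ₀, SemilinearAut.baseAut t a = a) ∧
          (kpSeed D A hq hA hqR haux).nodalSetup.S₁.res ⟨a, ha⟩ = γ := by
    intro γ
    obtain ⟨a, ha, hafix, hares⟩ := jac_res D A hq hA hqR γ
    refine ⟨a, ha, ?_, hares⟩
    rintro _ ⟨τ, hτ, rfl⟩
    exact hafix τ (hΓ₀ τ hτ)
  obtain ⟨NS, -, -, hJ⟩ := seed_jac (kpSeed D A hq hA hqR haux) D.Q (jacΓ D Γ₀) hΓin hfix'
    hH90 hG1 hres
  -- the class `l` lies in `K'`
  have hy1 : (D.Q ^ 1) • y = 0 := by rwa [pow_one]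
  obtain ⟨E, g, hR, hE, hr1, hr2⟩ :=
    PNew.smul_sub_hasRedOneGen (D := D) (hM := rfl) (A := A) (p := D.Q) hq hA hq.ne_zero hy1 hσ
  rw [pow_one] at hR
  have hg0 : g ≠ 0 := hR.1
  have hred₁ : (kpS D A hq hA hqR).red g = 1 := jac_red_eq_one_of_redAt D A hq hA hqR hr1
  have hred₂ : (valSetupZero D (kpS D A hq hA hqR)).red g = 1 := by
    rw [valSetupZero_red]
    apply jac_red_eq_one_of_redAt D A hq hA hqR
    have h := hr2
    rw [show wAt D rfl = atkinLehner D from wAt_eq_rfl D] at h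
    exact h
  have hlΓ : ∀ t ∈ jacΓ D Γ₀, t • (σ • y - y) = σ • y - y := by
    rintro _ ⟨τ, hτ, rfl⟩
    exact hl τ hτ
  obtain ⟨P, Dl, hlf, hP, hPfix, hDlval, hDl, hRT, hDlfix, hlf0, hlfdiv, hlf₁, hlf₂, hlffix⟩ :=
    hJ (σ • y - y) hlΓ E hE g hg0 (fun v => (hR.2 v).symm)
      ⟨1, one_ne_zero, 1, one_ne_zero, by
        rw [map_one, div_one, one_pow]
        exact hred₁⟩
      ⟨1, one_ne_zero, 1, one_ne_zero, by
        rw [map_one, div_one, one_pow]
        exact hred₂⟩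
  exact ⟨Dl, hlf, hDl, hlf0, hlfdiv, hlf₁, hlf₂, hRT, hDlfix, hlffix⟩

end Fermat.Agent.PeuD
end
end MergeWrap_Lib_BadRed_PeuD_JacMod

section MergeWrap_Lib_BadRed_PeuD_LatLift -- from Lib/BadRed/PeuD/LatLift.lean

set_option autoImplicit false
set_option linter.unusedSectionVars false
set_option linter.unusedVariables false
set_option linter.style.haveILetI false

noncomputable section

namespace Fermat.Agent.PeuD

open AlgebraicCurve Fermat.Agent.RR Fermat.Agent.Deuring Fermat.Agent.BadRed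

variable {K F k Fk₁ Fk₂ : Type*} [Field K] [Field F] [Algebra K F]
  [Field k] [Field Fk₁] [Algebra k Fk₁] [Field Fk₂] [Algebra k Fk₂]
  {S₁ : ValSetup K F k Fk₁} {S₂ : ValSetup K F k Fk₂}

/-! ### the distance to a subspace is positive -/

/-- **the bound**: for a finite-dimensional subspace `E` and `g ∉ E` there is a constant `c ≠ 0`
such that no `c • x`, `x ∈ g + E`, is in the maximal ideal of `O₁ ∩ O₂`. -/
theorem latLift_bound (h : PairCompat S₁ S₂) (hL₁ : HasLattice S₁) (hL₂ : HasLattice S₂)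
    (E : Submodule K F) [FiniteDimensional K E] {g : F} (hg : g ∉ E) :
    ∃ c : K, c ≠ 0 ∧ ∀ x : F, x - g ∈ E →
      ¬ (c • x ∈ S₁.Ov ∧ c • x ∈ S₂.Ov ∧ pairRed S₁ S₂ (c • x) = 0) := by
  classical
  set W' : Submodule K F := E ⊔ Submodule.span K {g} with hW'
  haveI : FiniteDimensional K (Submodule.span K ({g} : Set F)) :=
    FiniteDimensional.span_of_finite K (Set.finite_singleton g)
  haveI : FiniteDimensional K W' := by
    rw [hW']
    infer_instance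
  have hEW : E < W' := by
    refine lt_of_le_of_ne le_sup_left ?_
    intro heq
    apply hg
    rw [heq]
    exact Submodule.mem_sup_right (Submodule.subset_span rfl)
  have hfin : Module.finrank K E < Module.finrank K W' := Submodule.finrank_lt_finrank_of_lt hEW
  have h1 := finrank_pairRedSpace h hL₁ hL₂ E
  have h2 := finrank_pairRedSpace h hL₁ hL₂ W'
  haveI : FiniteDimensional k (pairRedSpace S₁ S₂ W') := finiteDimensional_pairRedSpace h hL₁ hL₂ W'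
  have hle : pairRedSpace S₁ S₂ E ≤ pairRedSpace S₁ S₂ W' := pairRedSpace_mono hEW.le
  have hne : pairRedSpace S₁ S₂ E ≠ pairRedSpace S₁ S₂ W' := by
    intro heq
    rw [heq, h2] at h1
    omega
  obtain ⟨y, hyW', hyE⟩ := SetLike.exists_of_lt (lt_of_le_of_ne hle hne)
  obtain ⟨u, huW', hu₁, hu₂, rfl⟩ := (mem_pairRedSpace_iff h W').mp hyW'
  obtain ⟨e₀, he₀, g', hg', rfl⟩ := Submodule.mem_sup.mp huW'
  obtain ⟨c, rfl⟩ := Submodule.mem_span_singleton.mp hg'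
  have hc : c ≠ 0 := by
    rintro rfl
    apply hyE
    rw [zero_smul, add_zero] at hu₁ hu₂ ⊢
    exact pairRed_mem_pairRedSpace E he₀ hu₁ hu₂
  refine ⟨c, hc, fun x hx hcon => ?_⟩
  obtain ⟨hx₁, hx₂, hx0⟩ := hcon
  apply hyE
  -- `(e₀ + c • g) - c • x ∈ E`, integral
  have hd : (e₀ + c • g) - c • x = e₀ - c • (x - g) := by
    rw [smul_sub]
    ring
  have hdE : (e₀ + c • g) - c • x ∈ E := by
    rw [hd]
    exact sub_mem he₀ (E.smul_mem c hx)
  have hd₁ : (e₀ + c • g) - c • x ∈ S₁.Ov := sub_mem hu₁ hx₁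
  have hd₂ : (e₀ + c • g) - c • x ∈ S₂.Ov := sub_mem hu₂ hx₂
  have hred : pairRed S₁ S₂ ((e₀ + c • g) - c • x) = pairRed S₁ S₂ (e₀ + c • g) := by
    have e1 : e₀ + c • g = ((e₀ + c • g) - c • x) + c • x := by ring
    have e2 := pairRed_add (S₁ := S₁) (S₂ := S₂) hd₁ hd₂ hx₁ hx₂
    rw [← e1, hx0, add_zero] at e2
    exact e2.symm
  rw [← hred]
  exact pairRed_mem_pairRedSpace E hdE hd₁ hd₂

/-! ### the rational structure -/

/-- a rational structure for the pair `(S₁, S₂)`: constants `K0`, functions `V0`, uniformiser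
`π`. -/
structure LatRat (S₁ : ValSetup K F k Fk₁) (S₂ : ValSetup K F k Fk₂) (K0 : Set K)
    (V0 : AddSubgroup F) (π : K) : Prop where
  smul_mem : ∀ c ∈ K0, ∀ f ∈ V0, c • f ∈ V0
  zpow_mem : ∀ n : ℤ, π ^ n ∈ K0
  π_mem : π ∈ S₁.A
  π_inv : π⁻¹ ∉ S₁.A
  res : ∀ l : k, ∃ t ∈ K0, ∃ ht : t ∈ S₁.A, S₁.res ⟨t, ht⟩ = l
  sc : ∀ f ∈ V0, f ≠ 0 → ∃ n : ℤ, π ^ n • f ∈ S₁.Ov ∧ π ^ n • f ∈ S₂.Ov ∧
    pairRed S₁ S₂ (π ^ n • f) ≠ 0

namespace LatRat

variable {K0 : Set K} {V0 : AddSubgroup F} {π : K} (R : LatRat S₁ S₂ K0 V0 π)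

include R in
theorem π_ne_zero : π ≠ 0 := by
  rintro rfl
  exact R.π_inv (by rw [inv_zero]; exact zero_mem _)

include R in
theorem res_π : S₁.res ⟨π, R.π_mem⟩ = 0 := by
  obtain ⟨h1, h2⟩ := S₁.res_inv_eq_zero R.π_inv
  have e : (⟨π, R.π_mem⟩ : S₁.A) = ⟨π⁻¹⁻¹, h1⟩ := Subtype.ext (inv_inv π).symm
  rw [e]
  exact h2

include R in
theorem pow_mem (j : ℕ) : π ^ j ∈ S₁.A := _root_.pow_mem R.π_mem j

include R in
/-- `π ^ (j + 1)` times an integral constant has residue `0`. -/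
theorem res_pow_succ_mul (j : ℕ) {d : K} (hd : d ∈ S₁.A) :
    ∃ hm : π ^ (j + 1) * d ∈ S₁.A, S₁.res ⟨π ^ (j + 1) * d, hm⟩ = 0 := by
  have hm : π ^ (j + 1) * d ∈ S₁.A := mul_mem (R.pow_mem (j + 1)) hd
  refine ⟨hm, ?_⟩
  have e : (⟨π ^ (j + 1) * d, hm⟩ : S₁.A) = ⟨π, R.π_mem⟩ * (⟨π ^ j, R.pow_mem j⟩ * ⟨d, hd⟩) := by
    apply Subtype.ext
    show π ^ (j + 1) * d = π * (π ^ j * d)
    ring
  rw [e, map_mul, R.res_π, zero_mul]

include R in
/-- finite `K0`-combinations of elements of `V0` are in `V0`. -/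
theorem sum_smul_mem {ι : Type*} (s : Finset ι) (t : ι → K) (e : ι → F) (ht : ∀ i, t i ∈ K0)
    (he : ∀ i, e i ∈ V0) : ∑ i ∈ s, t i • e i ∈ V0 :=
  V0.sum_mem fun i _ => R.smul_mem _ (ht i) _ (he i)

end LatRat

/-- a constant of residue `0` kills the pair reduction. -/
theorem latLift_pairRed_smul_eq_zero (h : PairCompat S₁ S₂) {c : K} (hc : c ∈ S₁.A)
    (hres : S₁.res ⟨c, hc⟩ = 0) {f : F} (hf₁ : f ∈ S₁.Ov) (hf₂ : f ∈ S₂.Ov) :
    pairRed S₁ S₂ (c • f) = 0 := by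
  rw [pairRed_smul h hc hf₁ hf₂, hres, zero_smul]

/-- an integral multiple of a function with pair reduction `0` has pair reduction `0`. -/
theorem latLift_pairRed_smul_eq_zero' (h : PairCompat S₁ S₂) {c : K} (hc : c ∈ S₁.A)
    {f : F} (hf₁ : f ∈ S₁.Ov) (hf₂ : f ∈ S₂.Ov) (hf0 : pairRed S₁ S₂ f = 0) :
    pairRed S₁ S₂ (c • f) = 0 := by
  rw [pairRed_smul h hc hf₁ hf₂, hf0, smul_zero]

/-! ### the lattice lift -/

section Main

variable {K0 : Set K} {V0 : AddSubgroup F} {π : K}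

/-- the orders of the elements of `(g + E) ∩ V0` are bounded. -/
theorem latLift_order_bdd (h : PairCompat S₁ S₂) (R : LatRat S₁ S₂ K0 V0 π)
    {E : Submodule K F} {g : F} {c : K}
    (hbound : ∀ x : F, x - g ∈ E →
      ¬ (c • x ∈ S₁.Ov ∧ c • x ∈ S₂.Ov ∧ pairRed S₁ S₂ (c • x) = 0))
    {j : ℕ} (hj : π ^ j * c ∈ S₁.A) {n : ℤ} {x : F} (hxE : x - g ∈ E)
    (hx₁ : π ^ n • x ∈ S₁.Ov) (hx₂ : π ^ n • x ∈ S₂.Ov) : -(j : ℤ) ≤ n := by
  by_contra hlt
  push Not at hlt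
  obtain ⟨i, hi⟩ : ∃ i : ℕ, -n = (j : ℤ) + 1 + i := ⟨(-n - j - 1).toNat, by omega⟩
  apply hbound x hxE
  obtain ⟨hm, hres⟩ := R.res_pow_succ_mul i hj
  have hπ0 := R.π_ne_zero
  have e1 : π ^ (i + 1) * π ^ j * π ^ n = 1 := by
    rw [← zpow_natCast, ← zpow_natCast π j, ← zpow_add₀ hπ0, ← zpow_add₀ hπ0]
    have : ((i + 1 : ℕ) : ℤ) + (j : ℤ) + n = 0 := by push_cast; omega
    rw [this, zpow_zero]
  have e2 : c • x = (π ^ (i + 1) * (π ^ j * c)) • (π ^ n • x) := by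
    rw [smul_smul]
    have : π ^ (i + 1) * (π ^ j * c) * π ^ n = c * (π ^ (i + 1) * π ^ j * π ^ n) := by ring
    rw [this, e1, mul_one]
  rw [e2]
  exact ⟨S₁.smul_mem hm hx₁, S₂.smul_mem (h.mem₂ hm) hx₂,
    latLift_pairRed_smul_eq_zero h hm hres hx₁ hx₂⟩

/-- **the lattice lift**: every element of the pair reduction of `W` is the pair reduction of a
rational integral element of `W`. -/
theorem latLift (h : PairCompat S₁ S₂) (hL₁ : HasLattice S₁) (hL₂ : HasLattice S₂)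
    (arch : ∀ c : K, c ∈ S₁.A → c⁻¹ ∉ S₁.A → ∀ d : K, ∃ j : ℕ, c ^ j * d ∈ S₁.A)
    (R : LatRat S₁ S₂ K0 V0 π) (W : Submodule K F) [FiniteDimensional K W]
    (hspan : W ≤ Submodule.span K {f | f ∈ V0 ∧ f ∈ W})
    {y : Fk₁ × Fk₂} (hy : y ∈ pairRedSpace S₁ S₂ W) :
    ∃ z ∈ V0, z ∈ W ∧ z ∈ S₁.Ov ∧ z ∈ S₂.Ov ∧ pairRed S₁ S₂ z = y := by
  classical
  have hπ0 := R.π_ne_zero
  set T : Set (Fk₁ × Fk₂) :=
    {y | ∃ z ∈ V0, z ∈ W ∧ z ∈ S₁.Ov ∧ z ∈ S₂.Ov ∧ pairRed S₁ S₂ z = y} with hT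
  have hTV : ∀ y ∈ T, y ∈ pairRedSpace S₁ S₂ W := by
    rintro y ⟨z, -, hzW, hz₁, hz₂, rfl⟩
    exact pairRed_mem_pairRedSpace W hzW hz₁ hz₂
  obtain ⟨b, hbT, hbspan, hbli⟩ := exists_linearIndependent k T
  haveI : FiniteDimensional k (pairRedSpace S₁ S₂ W) :=
    finiteDimensional_pairRedSpace h hL₁ hL₂ W
  -- `b` is finite
  have hbfin : Finite b := by
    let v : b → pairRedSpace S₁ S₂ W := fun x => ⟨x.1, hTV _ (hbT x.2)⟩
    have hv : LinearIndependent k v := by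
      apply LinearIndependent.of_comp (pairRedSpace S₁ S₂ W).subtype
      exact hbli
    exact hv.finite_of_isNoetherian
  haveI := Fintype.ofFinite b
  -- the lifts
  have hlift : ∀ x : b, ∃ z ∈ V0, z ∈ W ∧ z ∈ S₁.Ov ∧ z ∈ S₂.Ov ∧ pairRed S₁ S₂ z = x.1 :=
    fun x => hbT x.2
  choose e he0 heW he₁ he₂ hered using hlift
  set E : Submodule K F := Submodule.span K (Set.range e) with hE
  haveI : FiniteDimensional K E := FiniteDimensional.span_of_finite K (Set.finite_range e)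
  have hEW : E ≤ W := Submodule.span_le.mpr (by rintro _ ⟨x, rfl⟩; exact heW x)
  -- lifting the span of `b`
  have hL : ∀ y ∈ Submodule.span k (Set.range fun x : b => (x : Fk₁ × Fk₂)),
      ∃ z ∈ V0, z ∈ E ∧ z ∈ S₁.Ov ∧ z ∈ S₂.Ov ∧ pairRed S₁ S₂ z = y := by
    intro y hy
    obtain ⟨l, rfl⟩ := (Submodule.mem_span_range_iff_exists_fun k).mp hy
    have hres : ∀ x : b, ∃ t ∈ K0, ∃ ht : t ∈ S₁.A, S₁.res ⟨t, ht⟩ = l x := fun x => R.res (l x)
    choose t ht0 htA htres using hres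
    refine ⟨∑ x, t x • e x, R.sum_smul_mem _ t e ht0 he0, ?_, ?_, ?_, ?_⟩
    · exact E.sum_mem fun x _ => E.smul_mem _ (Submodule.subset_span ⟨x, rfl⟩)
    · exact Fermat.Agent.GaussInt.sum_smul_mem_Ov S₁ _ t e htA he₁
    · exact Fermat.Agent.GaussInt.sum_smul_mem_Ov S₂ _ t e (fun x => h.mem₂ (htA x)) he₂
    · rw [pairRed_sum_smul h _ t e htA he₁ he₂]
      refine Finset.sum_congr rfl fun x _ => ?_
      rw [htres x, hered x]
  have hTspan : ∀ y ∈ T, y ∈ Submodule.span k (Set.range fun x : b => (x : Fk₁ × Fk₂)) := by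
    intro y hy
    rw [Subtype.range_coe, hbspan]
    exact Submodule.subset_span hy
  -- the key claim
  have hclaim : ∀ g ∈ V0, g ∈ W → g ∈ E := by
    intro g hg0 hgW
    by_contra hgE
    obtain ⟨c, hc, hbound⟩ := latLift_bound h hL₁ hL₂ E hgE
    obtain ⟨j, hj⟩ := arch π R.π_mem R.π_inv c
    have hgne : g ≠ 0 := by
      rintro rfl
      exact hgE (zero_mem _)
    let P : ℤ → Prop := fun n => ∃ x ∈ V0, x - g ∈ E ∧ π ^ n • x ∈ S₁.Ov ∧ π ^ n • x ∈ S₂.Ov ∧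
      pairRed S₁ S₂ (π ^ n • x) ≠ 0
    have hbdd : ∃ b₀ : ℤ, ∀ n, P n → b₀ ≤ n := by
      refine ⟨-(j : ℤ), ?_⟩
      rintro n ⟨x, -, hxE, hx₁, hx₂, -⟩
      exact latLift_order_bdd h R hbound hj hxE hx₁ hx₂
    have hP : ∃ n, P n := by
      obtain ⟨n, h1, h2, h3⟩ := R.sc g hg0 hgne
      exact ⟨n, g, hg0, by rw [sub_self]; exact zero_mem _, h1, h2, h3⟩
    obtain ⟨n, ⟨x, hx0, hxE, hx₁, hx₂, hxred⟩, hmin⟩ := Int.exists_least_of_bdd hbdd hP
    have hxW : x ∈ W := by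
      have := W.add_mem (hEW hxE) hgW
      rwa [sub_add_cancel] at this
    have hg'0 : π ^ n • x ∈ V0 := R.smul_mem _ (R.zpow_mem n) _ hx0
    have hg'T : pairRed S₁ S₂ (π ^ n • x) ∈ T :=
      ⟨π ^ n • x, hg'0, W.smul_mem _ hxW, hx₁, hx₂, rfl⟩
    obtain ⟨e', he'0, he'E, he'₁, he'₂, he'red⟩ := hL _ (hTspan _ hg'T)
    have hx'0 : x - π ^ (-n) • e' ∈ V0 :=
      V0.sub_mem hx0 (R.smul_mem _ (R.zpow_mem _) _ he'0)
    have hx'E : (x - π ^ (-n) • e') - g ∈ E := by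
      have : (x - π ^ (-n) • e') - g = (x - g) - π ^ (-n) • e' := by ring
      rw [this]
      exact E.sub_mem hxE (E.smul_mem _ he'E)
    have hx'ne : x - π ^ (-n) • e' ≠ 0 := by
      intro h0
      apply hgE
      rw [h0, zero_sub] at hx'E
      have := E.neg_mem hx'E
      rwa [neg_neg] at this
    obtain ⟨n', h1, h2, h3⟩ := R.sc _ hx'0 hx'ne
    have hn' : n ≤ n' := hmin n' ⟨_, hx'0, hx'E, h1, h2, h3⟩
    obtain ⟨i, hi⟩ : ∃ i : ℕ, n' = n + i := ⟨(n' - n).toNat, by omega⟩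
    have hg'' : π ^ n' • (x - π ^ (-n) • e') = π ^ i • (π ^ n • x - e') := by
      rw [hi, smul_sub, smul_sub, smul_smul, smul_smul, zpow_add₀ hπ0, zpow_natCast,
        zpow_neg, mul_comm (π ^ n) (π ^ i), mul_assoc, mul_inv_cancel₀ (zpow_ne_zero n hπ0),
        mul_one]
    apply h3
    rw [hg'']
    have hd₁ : π ^ n • x - e' ∈ S₁.Ov := sub_mem hx₁ he'₁
    have hd₂ : π ^ n • x - e' ∈ S₂.Ov := sub_mem hx₂ he'₂
    apply latLift_pairRed_smul_eq_zero' h (R.pow_mem i) hd₁ hd₂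
    have hadd := pairRed_add (S₁ := S₁) (S₂ := S₂) hd₁ hd₂ he'₁ he'₂
    rw [sub_add_cancel, he'red] at hadd
    exact right_eq_add.mp hadd
  -- dimension count
  have hWE : W ≤ E := hspan.trans (Submodule.span_le.mpr fun f hf => hclaim f hf.1 hf.2)
  have hd1 : Module.finrank K W ≤ Fintype.card b := by
    calc Module.finrank K W ≤ Module.finrank K E := Submodule.finrank_mono hWE
      _ ≤ Fintype.card b := finrank_range_le_card e
  have hd2 : Module.finrank k (Submodule.span k (Set.range fun x : b => (x : Fk₁ × Fk₂))) =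
      Fintype.card b := finrank_span_eq_card hbli
  have hle : Submodule.span k (Set.range fun x : b => (x : Fk₁ × Fk₂)) ≤ pairRedSpace S₁ S₂ W :=
    Submodule.span_le.mpr (by rintro _ ⟨x, rfl⟩; exact hTV _ (hbT x.2))
  have heq : Submodule.span k (Set.range fun x : b => (x : Fk₁ × Fk₂)) = pairRedSpace S₁ S₂ W := by
    apply Submodule.eq_of_le_of_finrank_le hle
    rw [hd2, finrank_pairRedSpace h hL₁ hL₂ W]
    exact hd1
  rw [← heq] at hy
  obtain ⟨z, hz0, hzE, hz₁, hz₂, hzred⟩ := hL y hy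
  exact ⟨z, hz0, hEW hzE, hz₁, hz₂, hzred⟩

end Main

/-! ### the pair scale from the two one-sided scales -/

/-- if `f / π ^ n₁` is a unit of `O₁` and `f / π ^ n₂` a unit of `O₂`, then `f` has a pair norm
in `|π| ^ ℤ`. -/
theorem latLift_sc_of_scale (h : PairCompat S₁ S₂) {π : K} (hπ : π ∈ S₁.A) (hπ0 : π ≠ 0)
    {f : F} (hf : f ≠ 0) {n₁ n₂ : ℤ}
    (h₁ : f * (algebraMap K F (π ^ n₁))⁻¹ ∈ S₁.Ov)
    (h₁' : (f * (algebraMap K F (π ^ n₁))⁻¹)⁻¹ ∈ S₁.Ov)
    (h₂ : f * (algebraMap K F (π ^ n₂))⁻¹ ∈ S₂.Ov)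
    (h₂' : (f * (algebraMap K F (π ^ n₂))⁻¹)⁻¹ ∈ S₂.Ov) :
    ∃ n : ℤ, π ^ n • f ∈ S₁.Ov ∧ π ^ n • f ∈ S₂.Ov ∧ pairRed S₁ S₂ (π ^ n • f) ≠ 0 := by
  have key : ∀ m : ℤ, f * (algebraMap K F (π ^ m))⁻¹ = π ^ (-m) • f := by
    intro m
    rw [Algebra.smul_def, zpow_neg, map_inv₀, mul_comm]
  rw [key] at h₁ h₁' h₂ h₂'
  rcases le_total n₁ n₂ with hle | hle
  · refine ⟨-n₁, h₁, ?_, ?_⟩
    · obtain ⟨i, hi⟩ : ∃ i : ℕ, n₂ - n₁ = i := ⟨(n₂ - n₁).toNat, by omega⟩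
      have e : π ^ (-n₁) • f = π ^ i • (π ^ (-n₂) • f) := by
        rw [smul_smul, ← zpow_natCast, ← zpow_add₀ hπ0]
        congr 2
        omega
      rw [e]
      exact S₂.smul_mem (h.mem₂ (pow_mem hπ i)) h₂
    · intro h0
      have h0' : S₁.red (π ^ (-n₁) • f) = 0 := congrArg Prod.fst h0
      exact S₁.red_ne_zero h₁ h₁' (smul_ne_zero (zpow_ne_zero _ hπ0) hf) h0'
  · refine ⟨-n₂, ?_, h₂, ?_⟩
    · obtain ⟨i, hi⟩ : ∃ i : ℕ, n₁ - n₂ = i := ⟨(n₁ - n₂).toNat, by omega⟩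
      have e : π ^ (-n₂) • f = π ^ i • (π ^ (-n₁) • f) := by
        rw [smul_smul, ← zpow_natCast, ← zpow_add₀ hπ0]
        congr 2
        omega
      rw [e]
      exact S₁.smul_mem (pow_mem hπ i) h₁
    · intro h0
      have h0' : S₂.red (π ^ (-n₂) • f) = 0 := congrArg Prod.snd h0
      exact S₂.red_ne_zero h₂ h₂' (smul_ne_zero (zpow_ne_zero _ hπ0) hf) h0'

/-- **(DIV)**: a function of norm `|π| ^ n`, integral with reduction `0`, is divisible by
`π` in the valuation ring. -/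
theorem latLift_div_mem {k' Fk : Type*} [Field k'] [Field Fk] [Algebra k' Fk]
    (S : ValSetup K F k' Fk) {π : K} (hπ : π ∈ S.A) (hπ0 : π ≠ 0) {f : F} {n : ℤ}
    (h₁ : f * (algebraMap K F (π ^ n))⁻¹ ∈ S.Ov)
    (h₁' : (f * (algebraMap K F (π ^ n))⁻¹)⁻¹ ∈ S.Ov) (hf : f ∈ S.Ov) (hred : S.red f = 0) :
    f / algebraMap K F π ∈ S.Ov := by
  by_cases hf0 : f = 0
  · rw [hf0, zero_div]
    exact zero_mem _
  have hπF : algebraMap K F π ≠ 0 := (_root_.map_ne_zero _).mpr hπ0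
  have hπn : ∀ m : ℤ, algebraMap K F (π ^ m) ≠ 0 := fun m =>
    (_root_.map_ne_zero _).mpr (zpow_ne_zero m hπ0)
  have hn : 1 ≤ n := by
    by_contra hlt
    push Not at hlt
    obtain ⟨i, hi⟩ : ∃ i : ℕ, -n = i := ⟨(-n).toNat, by omega⟩
    have hinv : f⁻¹ ∈ S.Ov := by
      have e : f⁻¹ = (f * (algebraMap K F (π ^ n))⁻¹)⁻¹ * algebraMap K F (π ^ i) := by
        have : π ^ i = (π ^ n)⁻¹ := by
          rw [← zpow_natCast, ← hi, zpow_neg]
        rw [this, map_inv₀, mul_inv, inv_inv]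
        field_simp
      rw [e]
      exact mul_mem h₁' (S.algebraMap_mem (pow_mem hπ i))
    exact S.red_ne_zero hf hinv hf0 hred
  obtain ⟨i, hi⟩ : ∃ i : ℕ, n - 1 = i := ⟨(n - 1).toNat, by omega⟩
  have e : f / algebraMap K F π = f * (algebraMap K F (π ^ n))⁻¹ * algebraMap K F (π ^ i) := by
    have : π ^ n = π ^ i * π := by
      rw [← zpow_natCast, ← hi, ← zpow_add_one₀ hπ0]
      congr 1
      omega
    rw [this, map_mul, map_pow]
    field_simp
  rw [e]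
  exact mul_mem h₁ (S.algebraMap_mem (pow_mem hπ i))

/-! ### the fixed functions -/

/-- the functions fixed by a set of semilinear automorphisms. -/
def latFix (Γ : Set (SemilinearAut K F)) : AddSubgroup F where
  carrier := {f | ∀ t ∈ Γ, t • f = f}
  zero_mem' := fun t _ => smul_zero t
  add_mem' := fun {a b} ha hb t ht => by rw [smul_add, ha t ht, hb t ht]
  neg_mem' := fun {a} ha t ht => by rw [smul_neg, ha t ht]

theorem mem_latFix {Γ : Set (SemilinearAut K F)} {f : F} :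
    f ∈ latFix Γ ↔ ∀ t ∈ Γ, t • f = f := Iff.rfl

/-- the rational structure of the fixed functions. -/
theorem latRat_of_fix (h : PairCompat S₁ S₂) (Γ : Set (SemilinearAut K F)) {π : K}
    (hπfix : ∀ t ∈ Γ, SemilinearAut.baseAut t π = π) (hπ : π ∈ S₁.A) (hπinv : π⁻¹ ∉ S₁.A)
    (hres : ∀ l : k, ∃ c : K, (∀ t ∈ Γ, SemilinearAut.baseAut t c = c) ∧
      ∃ hc : c ∈ S₁.A, S₁.res ⟨c, hc⟩ = l)
    (hsc₁ : ∀ f : F, f ≠ 0 → (∀ t ∈ Γ, t • f = f) → ∃ n : ℤ,
      f * (algebraMap K F (π ^ n))⁻¹ ∈ S₁.Ov ∧ (f * (algebraMap K F (π ^ n))⁻¹)⁻¹ ∈ S₁.Ov)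
    (hsc₂ : ∀ f : F, f ≠ 0 → (∀ t ∈ Γ, t • f = f) → ∃ n : ℤ,
      f * (algebraMap K F (π ^ n))⁻¹ ∈ S₂.Ov ∧ (f * (algebraMap K F (π ^ n))⁻¹)⁻¹ ∈ S₂.Ov) :
    LatRat S₁ S₂ {c | ∀ t ∈ Γ, SemilinearAut.baseAut t c = c} (latFix Γ) π where
  smul_mem := fun c hc f hf t ht => by
    rw [Algebra.smul_def, smul_mul', SemilinearAut.smul_algebraMap, hc t ht, hf t ht]
  zpow_mem := fun n t ht => by
    rw [map_zpow₀, hπfix t ht]
  π_mem := hπ
  π_inv := hπinv
  res := fun l => by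
    obtain ⟨c, hc, hcA, hcl⟩ := hres l
    exact ⟨c, hc, hcA, hcl⟩
  sc := fun f hf hf0 => by
    have hπ0 : π ≠ 0 := by
      rintro rfl
      exact hπinv (by rw [inv_zero]; exact zero_mem _)
    obtain ⟨n₁, h₁, h₁'⟩ := hsc₁ f hf0 hf
    obtain ⟨n₂, h₂, h₂'⟩ := hsc₂ f hf0 hf
    exact latLift_sc_of_scale h hπ hπ0 hf0 h₁ h₁' h₂ h₂'

/-! ### (LIFT-FIX) for a nodal seed -/

variable {ι : Type*} [Fintype ι]

/-- **(LIFT-FIX)**, abstract form: every function of `𝔏(m D₀) = L(m D₀) ∩ O₁ ∩ O₂` has the same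
two reductions as a rational function of `𝔏(m D₀)`. -/
theorem liftFix_of_latRat (N : NodalSeed K F k Fk₁ Fk₂ ι) {K0 : Set K} {V0 : AddSubgroup F}
    {π : K} (R : LatRat N.S₁ N.S₂ K0 V0 π) {m : ℕ}
    (hspan : riemannRochSpace (m • N.D₀) ≤
      Submodule.span K {f | f ∈ V0 ∧ f ∈ riemannRochSpace (m • N.D₀)})
    {f : F} (hf : N.toNodalCore.IsInt (m • N.D₀) f) :
    ∃ g ∈ V0, N.toNodalCore.IsInt (m • N.D₀) g ∧ N.S₁.red g = N.S₁.red f ∧
      N.S₂.red g = N.S₂.red f := by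
  haveI : FiniteDimensional K (riemannRochSpace (m • N.D₀)) :=
    finite_riemannRochSpace N.S₁.hF _
  have hy : pairRed N.S₁ N.S₂ f ∈ pairRedSpace N.S₁ N.S₂ (riemannRochSpace (m • N.D₀)) :=
    pairRed_mem_pairRedSpace _ hf.1 hf.2.1 hf.2.2
  obtain ⟨z, hz0, hzW, hz₁, hz₂, hzred⟩ := latLift N.toNodalCore.compat N.lat₁ N.lat₂ N.arch R
    (riemannRochSpace (m • N.D₀)) hspan hy
  exact ⟨z, hz0, ⟨hzW, hz₁, hz₂⟩, congrArg Prod.fst hzred, congrArg Prod.snd hzred⟩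

/-- **(LIFT-FIX)** for the functions fixed by `Γ`. -/
theorem liftFix_of_fix (N : NodalSeed K F k Fk₁ Fk₂ ι) (Γ : Set (SemilinearAut K F)) {π : K}
    (hπfix : ∀ t ∈ Γ, SemilinearAut.baseAut t π = π) (hπ : π ∈ N.S₁.A) (hπinv : π⁻¹ ∉ N.S₁.A)
    (hres : ∀ l : k, ∃ c : K, (∀ t ∈ Γ, SemilinearAut.baseAut t c = c) ∧
      ∃ hc : c ∈ N.S₁.A, N.S₁.res ⟨c, hc⟩ = l)
    (hsc₁ : ∀ f : F, f ≠ 0 → (∀ t ∈ Γ, t • f = f) → ∃ n : ℤ,
      f * (algebraMap K F (π ^ n))⁻¹ ∈ N.S₁.Ov ∧ (f * (algebraMap K F (π ^ n))⁻¹)⁻¹ ∈ N.S₁.Ov)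
    (hsc₂ : ∀ f : F, f ≠ 0 → (∀ t ∈ Γ, t • f = f) → ∃ n : ℤ,
      f * (algebraMap K F (π ^ n))⁻¹ ∈ N.S₂.Ov ∧ (f * (algebraMap K F (π ^ n))⁻¹)⁻¹ ∈ N.S₂.Ov)
    {m : ℕ}
    (hspan : riemannRochSpace (m • N.D₀) ≤
      Submodule.span K {f | f ∈ riemannRochSpace (m • N.D₀) ∧ ∀ t ∈ Γ, t • f = f})
    {f : F} (hf : N.toNodalCore.IsInt (m • N.D₀) f) :
    ∃ g : F, N.toNodalCore.IsInt (m • N.D₀) g ∧ (∀ t ∈ Γ, t • g = g) ∧
      N.S₁.red g = N.S₁.red f ∧ N.S₂.red g = N.S₂.red f := by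
  have R := latRat_of_fix N.toNodalCore.compat Γ hπfix hπ hπinv hres hsc₁ hsc₂
  have hspan' : riemannRochSpace (m • N.D₀) ≤
      Submodule.span K {f | f ∈ latFix Γ ∧ f ∈ riemannRochSpace (m • N.D₀)} := by
    refine hspan.trans (Submodule.span_mono ?_)
    rintro g ⟨hg1, hg2⟩
    exact ⟨hg2, hg1⟩
  obtain ⟨g, hg0, hgint, h1, h2⟩ := liftFix_of_latRat N R hspan' hf
  exact ⟨g, hgint, hg0, h1, h2⟩

end Fermat.Agent.PeuD
end
end MergeWrap_Lib_BadRed_PeuD_LatLift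

section MergeWrap_Lib_BadRed_PeuD_LiftRat -- from Lib/BadRed/PeuD/LiftRat.lean

set_option autoImplicit false
set_option linter.style.haveILetI false
set_option linter.unusedSectionVars false
set_option linter.unusedVariables false
set_option synthInstance.maxHeartbeats 400000
set_option maxHeartbeats 1000000

/-!
# Row 38, block D, ETA-LIFT (iii), seat (L2): the span hypothesis of the lattice lift

For a divisor `D₀` of a base-changed function field `F = ℚ̄ · F₀` that is stable under the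
arithmetic action of `G_ℚ`, the Riemann–Roch space `L(D₀)` is `G_ℚ`-stable, hence (Galois
descent, `Fermat.Agent.S17.RatDesc.span_fixed_general`) it is spanned by its `G_ℚ`-fixed
vectors; a fortiori by the vectors fixed by any subset `Γ` of `G_ℚ`, e.g. an inertia group.

* `liftRat_rr_stable`      : `L(D₀)` is `G_ℚ`-stable;
* `liftRat_nsmul_stable`   : `m • D₀` is `G_ℚ`-stable;
* `liftRat_span_general`   : `L(D₀) ≤ span {f ∈ L(D₀) | ∀ τ ∈ Γ, τ • f = f}`;
* `liftRat_span_modular`   : the same for `modularFunctionFieldBar N` and `m • D₀`;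
* `liftRat_fwSeed_stable`  : the divisor `D₀` of the modular seed `fwSeed` is `G_ℚ`-stable;
* `liftRat_span_fwSeed`    : **(span)** for the modular seed and the inertia group of `A`;
* `liftRat_span_fwSeed_univ` : the same with `G_ℚ`-fixed vectors;
* `liftRat_fixed_family_general` : a basis of `L(D₀)` of `G_ℚ`-fixed vectors (finite-dim. case).
-/

noncomputable section

namespace Fermat.Agent.PeuD

open IntermediateField ModularCurve AlgebraicCurve Fermat.Agent.F3 Fermat.Agent.F3G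
  Fermat.Agent.GaussInt
  Fermat.Agent.AtkinLehner Fermat.Agent.Deuring Fermat.Agent.RR Fermat.Agent.BadRed
  Fermat.Agent.BadRed.SeedNode Fermat.Agent.BadRed.SeedPoles

local notation "Qb" => AlgebraicClosure ℚ

section General

variable (F₀ : IntermediateField ℚ (LaurentSeries ℚ))

/-- the Riemann–Roch space of a `G_ℚ`-stable divisor is `G_ℚ`-stable. -/
theorem liftRat_rr_stable (D₀ : Divisor Qb (laurentBaseChange Qb F₀))
    (hD₀ : ∀ (σ : Qb ≃ₐ[ℚ] Qb) (P : Place Qb (laurentBaseChange Qb F₀)),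
      D₀ (arithmeticGalois F₀ σ • P) = D₀ P)
    (σ : Qb ≃ₐ[ℚ] Qb) (f : laurentBaseChange Qb F₀) (hf : f ∈ riemannRochSpace D₀) :
    arithmeticGalois F₀ σ • f ∈ riemannRochSpace D₀ := by
  rw [mem_riemannRochSpace_iff] at hf ⊢
  intro v
  rcases hf ((arithmeticGalois F₀ σ)⁻¹ • v) with h | h
  · left
    rw [h, smul_zero]
  · right
    have h1 := SemilinearAut.ord_smul (arithmeticGalois F₀ σ) ((arithmeticGalois F₀ σ)⁻¹ • v) f
    rw [smul_inv_smul] at h1
    have h2 := hD₀ σ ((arithmeticGalois F₀ σ)⁻¹ • v)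
    rw [smul_inv_smul] at h2
    rw [h1, h2]
    exact h

/-- multiples of a `G_ℚ`-stable divisor are `G_ℚ`-stable. -/
theorem liftRat_nsmul_stable (D₀ : Divisor Qb (laurentBaseChange Qb F₀))
    (hD₀ : ∀ (σ : Qb ≃ₐ[ℚ] Qb) (P : Place Qb (laurentBaseChange Qb F₀)),
      D₀ (arithmeticGalois F₀ σ • P) = D₀ P) (m : ℕ)
    (σ : Qb ≃ₐ[ℚ] Qb) (P : Place Qb (laurentBaseChange Qb F₀)) :
    (m • D₀) (arithmeticGalois F₀ σ • P) = (m • D₀) P := by
  rw [Finsupp.smul_apply, Finsupp.smul_apply, hD₀ σ P]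

/-- **(span), general form**: the Riemann–Roch space of a `G_ℚ`-stable divisor is spanned by its
vectors fixed by `Γ`, for every subset `Γ` of `G_ℚ`. -/
theorem liftRat_span_general (D₀ : Divisor Qb (laurentBaseChange Qb F₀))
    (hD₀ : ∀ (σ : Qb ≃ₐ[ℚ] Qb) (P : Place Qb (laurentBaseChange Qb F₀)),
      D₀ (arithmeticGalois F₀ σ • P) = D₀ P)
    (Γ : Set (Qb ≃ₐ[ℚ] Qb)) :
    riemannRochSpace D₀ ≤ Submodule.span Qb
      {f | f ∈ riemannRochSpace D₀ ∧ ∀ τ ∈ Γ, arithmeticGalois F₀ τ • f = f} := by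
  have h := Fermat.Agent.S17.RatDesc.span_fixed_general F₀ (riemannRochSpace D₀)
    (fun σ f hf => liftRat_rr_stable F₀ D₀ hD₀ σ f hf)
  have h2 : Submodule.span Qb {f | f ∈ riemannRochSpace D₀ ∧
        ∀ σ : Qb ≃ₐ[ℚ] Qb, arithmeticGalois F₀ σ • f = f} ≤
      Submodule.span Qb
        {f | f ∈ riemannRochSpace D₀ ∧ ∀ τ ∈ Γ, arithmeticGalois F₀ τ • f = f} :=
    Submodule.span_mono fun f hf => ⟨hf.1, fun τ _ => hf.2 τ⟩
  exact h.symm.le.trans h2

/-- a basis of `G_ℚ`-fixed vectors of the Riemann–Roch space of a `G_ℚ`-stable divisor, as a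
family. -/
theorem liftRat_fixed_family_general (D₀ : Divisor Qb (laurentBaseChange Qb F₀))
    (hD₀ : ∀ (σ : Qb ≃ₐ[ℚ] Qb) (P : Place Qb (laurentBaseChange Qb F₀)),
      D₀ (arithmeticGalois F₀ σ • P) = D₀ P)
    [FiniteDimensional Qb (riemannRochSpace D₀)] :
    ∃ (n : ℕ) (b : Fin n → laurentBaseChange Qb F₀), LinearIndependent Qb b ∧
      Submodule.span Qb (Set.range b) = riemannRochSpace D₀ ∧
      ∀ (i : Fin n) (σ : Qb ≃ₐ[ℚ] Qb), arithmeticGalois F₀ σ • b i = b i :=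
  Fermat.Agent.S17.RatDesc.exists_fixed_family_general F₀ (riemannRochSpace D₀)
    (fun σ f hf => liftRat_rr_stable F₀ D₀ hD₀ σ f hf)

end General

section Modular

variable (N : ℕ)

/-- **(span), modular form**, for the multiples `m • D₀` of a `G_ℚ`-stable divisor of the
modular function field of level `N`. -/
theorem liftRat_span_modular (D₀ : Divisor Qb (modularFunctionFieldBar N))
    (hD₀ : ∀ (σ : Qb ≃ₐ[ℚ] Qb) (P : Place Qb (modularFunctionFieldBar N)),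
      D₀ (arithmeticGalois (modularFunctionFieldFull N) σ • P) = D₀ P)
    (Γ : Set (Qb ≃ₐ[ℚ] Qb)) (m : ℕ) :
    riemannRochSpace (m • D₀) ≤ Submodule.span Qb
      {f | f ∈ riemannRochSpace (m • D₀) ∧
        ∀ τ ∈ Γ, arithmeticGalois (modularFunctionFieldFull N) τ • f = f} :=
  liftRat_span_general (modularFunctionFieldFull N) (m • D₀)
    (liftRat_nsmul_stable (modularFunctionFieldFull N) D₀ hD₀ m) Γ

end Modular

section FwSeed

attribute [local instance] fwFintype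

variable (D : ALData) [NeZero D.Q] [NeZero D.R] [NeZero (D.Q * D.R)]
  (A : ValuationSubring Qb) (hq : D.Q.Prime) (hA : A.LiesOverPrime D.Q) (hqR : ¬ D.Q ∣ D.R)
  (S : ValSetup Qb (modularFunctionFieldBar (D.Q * D.R)) (IsLocalRing.ResidueField A)
    (modularFunctionFieldFullC (IsLocalRing.ResidueField A) D.R))
  (hS : IsGaussSetup (D.Q * D.R) D.R A S) (hL : HasLattice S)
  [Fact D.Q.Prime] [CharP (IsLocalRing.ResidueField A) D.Q]
  [PerfectRing (IsLocalRing.ResidueField A) D.Q]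

/-- the divisor `D₀` of the modular seed is `G_ℚ`-stable. -/
theorem liftRat_fwSeed_stable (haux : AuxLevelOK D.Q D.R) (hsep : FwSep D A S)
    (σ : Qb ≃ₐ[ℚ] Qb) (P : Place Qb (modularFunctionFieldBar (D.Q * D.R))) :
    (fwSeed D A hq hA hqR S hS hL haux hsep).D₀
        (arithmeticGalois (modularFunctionFieldFull (D.Q * D.R)) σ • P) =
      (fwSeed D A hq hA hqR S hS hL haux hsep).D₀ P := by
  show poleDiv S.hF (fwU D + algebraMap Qb _ (fwPi D) / fwU D) _ =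
    poleDiv S.hF (fwU D + algebraMap Qb _ (fwPi D) / fwU D) _
  exact cs_poleDiv_smul S.hF _
    (arithmeticGalois_smul_seedFun_pow (D.Q * D.R) D.Q (Dvd.intro _ rfl) σ 12) P

/-- **(span) for the modular seed**: `L(m • D₀)` is spanned by its inertia-fixed vectors. -/
theorem liftRat_span_fwSeed (haux : AuxLevelOK D.Q D.R) (hsep : FwSep D A S) (m : ℕ) :
    riemannRochSpace (m • (fwSeed D A hq hA hqR S hS hL haux hsep).D₀) ≤ Submodule.span Qb
      {f | f ∈ riemannRochSpace (m • (fwSeed D A hq hA hqR S hS hL haux hsep).D₀) ∧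
        ∀ τ ∈ A.inertiaSubgroupIn ℚ,
          arithmeticGalois (modularFunctionFieldFull (D.Q * D.R)) τ • f = f} :=
  liftRat_span_modular (D.Q * D.R) (fwSeed D A hq hA hqR S hS hL haux hsep).D₀
    (liftRat_fwSeed_stable D A hq hA hqR S hS hL haux hsep)
    (A.inertiaSubgroupIn ℚ : Set (Qb ≃ₐ[ℚ] Qb)) m

/-- **(span) for the modular seed, `G_ℚ`-form**: `L(m • D₀)` is spanned by its `G_ℚ`-fixed
vectors. -/
theorem liftRat_span_fwSeed_univ (haux : AuxLevelOK D.Q D.R) (hsep : FwSep D A S) (m : ℕ) :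
    riemannRochSpace (m • (fwSeed D A hq hA hqR S hS hL haux hsep).D₀) ≤ Submodule.span Qb
      {f | f ∈ riemannRochSpace (m • (fwSeed D A hq hA hqR S hS hL haux hsep).D₀) ∧
        ∀ τ : Qb ≃ₐ[ℚ] Qb,
          arithmeticGalois (modularFunctionFieldFull (D.Q * D.R)) τ • f = f} := by
  have h := liftRat_span_modular (D.Q * D.R) (fwSeed D A hq hA hqR S hS hL haux hsep).D₀
    (liftRat_fwSeed_stable D A hq hA hqR S hS hL haux hsep) Set.univ m
  refine h.trans (Submodule.span_mono fun f hf => ⟨hf.1, fun τ => hf.2 τ (Set.mem_univ τ)⟩)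

end FwSeed

end Fermat.Agent.PeuD
end
end MergeWrap_Lib_BadRed_PeuD_LiftRat

section MergeWrap_Lib_BadRed_PeuD_LiftDisc -- from Lib/BadRed/PeuD/LiftDisc.lean

set_option autoImplicit false
set_option linter.unusedSectionVars false
set_option linter.unusedVariables false
set_option maxHeartbeats 1000000
set_option synthInstance.maxHeartbeats 400000

noncomputable section

namespace Fermat.Agent.PeuD

open ModularCurve AlgebraicCurve HahnSeries Fermat.Agent.GaussInt Fermat.Agent.BadRed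
  Fermat.Agent.AtkinLehner Fermat.Agent.Deuring

local notation "Qb" => AlgebraicClosure ℚ
local notation "GQb" => (AlgebraicClosure ℚ ≃ₐ[ℚ] AlgebraicClosure ℚ)

section Abstract

variable {K F k Fk : Type*} [Field K] [Field F] [Algebra K F]
  [Field k] [Field Fk] [Algebra k Fk]

/-- change of the scaling constant by a unit of `A`. -/
theorem liftDisc_of_unit (S : ValSetup K F k Fk) {c d : K} {f : F} (hc : c ≠ 0)
    (h1 : f * (algebraMap K F c)⁻¹ ∈ S.Ov) (h2 : (f * (algebraMap K F c)⁻¹)⁻¹ ∈ S.Ov)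
    (hu : c / d ∈ S.A) (hu' : (c / d)⁻¹ ∈ S.A) :
    f * (algebraMap K F d)⁻¹ ∈ S.Ov ∧ (f * (algebraMap K F d)⁻¹)⁻¹ ∈ S.Ov := by
  have hc' : algebraMap K F c ≠ 0 := (map_ne_zero _).mpr hc
  have e1 : f * (algebraMap K F d)⁻¹ = f * (algebraMap K F c)⁻¹ * algebraMap K F (c / d) := by
    rw [map_div₀, div_eq_mul_inv, mul_assoc, ← mul_assoc (algebraMap K F c)⁻¹,
      inv_mul_cancel₀ hc', one_mul]
  have e2 : (f * (algebraMap K F d)⁻¹)⁻¹ =
      (f * (algebraMap K F c)⁻¹)⁻¹ * algebraMap K F (c / d)⁻¹ := by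
    rw [e1, mul_inv, map_inv₀]
  refine ⟨?_, ?_⟩
  · rw [e1]
    exact mul_mem h1 (S.algebraMap_mem hu)
  · rw [e2]
    exact mul_mem h2 (S.algebraMap_mem hu')

end Abstract

variable {D : ALData} {A : ValuationSubring Qb} (M : ModularNodal D A)

/-- **(L3)**, first valuation: an inertia-fixed `f ≠ 0` is `(D.Q) ^ n` times a unit of `O₁`. -/
theorem liftDisc₁ (hQ : D.Q.Prime) (hA : A.LiesOverPrime D.Q)
    {f : modularFunctionFieldBar (D.Q * D.R)} (hf0 : f ≠ 0)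
    (hfix : ∀ τ ∈ A.inertiaSubgroupIn ℚ,
      arithmeticGalois (modularFunctionFieldFull (D.Q * D.R)) τ • f = f) :
    ∃ n : ℤ,
      f * (algebraMap Qb (modularFunctionFieldBar (D.Q * D.R)) ((D.Q : Qb) ^ n))⁻¹ ∈ M.N.S₁.Ov ∧
      (f * (algebraMap Qb (modularFunctionFieldBar (D.Q * D.R)) ((D.Q : Qb) ^ n))⁻¹)⁻¹ ∈
        M.N.S₁.Ov := by
  obtain ⟨c, hc0, hcfix, h1, h2, -⟩ :=
    gau_scale₁ M hQ hA (A.inertiaSubgroupIn ℚ : Set GQb) hf0 hfix
  obtain ⟨n, hu, hu'⟩ := Fermat.Agent.EKp.valI_unit D.Q hQ A hA c hc0 hcfix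
  refine ⟨n, liftDisc_of_unit M.N.S₁ hc0 h1 h2 ?_ ?_⟩
  · rw [M.A_eq]; exact hu
  · rw [M.A_eq]; exact hu'

/-- **(L3)**, second valuation: an inertia-fixed `f ≠ 0` is `(D.Q) ^ n` times a unit of `O₂`. -/
theorem liftDisc₂ (hQ : D.Q.Prime) (hA : A.LiesOverPrime D.Q)
    {f : modularFunctionFieldBar (D.Q * D.R)} (hf0 : f ≠ 0)
    (hfix : ∀ τ ∈ A.inertiaSubgroupIn ℚ,
      arithmeticGalois (modularFunctionFieldFull (D.Q * D.R)) τ • f = f) :
    ∃ n : ℤ,
      f * (algebraMap Qb (modularFunctionFieldBar (D.Q * D.R)) ((D.Q : Qb) ^ n))⁻¹ ∈ M.N.S₂.Ov ∧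
      (f * (algebraMap Qb (modularFunctionFieldBar (D.Q * D.R)) ((D.Q : Qb) ^ n))⁻¹)⁻¹ ∈
        M.N.S₂.Ov := by
  obtain ⟨c, hc0, hcfix, h1, h2, -⟩ :=
    gau_scale₂ M hQ hA (A.inertiaSubgroupIn ℚ : Set GQb) hf0 hfix
  obtain ⟨n, hu, hu'⟩ := Fermat.Agent.EKp.valI_unit D.Q hQ A hA c hc0 hcfix
  have hA2 : M.N.S₂.A = A := by rw [← M.N.A_eq, M.A_eq]
  refine ⟨n, liftDisc_of_unit M.N.S₂ hc0 h1 h2 ?_ ?_⟩
  · rw [hA2]; exact hu
  · rw [hA2]; exact hu'

/-- the two exponents of `liftDisc₁`, `liftDisc₂` for the same function, together. -/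
theorem liftDisc_pair (hQ : D.Q.Prime) (hA : A.LiesOverPrime D.Q)
    {f : modularFunctionFieldBar (D.Q * D.R)} (hf0 : f ≠ 0)
    (hfix : ∀ τ ∈ A.inertiaSubgroupIn ℚ,
      arithmeticGalois (modularFunctionFieldFull (D.Q * D.R)) τ • f = f) :
    (∃ n : ℤ,
      f * (algebraMap Qb (modularFunctionFieldBar (D.Q * D.R)) ((D.Q : Qb) ^ n))⁻¹ ∈ M.N.S₁.Ov ∧
      (f * (algebraMap Qb (modularFunctionFieldBar (D.Q * D.R)) ((D.Q : Qb) ^ n))⁻¹)⁻¹ ∈
        M.N.S₁.Ov) ∧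
    (∃ n : ℤ,
      f * (algebraMap Qb (modularFunctionFieldBar (D.Q * D.R)) ((D.Q : Qb) ^ n))⁻¹ ∈ M.N.S₂.Ov ∧
      (f * (algebraMap Qb (modularFunctionFieldBar (D.Q * D.R)) ((D.Q : Qb) ^ n))⁻¹)⁻¹ ∈
        M.N.S₂.Ov) :=
  ⟨liftDisc₁ M hQ hA hf0 hfix, liftDisc₂ M hQ hA hf0 hfix⟩

end Fermat.Agent.PeuD
end
end MergeWrap_Lib_BadRed_PeuD_LiftDisc

section MergeWrap_Lib_BadRed_PeuD_JacModFix -- from Lib/BadRed/PeuD/JacModFix.lean

set_option autoImplicit false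
set_option linter.style.haveILetI false
set_option linter.unusedSectionVars false
set_option linter.unusedVariables false
set_option synthInstance.maxHeartbeats 400000
set_option maxHeartbeats 1000000

noncomputable section

namespace Fermat.Agent.PeuD

open IntermediateField ModularCurve AlgebraicCurve Fermat.Agent.F3 Fermat.Agent.F3G
  Fermat.Agent.GaussInt Fermat.Agent.AtkinLehner Fermat.Agent.Deuring Fermat.Agent.RR
  Fermat.Agent.BadRed Fermat.Agent.F3I2 Fermat.Agent.EKp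

local notation "Qb" => AlgebraicClosure ℚ
local notation "GQb" => (AlgebraicClosure ℚ ≃ₐ[ℚ] AlgebraicClosure ℚ)

attribute [local instance] Fermat.Agent.BadRed.fwFintype

variable (D : ALData) [NeZero D.Q] [NeZero D.R] [NeZero (D.Q * D.R)]
  (A : ValuationSubring Qb) (hq : D.Q.Prime) (hA : A.LiesOverPrime D.Q) (hqR : ¬ D.Q ∣ D.R)
  [Fact D.Q.Prime] [CharP (IsLocalRing.ResidueField A) D.Q]
  [PerfectRing (IsLocalRing.ResidueField A) D.Q]

/-- **(LiftFix) for the modular seed.** -/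
theorem jacmf_seedLiftFix (haux : AuxLevelOK D.Q D.R) :
    SeedLiftFix (kpSeed D A hq hA hqR haux) (kpΓ D A) := by
  haveI := infinite_residue A
  have hS := isGaussSetup_gaussSetupBad D hq hqR A hA
  intro m f hf h₁ h₂
  have hπA : (D.Q : Qb) ∈ A := natCast_mem A D.Q
  have hπinv : ((D.Q : Qb))⁻¹ ∉ A := by
    intro hinv
    have hnon : (D.Q : Qb) ∈ A.nonunits := hA
    rw [A.mem_nonunits_iff] at hnon
    have h0 : (D.Q : Qb) ≠ 0 := by exact_mod_cast hq.ne_zero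
    have hle : A.valuation ((D.Q : Qb))⁻¹ ≤ 1 := (A.valuation_le_one_iff _).2 hinv
    rw [map_inv₀] at hle
    have hpos : 0 < A.valuation (D.Q : Qb) := by
      rw [Valuation.pos_iff]
      exact h0
    have h1 := (inv_le_one₀ hpos).mp hle
    exact absurd hnon (not_lt.mpr h1)
  obtain ⟨g, hgint, hgfix, hr₁, hr₂⟩ :=
    liftFix_of_fix (kpSeed D A hq hA hqR haux) (kpΓ D A) (π := (D.Q : Qb))
      (by
        rintro _ ⟨τ, hτ, rfl⟩
        exact map_natCast τ D.Q)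
      (hS.A_eq.symm ▸ hπA)
      (fun h => hπinv (hS.A_eq ▸ h))
      (fun l => by
        obtain ⟨a, ha, hafix, hares⟩ := jac_res D A hq hA hqR l
        refine ⟨a, ?_, ha, hares⟩
        rintro _ ⟨τ, hτ, rfl⟩
        exact hafix τ hτ)
      (fun f hf0 hffix =>
        liftDisc₁ (jacM D A hq hA hqR haux) hq hA hf0
          (fun τ hτ => hffix _ ⟨τ, hτ, rfl⟩))
      (fun f hf0 hffix =>
        liftDisc₂ (jacM D A hq hA hqR haux) hq hA hf0
          (fun τ hτ => hffix _ ⟨τ, hτ, rfl⟩))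
      (m := m)
      ((liftRat_span_fwSeed D A hq hA hqR (kpS D A hq hA hqR) hS
        (hasLattice_gaussSetupBad D hq hqR A hA) haux
        (fw_sep D A hq hA hqR _ hS haux) m).trans
        (Submodule.span_mono (by
          rintro g ⟨hg1, hg2⟩
          refine ⟨hg1, ?_⟩
          rintro _ ⟨τ, hτ, rfl⟩
          exact hg2 τ hτ)))
      (f := f) ⟨hf, h₁, h₂⟩
  exact ⟨g, hgint.1, hgint.2.1, hgint.2.2, hr₁, hr₂, hgfix⟩

/-- **JAC-MOD**: for `σ` in the inertia group of `A | p`, `y` a `p`-torsion class of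
`J₀(p R)` and `Γ₀` a subgroup of the inertia group fixing `l = σ • y - y`: `l` has an ordinary
representative `Dl` with trivial reduction and a Kummer generator `hl` with both reductions `1`,
both fixed by `Γ₀`. -/
theorem jac_mod_final (haux : AuxLevelOK D.Q D.R) (Γ₀ : Subgroup GQb)
    (hΓ₀ : ∀ τ ∈ Γ₀, τ ∈ A.inertiaSubgroupIn ℚ)
    {σ : GQb} (hσ : σ ∈ A.inertiaSubgroupIn ℚ) {y : JZero (D.Q * D.R)} (hy : D.Q • y = 0)
    (hl : ∀ τ ∈ Γ₀, τ • (σ • y - y) = σ • y - y) :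
    ∃ (Dl : Divisor.degZero (K := Qb) (F := FBar (D.Q * D.R))) (hl : FBar (D.Q * D.R)),
      (Pic0.mk Dl : JZero (D.Q * D.R)) = σ • y - y ∧ hl ≠ 0 ∧
      (∀ v : Place Qb (FBar (D.Q * D.R)), v.ord hl = D.Q * (Dl : Divisor Qb (FBar (D.Q * D.R))) v) ∧
      (kpN D A hq hA hqR haux).S₁.red hl = 1 ∧ (kpN D A hq hA hqR haux).S₂.red hl = 1 ∧
      (kpN D A hq hA hqR haux).RedTrivial (Dl : Divisor Qb (FBar (D.Q * D.R))) ∧
      (∀ t ∈ jacΓ D Γ₀, t • (Dl : Divisor Qb (FBar (D.Q * D.R))) = Dl) ∧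
      (∀ t ∈ jacΓ D Γ₀, t • hl = hl) :=
  jac_mod D A hq hA hqR haux Γ₀ hΓ₀ (jacmf_seedLiftFix D A hq hA hqR haux) hσ hy hl

end Fermat.Agent.PeuD
end
end MergeWrap_Lib_BadRed_PeuD_JacModFix

section MergeWrap_Lib_BadRed_PeuD_ModU -- from Lib/BadRed/PeuD/ModU.lean

set_option autoImplicit false
set_option linter.style.haveILetI false
set_option linter.unusedSectionVars false
set_option synthInstance.maxHeartbeats 400000

noncomputable section

namespace Fermat.Agent.PeuD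

open IntermediateField ModularCurve AlgebraicCurve Fermat.Agent.F3 Fermat.Agent.F3G
  Fermat.Agent.GaussInt Fermat.Agent.AtkinLehner Fermat.Agent.Deuring Fermat.Agent.RR
  Fermat.Agent.BadRed Fermat.Agent.EKp

local notation "Qb" => AlgebraicClosure ℚ

attribute [local instance] Fermat.Agent.BadRed.fwFintype

variable (D : ALData) [NeZero D.Q] [NeZero D.R] [NeZero (D.Q * D.R)]
  (A : ValuationSubring Qb) (hq : D.Q.Prime) (hA : A.LiesOverPrime D.Q) (hqR : ¬ D.Q ∣ D.R)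
  [Fact D.Q.Prime] [CharP (IsLocalRing.ResidueField A) D.Q]
  [PerfectRing (IsLocalRing.ResidueField A) D.Q]

/-! ### the components of the seed -/

theorem wu_S₁ (haux : AuxLevelOK D.Q D.R) :
    (kpSeed D A hq hA hqR haux).S₁ = kpS D A hq hA hqR := rfl

theorem wu_S₂ (haux : AuxLevelOK D.Q D.R) :
    (kpSeed D A hq hA hqR haux).S₂ = valSetupZero D (kpS D A hq hA hqR) := rfl

theorem wu_s₁ (haux : AuxLevelOK D.Q D.R) (i : kpIota D A hq hA hqR) :
    (kpSeed D A hq hA hqR haux).s₁ i = i.1 := rfl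

theorem wu_s₂ (haux : AuxLevelOK D.Q D.R) (i : kpIota D A hq hA hqR) :
    (kpSeed D A hq hA hqR haux).s₂ i =
      (frobAut (IsLocalRing.ResidueField A) D.R D.Q)⁻¹ • i.1 := rfl

theorem wu_A (haux : AuxLevelOK D.Q D.R) : (kpSeed D A hq hA hqR haux).S₁.A = A :=
  (isGaussSetup_gaussSetupBad D hq hqR A hA).A_eq

/-! ### the annulus data -/

/-- **the annulus data of the modular seed.** -/
theorem wu_annulus (haux : AuxLevelOK D.Q D.R) :
    AnnulusData (kpSeed D A hq hA hqR haux) (fwU D) (fwPi D) := by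
  haveI := infinite_residue A
  haveI : FiniteDimensional Qb⟮fwU D⟯ (modularFunctionFieldBar (D.Q * D.R)) :=
    finiteDimensional_uF hq (Dvd.intro _ rfl)
  haveI : FiniteDimensional (IsLocalRing.ResidueField A)⟮(kpS D A hq hA hqR).red (fwU D)⟯
      (modularFunctionFieldFullC (IsLocalRing.ResidueField A) D.R) :=
    fw_finiteDimensional_red D A hq hA _ (isGaussSetup_gaussSetupBad D hq hqR A hA)
  haveI : FiniteDimensional (IsLocalRing.ResidueField A)⟮(valSetupZero D (kpS D A hq hA hqR)).red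
        (algebraMap Qb (modularFunctionFieldBar (D.Q * D.R)) (fwPi D) / fwU D)⟯
      (modularFunctionFieldFullC (IsLocalRing.ResidueField A) D.R) := by
    rw [fw_red_pi_div]
    exact fw_finiteDimensional_red D A hq hA _ (isGaussSetup_gaussSetupBad D hq hqR A hA)
  unfold kpSeed fwSeed
  exact annulusData_seedOfU _ _ _ _ _ _ _ _ _ _ _ _ _ _ _ _ _ _

include hq in
theorem wu_pi_ne : fwPi D ≠ 0 := fw_pi_ne_zero D hq

theorem wu_red₁_ne (haux : AuxLevelOK D.Q D.R) :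
    (kpSeed D A hq hA hqR haux).S₁.red (fwU D) ≠ 0 :=
  (wu_annulus D A hq hA hqR haux).red₁_ne

theorem wu_mul_inv :
    algebraMap Qb (modularFunctionFieldBar (D.Q * D.R)) (fwPi D) * (fwU D)⁻¹ =
      algebraMap Qb (modularFunctionFieldBar (D.Q * D.R)) (fwPi D) / fwU D :=
  (div_eq_mul_inv _ _).symm

theorem wu_red₂_eq (haux : AuxLevelOK D.Q D.R) :
    (kpSeed D A hq hA hqR haux).S₂.red
        (algebraMap Qb (modularFunctionFieldBar (D.Q * D.R)) (fwPi D) * (fwU D)⁻¹) =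
      (kpS D A hq hA hqR).red (fwU D) := by
  rw [wu_mul_inv]
  exact fw_red_pi_div D A (kpS D A hq hA hqR)

theorem wu_red₂_ne (haux : AuxLevelOK D.Q D.R) :
    (kpSeed D A hq hA hqR haux).S₂.red
        (algebraMap Qb (modularFunctionFieldBar (D.Q * D.R)) (fwPi D) * (fwU D)⁻¹) ≠ 0 := by
  rw [wu_red₂_eq]
  exact wu_red₁_ne D A hq hA hqR haux

/-! ### the multiplicities -/

/-- `ord_{s₁ i} red₁ u = ε_i`. -/
theorem wu_eps₁ (haux : AuxLevelOK D.Q D.R) (i : kpIota D A hq hA hqR) :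
    ((kpSeed D A hq hA hqR haux).s₁ i).ord ((kpSeed D A hq hA hqR haux).S₁.red (fwU D)) =
      (kpEps D A hq hA hqR i : ℤ) :=
  (kpEps_cast D A hq hA hqR i).symm

/-- `ord_{s₂ i} red₂ (ϖ / u) = ε_i`. -/
theorem wu_eps₂ (haux : AuxLevelOK D.Q D.R) (i : kpIota D A hq hA hqR) :
    ((kpSeed D A hq hA hqR haux).s₂ i).ord
        ((kpSeed D A hq hA hqR haux).S₂.red
          (algebraMap Qb (modularFunctionFieldBar (D.Q * D.R)) (fwPi D) * (fwU D)⁻¹)) =
      (kpEps D A hq hA hqR i : ℤ) := by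
  rw [wu_red₂_eq, wu_s₂,
    ord_frobAut_inv_smul_of_coe_ssFun _ _ _ D.Q
      (fw_coe_red_uF D A hq hA (kpS D A hq hA hqR) (isGaussSetup_gaussSetupBad D hq hqR A hA))]
  exact (kpEps_cast D A hq hA hqR i).symm

/-- `u` has neither zero nor pole at the places of type N. -/
theorem wu_ord_N (haux : AuxLevelOK D.Q D.R)
    (P : Place Qb (modularFunctionFieldBar (D.Q * D.R)))
    (hP : (kpSeed D A hq hA hqR haux).rmap P = none) : P.ord (fwU D) = 0 :=
  (wu_annulus D A hq hA hqR haux).ord_N P hP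

theorem wu_noDiv (haux : AuxLevelOK D.Q D.R) (i : kpIota D A hq hA hqR) :
    NoDivAtNode (kpSeed D A hq hA hqR haux) i (fwU D) :=
  fun P hP => wu_ord_N D A hq hA hqR haux P hP.1

/-! ### inertia -/

theorem wu_inertial (haux : AuxLevelOK D.Q D.R) :
    haveI := Fermat.Agent.GaussInt.infinite_residue A
    ∀ t ∈ kpΓ D A, (kpSeed D A hq hA hqR haux).nodalSetup.IsInertial t :=
  kpΓ_isInertial D A hq hA hqR haux

theorem wu_fix_u : ∀ t ∈ kpΓ D A, t • fwU D = fwU D := by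
  rintro _ ⟨τ, -, rfl⟩
  exact arithmeticGalois_smul_uF (D.Q * D.R) D.Q (Dvd.intro _ rfl) τ

/-- `v (ϖ) = v (q) ^ 12`. -/
theorem wu_val_pi (haux : AuxLevelOK D.Q D.R) :
    (kpSeed D A hq hA hqR haux).S₁.A.valuation (fwPi D) =
      (kpSeed D A hq hA hqR haux).S₁.A.valuation (D.Q : Qb) ^ 12 := by
  rw [← map_pow]

/-- AUX-EQ in the shape of `CoordData.sum_eps` (`e = 12`). -/
theorem wu_sum_eps (haux : AuxLevelOK D.Q D.R) (h4 : 4 ∣ D.R ∨ 9 ∣ D.R) :
    ∑ i : kpIota D A hq hA hqR, ((kpSeed D A hq hA hqR haux).s₁ i).ord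
        ((kpSeed D A hq hA hqR haux).S₁.red (fwU D)) =
      ((12 : ℕ) : ℤ) * Fintype.card (kpIota D A hq hA hqR) := by
  have h := auxEq_int D A hq hA hqR haux h4
  rw [Nat.cast_ofNat]
  exact h

/-! ### `slope_loc` for the modular seed -/

/-- **SLOPE-loc for the modular seed**: the `u`-hypotheses are discharged. -/
theorem wu_slope_loc (haux : AuxLevelOK D.Q D.R) (i : kpIota D A hq hA hqR)
    {θ : modularFunctionFieldBar (D.Q * D.R)}
    (hθ : NoDivAtNode (kpSeed D A hq hA hqR haux) i θ) {c₁ c₂ : Qb}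
    (h₁ : (kpSeed D A hq hA hqR haux).S₁.red
      (θ / algebraMap Qb (modularFunctionFieldBar (D.Q * D.R)) c₁) ≠ 0)
    (h₂ : (kpSeed D A hq hA hqR haux).S₂.red
      (θ / algebraMap Qb (modularFunctionFieldBar (D.Q * D.R)) c₂) ≠ 0)
    (hR1 : ∃ (b : ℕ) (a : ℤ), 0 < b ∧
      (kpSeed D A hq hA hqR haux).S₁.A.valuation ((c₂ / c₁) ^ b) =
        (kpSeed D A hq hA hqR haux).S₁.A.valuation (fwPi D ^ a)) :
    ((kpSeed D A hq hA hqR haux).s₂ i).ord ((kpSeed D A hq hA hqR haux).S₂.red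
        (θ / algebraMap Qb (modularFunctionFieldBar (D.Q * D.R)) c₂)) =
        -((kpSeed D A hq hA hqR haux).s₁ i).ord ((kpSeed D A hq hA hqR haux).S₁.red
          (θ / algebraMap Qb (modularFunctionFieldBar (D.Q * D.R)) c₁)) ∧
      (kpSeed D A hq hA hqR haux).S₁.A.valuation (c₂ / c₁) ^ (kpEps D A hq hA hqR i) =
        (kpSeed D A hq hA hqR haux).S₁.A.valuation (fwPi D) ^
          ((kpSeed D A hq hA hqR haux).s₁ i).ord ((kpSeed D A hq hA hqR haux).S₁.red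
            (θ / algebraMap Qb (modularFunctionFieldBar (D.Q * D.R)) c₁)) := by
  haveI := infinite_residue A
  exact slope_loc (wu_pi_ne D hq) (wu_red₁_ne D A hq hA hqR haux)
    (wu_red₂_ne D A hq hA hqR haux) (wu_eps₁ D A hq hA hqR haux i)
    (wu_eps₂ D A hq hA hqR haux i) (wu_noDiv D A hq hA hqR haux i) hθ h₁ h₂ hR1

end Fermat.Agent.PeuD
end
end MergeWrap_Lib_BadRed_PeuD_ModU

section MergeWrap_Lib_BadRed_PeuD_RatSeed -- from Lib/BadRed/PeuD/RatSeed.lean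

set_option autoImplicit false
set_option linter.unusedSectionVars false
set_option linter.unusedVariables false
set_option linter.style.haveILetI false

noncomputable section

open AlgebraicCurve Fermat.Agent.RR Fermat.Agent.Deuring Fermat.Agent.BadRed

namespace Fermat.Agent.PeuD

variable {K F k Fk₁ Fk₂ : Type*} [Field K] [Field F] [Algebra K F]
  [Field k] [Field Fk₁] [Algebra k Fk₁] [Field Fk₂] [Algebra k Fk₂] {ι : Type*} [Fintype ι]

theorem rat_seedLiftFix_mono {N : NodalSeed K F k Fk₁ Fk₂ ι} {Γ Γ' : Set (SemilinearAut K F)}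
    (h : SeedLiftFix N Γ) (hΓ : Γ' ⊆ Γ) : SeedLiftFix N Γ' := by
  intro m f hf h1 h2
  obtain ⟨g, hg, hg1, hg2, e1, e2, hgΓ⟩ := h m f hf h1 h2
  exact ⟨g, hg, hg1, hg2, e1, e2, fun t ht => hgΓ t (hΓ ht)⟩

variable [Infinite k]

/-- elementwise equivariant lifting for a seed. -/
theorem rat_seed_exists_lift {N : NodalSeed K F k Fk₁ Fk₂ ι} {Γ : Set (SemilinearAut K F)}
    (h : SeedLiftFix N Γ) {m : ℕ} (hm : N.m₀ ≤ m) {a : Fk₁} {b : Fk₂}
    (hab : (a, b) ∈ nodalRR N.s₁ N.s₂ (m • N.R₁) (m • N.R₂)) :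
    ∃ f : F, f ∈ riemannRochSpace (m • N.D₀) ∧ f ∈ N.S₁.Ov ∧ f ∈ N.S₂.Ov ∧
      (∀ t ∈ Γ, t • f = f) ∧ N.S₁.red f = a ∧ N.S₂.red f = b := by
  obtain ⟨f, hf, h1, h2, ha, hb⟩ := N.exists_lift hm hab
  obtain ⟨g, hg, hg1, hg2, e1, e2, hgΓ⟩ := h m f hf h1 h2
  exact ⟨g, hg, hg1, hg2, hgΓ, e1.trans ha, e2.trans hb⟩

/-- `SeedLiftFix` gives the input `RatLift₁` of (COORD₁). -/
theorem ratLift₁_of_seed {N : NodalSeed K F k Fk₁ Fk₂ ι} {Γ : Set (SemilinearAut K F)}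
    (h : SeedLiftFix N Γ) : RatLift₁ N Γ := by
  intro m₀
  refine ⟨max m₀ N.m₀, le_max_left _ _, fun a ha hac => ?_⟩
  have hab : ((a, (0 : Fk₂)) : Fk₁ × Fk₂) ∈
      nodalRR N.s₁ N.s₂ (max m₀ N.m₀ • N.R₁) (max m₀ N.m₀ • N.R₂) :=
    ⟨ha, Submodule.zero_mem _, fun i => ⟨0, hac i, valAt_zero _⟩⟩
  obtain ⟨f, h1, h2, -, h4, h5, -⟩ := rat_seed_exists_lift h (le_max_right _ _) hab
  exact ⟨f, h1, h2, h4, h5⟩

/-- `SeedLiftFix` gives the input `RatLift₂` of (COORD₂). -/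
theorem ratLift₂_of_seed {N : NodalSeed K F k Fk₁ Fk₂ ι} {Γ : Set (SemilinearAut K F)}
    (h : SeedLiftFix N Γ) : RatLift₂ N Γ := by
  intro m₀
  refine ⟨max m₀ N.m₀, le_max_left _ _, fun b hb hbc => ?_⟩
  have hab : (((0 : Fk₁), b) : Fk₁ × Fk₂) ∈
      nodalRR N.s₁ N.s₂ (max m₀ N.m₀ • N.R₁) (max m₀ N.m₀ • N.R₂) :=
    ⟨Submodule.zero_mem _, hb, fun i => ⟨0, valAt_zero _, hbc i⟩⟩
  obtain ⟨f, h1, -, h3, h4, -, h6⟩ := rat_seed_exists_lift h (le_max_right _ _) hab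
  exact ⟨f, h1, h3, h4, h6⟩

end Fermat.Agent.PeuD
end
end MergeWrap_Lib_BadRed_PeuD_RatSeed

section MergeWrap_Lib_BadRed_PeuD_ZPole -- from Lib/BadRed/PeuD/ZPole.lean

set_option autoImplicit false
set_option linter.unusedSectionVars false
set_option linter.unusedVariables false

noncomputable section

open AlgebraicCurve Fermat.Agent.RR Fermat.Agent.Deuring

namespace Fermat.Agent.BadRed

variable {K F k Fk₁ Fk₂ : Type*} [Field K] [Field F] [Algebra K F]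
  [Field k] [Field Fk₁] [Algebra k Fk₁] [Field Fk₂] [Algebra k Fk₂]
  {ι : Type*} [Fintype ι] {N : NodalSeed K F k Fk₁ Fk₂ ι}

/-- a place of node type at the level `m` is not in the support of `D₀`. -/
theorem NodalSeed.IsNodeType.D₀_eq_zero {m : ℕ} {P : Place K F} (h : N.IsNodeType m P) :
    N.D₀ P = 0 := by
  classical
  by_contra hne
  have h0 : 0 ≤ N.D₀ P := by
    have := N.D₀_nonneg
    rw [Finsupp.le_def] at this
    simpa using this P
  have h1 : 1 ≤ N.D₀ P := by omega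
  obtain ⟨f, hf, hf1, hf2, hf3⟩ := h
  have hle : m • N.D₀ + Finsupp.single P 1 ≤ (m + 1) • N.D₀ := by
    rw [add_smul, one_smul]
    refine add_le_add_right ?_ _
    rw [Finsupp.le_def]
    intro Q
    rw [Finsupp.single_apply]
    split_ifs with hPQ
    · rw [← hPQ]; exact h1
    · have := N.D₀_nonneg
      rw [Finsupp.le_def] at this
      simpa using this Q
  have hmem := N.seed (m + 1) f (riemannRochSpace_mono hle hf.1) hf.2.1 hf.2.2
  exact hf3 ⟨hf1, hf2, hmem.2.2⟩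

/-- a place with `rmap P = none` is not in the support of `D₀`. -/
theorem NodalSeed.D₀_eq_zero_of_rmap_none [Infinite k] {P : Place K F} (hP : N.rmap P = none) :
    N.D₀ P = 0 :=
  (NodalSeed.rmap_eq_none_iff.mp hP).D₀_eq_zero

/-- **`z_pole`**: a function of `L(m • D₀)` has no pole at a place of node type. -/
theorem NodalSeed.ord_nonneg_of_rmap_none [Infinite k] (N : NodalSeed K F k Fk₁ Fk₂ ι) {m : ℕ}
    {f : F} (hf : f ∈ riemannRochSpace (m • N.D₀)) {P : Place K F} (hP : N.rmap P = none) :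
    0 ≤ P.ord f := by
  rcases (mem_riemannRochSpace_iff.mp hf) P with h | h
  · rw [h, Place.ord_zero]
  · have h0 := NodalSeed.D₀_eq_zero_of_rmap_none hP
    have h1 : (m • N.D₀) P = 0 := by
      rw [Finsupp.smul_apply, h0, smul_zero]
    rw [h1, neg_zero] at h
    exact h

/-- the same at a level `m'`, for a place of node type at the level `m`. -/
theorem NodalSeed.IsNodeType.ord_nonneg {m m' : ℕ} {P : Place K F} (h : N.IsNodeType m P)
    {f : F} (hf : f ∈ riemannRochSpace (m' • N.D₀)) : 0 ≤ P.ord f := by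
  rcases (mem_riemannRochSpace_iff.mp hf) P with h' | h'
  · rw [h', Place.ord_zero]
  · have h1 : (m' • N.D₀) P = 0 := by
      rw [Finsupp.smul_apply, h.D₀_eq_zero, smul_zero]
    rw [h1, neg_zero] at h'
    exact h'

end Fermat.Agent.BadRed
end
end MergeWrap_Lib_BadRed_PeuD_ZPole

section MergeWrap_R38_D_ModTameCore -- from R38/D/ModTameCore.lean

set_option autoImplicit false
set_option linter.style.haveILetI false
set_option linter.unusedSectionVars false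
set_option linter.unusedVariables false
set_option synthInstance.maxHeartbeats 400000
set_option maxHeartbeats 1000000

noncomputable section

namespace Fermat.Agent.R38

open ModularCurve AlgebraicCurve Fermat.Agent.F3 Fermat.Agent.F3G Fermat.Agent.F3I2
  Fermat.Agent.GaussInt Fermat.Agent.AtkinLehner Fermat.Agent.Deuring Fermat.Agent.RR
  Fermat.Agent.BadRed Fermat.Agent.EKp Fermat.Agent.PeuD

local notation "Qb" => AlgebraicClosure ℚ
local notation "GQ" => (AlgebraicClosure ℚ ≃ₐ[ℚ] AlgebraicClosure ℚ)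

attribute [local instance] Fermat.Agent.BadRed.fwFintype

/-! ### the two inputs -/

section Inputs

variable (D : ALData) [NeZero D.Q] [NeZero D.R] [NeZero (D.Q * D.R)]
  (A : ValuationSubring Qb) (hq : D.Q.Prime) (hA : A.LiesOverPrime D.Q) (hqR : ¬ D.Q ∣ D.R)
  [Fact D.Q.Prime] [CharP (IsLocalRing.ResidueField A) D.Q]
  [PerfectRing (IsLocalRing.ResidueField A) D.Q]

/-- **COORD-MOD**: a coordinate of the modular seed, fixed by the inertia group. -/
def MtCoord (haux : AuxLevelOK D.Q D.R) : Prop :=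
  ∃ z : modularFunctionFieldBar (D.Q * D.R),
    CoordData (kpSeed D A hq hA hqR haux) (fwU D) (fwPi D) (D.Q : Qb) 12 z ∧
      ∀ τ ∈ A.inertiaSubgroupIn ℚ,
        arithmeticGalois (modularFunctionFieldFull (D.Q * D.R)) τ • z = z

end Inputs

/-- **BRK-TAME**: `π = ζ - 1` is a uniformiser of `K₁ = K₀(ζ)`, and `v(p ^ 12) = v(π) ^ (12 (p-1))`. -/
def MtBrk (p : ℕ) (A : ValuationSubring Qb) (ζ : Qb) : Prop :=
  ζ - 1 ≠ 0 ∧ A.valuation (ζ - 1) < 1 ∧
    (∀ c : Qb, c ≠ 0 → (∀ σ ∈ Fermat.Agent.FFL.FB.stabI A ζ, σ c = c) →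
      ∃ n : ℤ, A.valuation c = A.valuation (ζ - 1) ^ n) ∧
    A.valuation ((p : Qb) ^ 12) = A.valuation (ζ - 1) ^ (12 * (p - 1))

/-- **BRK-TAME** holds (helper85, `PeuD/BrkTame.lean`). -/
theorem mtBrk_of {p : ℕ} {A : ValuationSubring Qb} {ζ : Qb} (hp : p.Prime)
    (hA : A.LiesOverPrime p) (hζ : IsPrimitiveRoot ζ p) : MtBrk p A ζ :=
  ⟨brkTame_pi_ne hp hζ, brkTame_pi_lt hp hA hζ,
    fun c hc hfix => brkTame_val_rat hp hA hζ hc hfix, brkTame_val_varpi hp hζ⟩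

/-! ### the group `H` -/

/-- the image of `Γ₁ = stabI A ζ` in the semilinear automorphisms of `F_N`. -/
def mtH (N : ℕ) (A : ValuationSubring Qb) (ζ : Qb) :
    Subgroup (SemilinearAut Qb (modularFunctionFieldBar N)) :=
  (Fermat.Agent.FFL.FB.stabI A ζ).map (arithmeticGalois (modularFunctionFieldFull N))

theorem mem_mtH {N : ℕ} {A : ValuationSubring Qb} {ζ : Qb}
    {t : SemilinearAut Qb (modularFunctionFieldBar N)} :
    t ∈ mtH N A ζ ↔ ∃ σ : GQ, (σ ∈ A.inertiaSubgroupIn ℚ ∧ σ ζ = ζ) ∧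
      arithmeticGalois (modularFunctionFieldFull N) σ = t := by
  unfold mtH
  rw [Subgroup.mem_map]
  rfl

theorem mtH_eq_gauH (N : ℕ) (A : ValuationSubring Qb) (ζ : Qb) :
    (mtH N A ζ : Set (SemilinearAut Qb (modularFunctionFieldBar N))) =
      gauH N (Fermat.Agent.FFL.FB.stabI A ζ : Set GQ) := by
  ext t
  constructor
  · intro ht
    obtain ⟨σ, hσ, rfl⟩ := mem_mtH.mp ht
    exact mem_gauH (show σ ∈ (Fermat.Agent.FFL.FB.stabI A ζ : Set GQ) from hσ)
  · rintro ⟨σ, hσ, rfl⟩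
    exact mem_mtH.mpr ⟨σ, hσ, rfl⟩

theorem mtH_gauH {N : ℕ} {A : ValuationSubring Qb} {ζ : Qb}
    {t : SemilinearAut Qb (modularFunctionFieldBar N)} (ht : t ∈ mtH N A ζ) :
    t ∈ gauH N (Fermat.Agent.FFL.FB.stabI A ζ : Set GQ) := by
  rw [← mtH_eq_gauH]
  exact ht

theorem gauH_mtH {N : ℕ} {A : ValuationSubring Qb} {ζ : Qb}
    {t : SemilinearAut Qb (modularFunctionFieldBar N)}
    (ht : t ∈ gauH N (Fermat.Agent.FFL.FB.stabI A ζ : Set GQ)) : t ∈ mtH N A ζ := by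
  have h : t ∈ (mtH N A ζ : Set (SemilinearAut Qb (modularFunctionFieldBar N))) := by
    rw [mtH_eq_gauH]
    exact ht
  exact h

/-! ### transport -/

/-- transport of a statement on a valuation subring along an equality. -/
theorem mt_transport {K : Type*} [Field K] {A B : ValuationSubring K} (h : B = A)
    (P : ValuationSubring K → Prop) (hP : P A) : P B := by
  subst h
  exact hP

/-! ### the core -/

section Core

variable (D : ALData) [NeZero D.Q] [NeZero D.R] [NeZero (D.Q * D.R)]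
  (A : ValuationSubring Qb) (hq : D.Q.Prime) (hA : A.LiesOverPrime D.Q) (hqR : ¬ D.Q ∣ D.R)
  [Fact D.Q.Prime] [CharP (IsLocalRing.ResidueField A) D.Q]
  [PerfectRing (IsLocalRing.ResidueField A) D.Q]

theorem mtH_mem_kpΓ {ζ : Qb} {t : SemilinearAut Qb (modularFunctionFieldBar (D.Q * D.R))}
    (ht : t ∈ mtH (D.Q * D.R) A ζ) : t ∈ kpΓ D A := by
  obtain ⟨σ, hσ, rfl⟩ := mem_mtH.mp ht
  exact ⟨σ, hσ.1, rfl⟩

/-- the modular nodal package behind `kpSeed`. -/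
def mtM (haux : AuxLevelOK D.Q D.R) : ModularNodal D A :=
  fwModularNodal D A hq hA hqR (kpS D A hq hA hqR) (isGaussSetup_gaussSetupBad D hq hqR A hA)
    (hasLattice_gaussSetupBad D hq hqR A hA) haux
    (fw_sep D A hq hA hqR _ (isGaussSetup_gaussSetupBad D hq hqR A hA) haux)

/-- **(G1)** for the modular seed and `H = mtH`, first valuation. -/
theorem mt_G1₁ (haux : AuxLevelOK D.Q D.R) (ζ : Qb) :
    ∀ f : modularFunctionFieldBar (D.Q * D.R), f ≠ 0 →
      (∀ t ∈ mtH (D.Q * D.R) A ζ, t • f = f) →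
      ∃ c : Qb, (∀ t ∈ mtH (D.Q * D.R) A ζ, SemilinearAut.baseAut t c = c) ∧
        (kpSeed D A hq hA hqR haux).S₁.red
          (f / algebraMap Qb (modularFunctionFieldBar (D.Q * D.R)) c) ≠ 0 := by
  intro f hf hfH
  obtain ⟨c, hcfix, hred⟩ := gau_G1₁ (mtM D A hq hA hqR haux) hq hA
    (Fermat.Agent.FFL.FB.stabI A ζ : Set GQ) f hf (fun t ht => hfH t (gauH_mtH ht))
  exact ⟨c, fun t ht => hcfix t (mtH_gauH ht), hred⟩

/-- **(G1)** for the modular seed and `H = mtH`, second valuation. -/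
theorem mt_G1₂ (haux : AuxLevelOK D.Q D.R) (ζ : Qb) :
    ∀ f : modularFunctionFieldBar (D.Q * D.R), f ≠ 0 →
      (∀ t ∈ mtH (D.Q * D.R) A ζ, t • f = f) →
      ∃ c : Qb, (∀ t ∈ mtH (D.Q * D.R) A ζ, SemilinearAut.baseAut t c = c) ∧
        (kpSeed D A hq hA hqR haux).S₂.red
          (f / algebraMap Qb (modularFunctionFieldBar (D.Q * D.R)) c) ≠ 0 := by
  intro f hf hfH
  obtain ⟨c, hcfix, hred⟩ := gau_G1₂ (mtM D A hq hA hqR haux) hq hA
    (Fermat.Agent.FFL.FB.stabI A ζ : Set GQ) f hf (fun t ht => hfH t (gauH_mtH ht))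
  exact ⟨c, fun t ht => hcfix t (mtH_gauH ht), hred⟩

/-- **SpDModTame, core**: from COORD-MOD and BRK-TAME. -/
theorem modTame_core (h5 : 5 ≤ D.Q) (haux : AuxLevelOK D.Q D.R)
    (hC : MtCoord D A hq hA hqR haux) (ζ : Qb) (hB : MtBrk D.Q A ζ)
    (y : JZero (D.Q * D.R)) (hpy : D.Q • y = 0)
    (hfix : ∀ σ ∈ A.inertiaSubgroupIn ℚ, σ ζ = ζ → σ • y = y) :
    ∃ E g, spIsKumGen D.Q y E g ∧ spSlopeInt D A hq hA hqR g := by
  haveI := infinite_residue A
  haveI : Nonempty (kpIota D A hq hA hqR) :=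
    fw_nonempty D A hq hA (kpS D A hq hA hqR) (isGaussSetup_gaussSetupBad D hq hqR A hA)
  obtain ⟨z, hz, hzfix⟩ := hC
  obtain ⟨hπ0, hπ1, hval, hϖπ⟩ := hB
  have hAeq : (kpSeed D A hq hA hqR haux).S₁.A = A := wu_A D A hq hA hqR haux
  have hπ1' : (kpSeed D A hq hA hqR haux).S₁.A.valuation (ζ - 1) < 1 :=
    mt_transport hAeq (fun B => B.valuation (ζ - 1) < 1) hπ1
  have hval' : ∀ c : Qb, c ≠ 0 →
      (∀ t ∈ mtH (D.Q * D.R) A ζ, SemilinearAut.baseAut t c = c) →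
      ∃ n : ℤ, (kpSeed D A hq hA hqR haux).S₁.A.valuation c =
        (kpSeed D A hq hA hqR haux).S₁.A.valuation (ζ - 1) ^ n := by
    intro c hc hcH
    refine mt_transport hAeq
      (fun B => ∃ n : ℤ, B.valuation c = B.valuation (ζ - 1) ^ n) (hval c hc ?_)
    intro σ hσ
    exact hcH _ (mem_mtH.mpr ⟨σ, hσ, rfl⟩)
  have hϖπ' : (kpSeed D A hq hA hqR haux).S₁.A.valuation (fwPi D) =
      (kpSeed D A hq hA hqR haux).S₁.A.valuation (ζ - 1) ^ (12 * (D.Q - 1)) :=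
    mt_transport hAeq
      (fun B => B.valuation (fwPi D) = B.valuation (ζ - 1) ^ (12 * (D.Q - 1))) hϖπ
  obtain ⟨E, g, hE, hg0, hgH, hgord, hslope⟩ :=
    abs_tame_fix (kpSeed D A hq hA hqR haux) D.Q hq hz (ε := kpEps D A hq hA hqR)
      (wu_eps₁ D A hq hA hqR haux) (wu_eps₂ D A hq hA hqR haux)
      (mtH (D.Q * D.R) A ζ)
      (fun t ht => wu_inertial D A hq hA hqR haux t (mtH_mem_kpΓ D A ht))
      (fun t ht => by
        obtain ⟨σ, hσ, rfl⟩ := mem_mtH.mp ht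
        exact hzfix σ hσ.1)
      hπ0 hπ1' hval' (E := 12 * (D.Q - 1)) (brkTame_not_dvd hq h5) hϖπ'
      (mt_G1₁ D A hq hA hqR haux ζ) (mt_G1₂ D A hq hA hqR haux ζ)
      (h90_mod_subgroup (modularFunctionFieldFull (D.Q * D.R)) (mtH (D.Q * D.R) A ζ)
        (h90_map_arith (modularFunctionFieldFull (D.Q * D.R)) (Fermat.Agent.FFL.FB.stabI A ζ)))
      (Fermat.Agent.S17.Setup.cuspPlace (D.Q * D.R))
      (fun t ht => kpΓ_fix_oo D A t (mtH_mem_kpΓ D A ht))
      y hpy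
      (fun t ht => by
        obtain ⟨σ, hσ, rfl⟩ := mem_mtH.mp ht
        exact hfix σ hσ.1 hσ.2)
  refine ⟨E, g, ⟨⟨hg0, fun v => (hgord v).symm⟩, hE⟩, ?_⟩
  rintro r ⟨c, hc0, hmem, hred, hr0⟩ i j
  have hred' : (kpSeed D A hq hA hqR haux).S₁.red
      (g / algebraMap Qb (modularFunctionFieldBar (D.Q * D.R)) c) = r := hred
  have hne : (kpSeed D A hq hA hqR haux).S₁.red
      (g / algebraMap Qb (modularFunctionFieldBar (D.Q * D.R)) c) ≠ 0 := by
    rw [hred']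
    exact hr0
  have h1 := hslope c hne i j
  rw [hred'] at h1
  exact h1

/-- **SpDModTame from COORD-MOD**: the only remaining input is the coordinate `z`. -/
theorem modTame_of_coord (h5 : 5 ≤ D.Q) (haux : AuxLevelOK D.Q D.R)
    (hC : MtCoord D A hq hA hqR haux) (ζ : Qb) (hζ : IsPrimitiveRoot ζ D.Q)
    (y : JZero (D.Q * D.R)) (hpy : D.Q • y = 0)
    (hfix : ∀ σ ∈ A.inertiaSubgroupIn ℚ, σ ζ = ζ → σ • y = y) :
    ∃ E g, spIsKumGen D.Q y E g ∧ spSlopeInt D A hq hA hqR g :=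
  modTame_core D A hq hA hqR h5 haux hC ζ (mtBrk_of hq hA hζ) y hpy hfix

end Core

end Fermat.Agent.R38
end
end MergeWrap_R38_D_ModTameCore

section MergeWrap_R38_D_ModWild -- from R38/D/ModWild.lean

set_option autoImplicit false
set_option linter.style.haveILetI false
set_option linter.unusedSectionVars false
set_option linter.unusedVariables false
set_option synthInstance.maxHeartbeats 400000
set_option maxHeartbeats 1000000

noncomputable section

namespace Fermat.Agent.R38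

open IntermediateField ModularCurve AlgebraicCurve Fermat.Agent.F3 Fermat.Agent.F3G
  Fermat.Agent.GaussInt Fermat.Agent.AtkinLehner Fermat.Agent.Deuring Fermat.Agent.RR
  Fermat.Agent.BadRed Fermat.Agent.F3I2 Fermat.Agent.EKp Fermat.Agent.PeuD
  Fermat.Agent.FFL Fermat.Agent.FFL.FB

local notation "Qb" => AlgebraicClosure ℚ
local notation "GQb" => (AlgebraicClosure ℚ ≃ₐ[ℚ] AlgebraicClosure ℚ)

attribute [local instance] Fermat.Agent.BadRed.fwFintype

/-! ### group theory of the Kummer layer -/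

/-- `s₀⁻¹ x = x` if `s₀ x = x`. -/
theorem modWild_inv_apply {s₀ : GQb} {x : Qb} (h : s₀ x = x) : s₀⁻¹ x = x := by
  have h1 := congrArg (s₀⁻¹ : GQb) h
  rw [← AlgEquiv.mul_apply, inv_mul_cancel, AlgEquiv.one_apply] at h1
  exact h1.symm

/-- `s₀` normalises `Gal(ℚ̄ / M)`. -/
theorem modWild_conj {A : ValuationSubring Qb} {ζ α : Qb} {s₀ σ : GQb} (hs : s₀ ∈ stabI A ζ)
    (hsα : s₀ α = ζ * α) (hσ : σ ∈ peuStab A ζ α) : s₀⁻¹ * σ * s₀ ∈ peuStab A ζ α := by
  obtain ⟨hσI, hσζ, hσα⟩ := mem_peuStab.1 hσ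
  refine mem_peuStab.2 ⟨mul_mem (mul_mem (inv_mem hs.1) hσI) hs.1, ?_, ?_⟩
  · rw [AlgEquiv.mul_apply, AlgEquiv.mul_apply, hs.2, hσζ]
    exact modWild_inv_apply hs.2
  · rw [AlgEquiv.mul_apply, AlgEquiv.mul_apply, hsα, map_mul, hσζ, hσα, ← hsα,
      ← AlgEquiv.mul_apply, inv_mul_cancel, AlgEquiv.one_apply]

/-- an element of the inertia group preserves `A`. -/
theorem modWild_inertia_mem {A : ValuationSubring Qb} {σ : GQb}
    (hσ : σ ∈ A.inertiaSubgroupIn ℚ) : ∀ a ∈ A, σ a ∈ A := by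
  obtain ⟨τ, -, rfl⟩ := hσ
  intro a ha
  exact Fermat.Agent.FFL.FB.mem_of_decomp (P := A) τ.2 ha

/-- `p ∤ 12` for a prime `p ≥ 5`. -/
theorem modWild_not_dvd_twelve {p : ℕ} (hp : p.Prime) (h5 : 5 ≤ p) :
    ¬ (p : ℤ) ∣ ((12 : ℕ) : ℤ) := by
  rw [Int.natCast_dvd_natCast]
  intro h
  have hle : p ≤ 12 := Nat.le_of_dvd (by norm_num) h
  interval_cases p <;> revert h <;> revert hp <;> decide

variable (D : ALData) [NeZero D.Q] [NeZero D.R] [NeZero (D.Q * D.R)]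
  (A : ValuationSubring Qb) (hq : D.Q.Prime) (hA : A.LiesOverPrime D.Q) (hqR : ¬ D.Q ∣ D.R)
  [Fact D.Q.Prime] [CharP (IsLocalRing.ResidueField A) D.Q]
  [PerfectRing (IsLocalRing.ResidueField A) D.Q]

/-- **SpDModWild**, with the coordinate of the modular seed as a hypothesis. -/
theorem modWild_core (haux : AuxLevelOK D.Q D.R) (h5 : 5 ≤ D.Q)
    (hz : ∃ z : modularFunctionFieldBar (D.Q * D.R),
      CoordData (kpSeed D A hq hA hqR haux) (fwU D) (fwPi D) (D.Q : Qb) 12 z ∧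
        ∀ t ∈ kpΓ D A, t • z = z)
    {ζ α z₀ : Qb} (S : PeuSetting D.Q A ζ α z₀)
    (y : JZero (D.Q * D.R)) (hy : D.Q • y = 0) (hstab : ∀ σ ∈ peuStab A ζ α, σ • y = y)
    (hun : spUnip D.Q A y) :
    ∃ (E : Divisor.degZero (K := Qb) (F := FBar (D.Q * D.R))) (g : FBar (D.Q * D.R)),
      spIsKumGen D.Q y E g ∧ spSlopeInt D A hq hA hqR g := by
  classical
  haveI := infinite_residue A
  haveI : Nonempty (kpIota D A hq hA hqR) :=
    fw_nonempty D A hq hA (kpS D A hq hA hqR) (isGaussSetup_gaussSetupBad D hq hqR A hA)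
  haveI : PerfectField (IsLocalRing.ResidueField A) := PerfectRing.toPerfectField _ D.Q
  have hSA : (kpSeed D A hq hA hqR haux).S₁.A = A := wu_A D A hq hA hqR haux
  have hfix : SeedLiftFix (kpSeed D A hq hA hqR haux) (kpΓ D A) :=
    jacmf_seedLiftFix D A hq hA hqR haux
  obtain ⟨z, hcd, hzfix⟩ := hz
  obtain ⟨s₀, hs₀, hs₀α, -⟩ := exists_brk_of_peu S
  -- the groups
  set F₀ := modularFunctionFieldFull (D.Q * D.R) with hF₀
  set H : Subgroup (SemilinearAut Qb (modularFunctionFieldBar (D.Q * D.R))) :=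
    jacΓ D (peuStab A ζ α) with hHdef
  set s : SemilinearAut Qb (modularFunctionFieldBar (D.Q * D.R)) := arithmeticGalois F₀ s₀
    with hsdef
  have hHkp : ∀ t ∈ H, t ∈ kpΓ D A := by
    rintro _ ⟨σ, hσ, rfl⟩
    exact ⟨σ, peuStab_le A ζ α hσ, rfl⟩
  have hskp : s ∈ kpΓ D A := ⟨s₀, hs₀.1, rfl⟩
  have hH : ∀ t ∈ H, (kpSeed D A hq hA hqR haux).nodalSetup.IsInertial t := fun t ht =>
    kpΓ_isInertial D A hq hA hqR haux t (hHkp t ht)
  have hs : (kpSeed D A hq hA hqR haux).nodalSetup.IsInertial s :=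
    kpΓ_isInertial D A hq hA hqR haux s hskp
  have hsH : ∀ t ∈ H, s⁻¹ * t * s ∈ H := by
    rintro _ ⟨σ, hσ, rfl⟩
    refine ⟨s₀⁻¹ * σ * s₀, modWild_conj hs₀ hs₀α hσ, ?_⟩
    rw [map_mul, map_mul, map_inv]
  have hzH : ∀ t ∈ H, t • z = z := fun t ht => hzfix t (hHkp t ht)
  -- (BRK)
  have B := brkW_wild_map F₀ S hs₀ hs₀α
  have hπH : ∀ t ∈ H, SemilinearAut.baseAut t (peuUnif ζ α) = peuUnif ζ α := B.rat_π
  have hπ1 : (kpSeed D A hq hA hqR haux).S₁.A.valuation (peuUnif ζ α) < 1 := by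
    rw [hSA]; exact B.π_lt
  have hα₀u : (kpSeed D A hq hA hqR haux).S₁.A.valuation (-1 : Qb) = 1 := by
    rw [hSA]; exact B.α0_unit
  have hsπ : (SemilinearAut.baseAut s (peuUnif ζ α) -
      peuUnif ζ α * (1 + (-1) * peuUnif ζ α)) / peuUnif ζ α ^ 3 ∈
        (kpSeed D A hq hA hqR haux).S₁.A := by
    rw [hSA]; exact brkW_hsπ F₀ S hs₀ hs₀α
  have hA1 : ∀ c : Qb, c ∈ (kpSeed D A hq hA hqR haux).S₁.A →
      (∀ t ∈ H, SemilinearAut.baseAut t c = c) →
      (SemilinearAut.baseAut s c - c) / peuUnif ζ α ^ 2 ∈ (kpSeed D A hq hA hqR haux).S₁.A := by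
    rw [hSA]
    exact fun c hc hcH => B.depth_div hcH hc
  have hval : ∀ c : Qb, c ≠ 0 → (∀ t ∈ H, SemilinearAut.baseAut t c = c) →
      ∃ n : ℤ, (kpSeed D A hq hA hqR haux).S₁.A.valuation c =
        (kpSeed D A hq hA hqR haux).S₁.A.valuation (peuUnif ζ α) ^ n := by
    rw [hSA]
    exact fun c hc0 hcH => B.val_rat c hcH hc0
  have hϖπ : (kpSeed D A hq hA hqR haux).S₁.A.valuation (fwPi D) =
      (kpSeed D A hq hA hqR haux).S₁.A.valuation (peuUnif ζ α) ^ (D.Q * (12 * (D.Q - 1))) := by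
    rw [hSA]; exact brkW_hϖπ S
  -- (G1), (G2)
  have hfixΓ : ∀ {f : modularFunctionFieldBar (D.Q * D.R)}, (∀ t ∈ H, t • f = f) →
      ∀ t ∈ gauH (D.Q * D.R) (peuStab A ζ α : Set GQb), t • f = f := by
    rintro f hf _ ⟨σ, hσ, rfl⟩
    exact hf _ (mem_jacΓ D hσ)
  have hratΓ : ∀ {c : Qb}, (∀ t ∈ H, SemilinearAut.baseAut t c = c) →
      ∀ t ∈ gauH (D.Q * D.R) (peuStab A ζ α : Set GQb), SemilinearAut.baseAut t c = c := by
    rintro c hc _ ⟨σ, hσ, rfl⟩
    exact hc _ (mem_jacΓ D hσ)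
  have hG1₁ : ∀ f : modularFunctionFieldBar (D.Q * D.R), f ≠ 0 → (∀ t ∈ H, t • f = f) →
      ∃ c : Qb, (∀ t ∈ H, SemilinearAut.baseAut t c = c) ∧
        (kpSeed D A hq hA hqR haux).S₁.red
          (f / algebraMap Qb (modularFunctionFieldBar (D.Q * D.R)) c) ≠ 0 := by
    intro f hf0 hfH
    obtain ⟨c, hcfix, hcred⟩ := gau_G1₁ (jacM D A hq hA hqR haux) hq hA
      (peuStab A ζ α : Set GQb) f hf0 (hfixΓ hfH)
    refine ⟨c, ?_, hcred⟩
    rintro _ ⟨σ, hσ, rfl⟩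
    exact hcfix _ (mem_gauH hσ)
  have hG1₂ : ∀ f : modularFunctionFieldBar (D.Q * D.R), f ≠ 0 → (∀ t ∈ H, t • f = f) →
      ∃ c : Qb, (∀ t ∈ H, SemilinearAut.baseAut t c = c) ∧
        (kpSeed D A hq hA hqR haux).S₂.red
          (f / algebraMap Qb (modularFunctionFieldBar (D.Q * D.R)) c) ≠ 0 := by
    intro f hf0 hfH
    obtain ⟨c, hcfix, hcred⟩ := gau_G1₂ (jacM D A hq hA hqR haux) hq hA
      (peuStab A ζ α : Set GQb) f hf0 (hfixΓ hfH)
    refine ⟨c, ?_, hcred⟩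
    rintro _ ⟨σ, hσ, rfl⟩
    exact hcfix _ (mem_gauH hσ)
  have hsA : ∀ a ∈ A, s₀ a ∈ A := modWild_inertia_mem hs₀.1
  have hA1Γ : ∀ c : Qb, c ∈ (jacM D A hq hA hqR haux).N.S₁.A →
      (∀ t ∈ gauH (D.Q * D.R) (peuStab A ζ α : Set GQb), SemilinearAut.baseAut t c = c) →
      (SemilinearAut.baseAut (arithmeticGalois (modularFunctionFieldFull (D.Q * D.R)) s₀) c - c) /
        peuUnif ζ α ^ 2 ∈ (jacM D A hq hA hqR haux).N.S₁.A := by
    intro c hc hcΓ
    refine hA1 c hc ?_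
    rintro _ ⟨σ, hσ, rfl⟩
    exact hcΓ _ (mem_gauH hσ)
  have hG2₁ : ∀ f : modularFunctionFieldBar (D.Q * D.R),
      f ∈ (kpSeed D A hq hA hqR haux).S₁.Ov → (∀ t ∈ H, t • f = f) →
      (s • f - f) / algebraMap Qb (modularFunctionFieldBar (D.Q * D.R)) (peuUnif ζ α ^ 2) ∈
        (kpSeed D A hq hA hqR haux).S₁.Ov := fun f hf hfH =>
    gau_G2₁ (jacM D A hq hA hqR haux) hq hA (peuStab A ζ α : Set GQb) s₀ hsA (peuUnif ζ α) hA1Γ
      f hf (hfixΓ hfH)
  have hG2₂ : ∀ f : modularFunctionFieldBar (D.Q * D.R),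
      f ∈ (kpSeed D A hq hA hqR haux).S₂.Ov → (∀ t ∈ H, t • f = f) →
      (s • f - f) / algebraMap Qb (modularFunctionFieldBar (D.Q * D.R)) (peuUnif ζ α ^ 2) ∈
        (kpSeed D A hq hA hqR haux).S₂.Ov := fun f hf hfH =>
    gau_G2₂ (jacM D A hq hA hqR haux) hq hA (peuStab A ζ α : Set GQb) s₀ hsA (peuUnif ζ α) hA1Γ
      f hf (hfixΓ hfH)
  -- (H90), (RES)
  have hH90 := h90_mod_subgroup F₀ H (h90_map_arith F₀ (peuStab A ζ α))
  have hres : ∀ γ : IsLocalRing.ResidueField A,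
      ∃ (a : Qb) (ha : a ∈ (kpSeed D A hq hA hqR haux).S₁.A),
        (∀ t ∈ H, SemilinearAut.baseAut t a = a) ∧
          (kpSeed D A hq hA hqR haux).S₁.res ⟨a, ha⟩ = γ := by
    intro γ
    obtain ⟨a, ha, hafix, hares⟩ := jac_res D A hq hA hqR γ
    refine ⟨a, ha, ?_, hares⟩
    rintro _ ⟨σ, hσ, rfl⟩
    exact hafix σ (peuStab_le A ζ α hσ)
  -- (RatLift)
  have hsub : insert s (H : Set (SemilinearAut Qb (modularFunctionFieldBar (D.Q * D.R)))) ⊆
      kpΓ D A := by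
    intro t ht
    rcases Set.mem_insert_iff.mp ht with rfl | ht
    · exact hskp
    · exact hHkp t ht
  have hfix' := rat_seedLiftFix_mono hfix hsub
  -- (JAC)
  obtain ⟨Dl, hl, hDl, hl0, hldiv, hl₁, hl₂, hRT, hDlfix, -⟩ :=
    jac_mod D A hq hA hqR haux (stabI A ζ) (fun τ hτ => stabI_le A ζ hτ) hfix (σ := s₀) hs₀.1 hy
      (fun τ hτ => hun ζ S.hζ s₀ hs₀.1 τ hτ.1 hτ.2)
  have hDlH : ∀ t ∈ H, t • (Dl : Divisor Qb (FBar (D.Q * D.R))) = Dl := by
    rintro _ ⟨σ, hσ, rfl⟩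
    have hσ' : σ ∈ stabI A ζ := ⟨(mem_peuStab.1 hσ).1, (mem_peuStab.1 hσ).2.1⟩
    exact hDlfix _ (mem_jacΓ D hσ')
  have hDls : s • (Dl : Divisor Qb (FBar (D.Q * D.R))) = Dl := hDlfix _ (mem_jacΓ D hs₀)
  have hHy : ∀ t ∈ H, t • y = y := by
    rintro _ ⟨σ, hσ, rfl⟩
    exact hstab σ hσ
  have hsx : s • y - y = (1 : ℤ) • Pic0.mk Dl := by
    rw [one_zsmul]
    exact hDl.symm
  -- ABS-WILD
  obtain ⟨E, g, hEy, hg0, -, -, hgord, hslope⟩ :=
    abs_wild_fix (kpSeed D A hq hA hqR haux) D.Q hcd (ε := kpEps D A hq hA hqR)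
      (wu_eps₁ D A hq hA hqR haux) (wu_eps₂ D A hq hA hqR haux)
      (fun i => by
        have h1 := hcd.eps_eq i
        rw [wu_eps₁ D A hq hA hqR haux i] at h1
        have h2 : kpEps D A hq hA hqR i = 12 := by exact_mod_cast h1
        rw [h2]
        exact modWild_not_dvd_twelve hq h5)
      H s hH hs hsH hzH S.unif_ne_zero hπ1 hπH hα₀u hsπ hA1 hval (brkW_not_dvd hq h5) hϖπ
      hG1₁ hG1₂ hG2₁ hG2₂ hH90 hres (ratLift₁_of_seed hfix') (ratLift₂_of_seed hfix')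
      (Fermat.Agent.S17.Setup.cuspPlace (D.Q * D.R))
      (fun t ht => kpΓ_fix_oo D A t (hHkp t ht)) y hy hHy Dl hl hl0 hldiv hDlH hDls hl₁ hl₂ hRT
      1 hsx
  refine ⟨E, g, ⟨⟨hg0, fun v => (hgord v).symm⟩, hEy⟩, ?_⟩
  rintro r ⟨c, hc0, hcmem, hcred, hr0⟩ i j
  have h := hslope c (by rw [wu_S₁, hcred]; exact hr0) i j
  rw [wu_S₁, hcred] at h
  exact h

end Fermat.Agent.R38
end
end MergeWrap_R38_D_ModWild

section MergeWrap_R38_D_ModWildFinal -- from R38/D/ModWildFinal.lean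

set_option autoImplicit false
set_option linter.style.haveILetI false
set_option linter.unusedSectionVars false
set_option linter.unusedVariables false
set_option synthInstance.maxHeartbeats 400000
set_option maxHeartbeats 1000000

noncomputable section

namespace Fermat.Agent.R38

open IntermediateField ModularCurve AlgebraicCurve Fermat.Agent.F3 Fermat.Agent.F3G
  Fermat.Agent.GaussInt Fermat.Agent.AtkinLehner Fermat.Agent.Deuring Fermat.Agent.RR
  Fermat.Agent.BadRed Fermat.Agent.F3I2 Fermat.Agent.EKp Fermat.Agent.PeuD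
  Fermat.Agent.FFL Fermat.Agent.FFL.FB

local notation "Qb" => AlgebraicClosure ℚ
local notation "GQb" => (AlgebraicClosure ℚ ≃ₐ[ℚ] AlgebraicClosure ℚ)

attribute [local instance] Fermat.Agent.BadRed.fwFintype

variable (D : ALData) [NeZero D.Q] [NeZero D.R] [NeZero (D.Q * D.R)]
  (A : ValuationSubring Qb) (hq : D.Q.Prime) (hA : A.LiesOverPrime D.Q) (hqR : ¬ D.Q ∣ D.R)
  [Fact D.Q.Prime] [CharP (IsLocalRing.ResidueField A) D.Q]
  [PerfectRing (IsLocalRing.ResidueField A) D.Q]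

/-- **the coordinate of the modular seed**, fixed by the inertia group. -/
theorem modWild_exists_z (haux : AuxLevelOK D.Q D.R) (h4 : 4 ∣ D.R ∨ 9 ∣ D.R) :
    ∃ z : modularFunctionFieldBar (D.Q * D.R),
      CoordData (kpSeed D A hq hA hqR haux) (fwU D) (fwPi D) (D.Q : Qb) 12 z ∧
        ∀ t ∈ kpΓ D A, t • z = z := by
  classical
  haveI := infinite_residue A
  obtain ⟨f, hf, hf1, hf2, hred0, -, hnode, hred2⟩ :=
    liftPhi_exists_lift (kpSeed D A hq hA hqR haux) (m := (kpSeed D A hq hA hqR haux).m₀) le_rfl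
  obtain ⟨g, hg, hg1, hg2, e1, e2, hgfix⟩ :=
    jacmf_seedLiftFix D A hq hA hqR haux _ f hf hf1 hf2
  have hgred1 : (kpSeed D A hq hA hqR haux).S₁.red g ≠ 0 := by rw [e1]; exact hred0
  have hg0 : g ≠ 0 := (kpSeed D A hq hA hqR haux).S₁.ne_zero_of_red_ne_zero hgred1
  have hgred2 : (kpSeed D A hq hA hqR haux).S₂.red g = 0 := by rw [e2]; exact hred2
  have hgI : ∀ τ ∈ A.inertiaSubgroupIn ℚ,
      arithmeticGalois (modularFunctionFieldFull (D.Q * D.R)) τ • g = g :=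
    fun τ hτ => hgfix _ ⟨τ, hτ, rfl⟩
  obtain ⟨n, hn1, hn2⟩ := liftDisc₂ (jacM D A hq hA hqR haux) hq hA hg0 hgI
  have hQ0 : (D.Q : Qb) ≠ 0 := Nat.cast_ne_zero.mpr hq.ne_zero
  have hQA : (D.Q : Qb) ∈ (kpSeed D A hq hA hqR haux).S₂.A := natCast_mem _ _
  have hdiv : g / algebraMap Qb (modularFunctionFieldBar (D.Q * D.R)) (D.Q : Qb) ∈
      (kpSeed D A hq hA hqR haux).S₂.Ov :=
    latLift_div_mem (kpSeed D A hq hA hqR haux).S₂ hQA hQ0 hn1 hn2 hg2 hgred2
  refine ⟨g, ⟨wu_annulus D A hq hA hqR haux, by norm_num, wu_val_pi D A hq hA hqR haux,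
    wu_sum_eps D A hq hA hqR haux h4, hg1, hdiv,
    fun P hP => NodalSeed.ord_nonneg_of_rmap_none _ hg hP, fun i => ?_⟩, hgfix⟩
  rw [e1]
  exact hnode i

/-- **SpDModWild**: the wild case of (INT) at an auxiliary level. -/
theorem spDModWild : SpDModWild := by
  intro D _ _ _ A hq hA hqR _ _ _ h5 h4 ζ α z₀ S y hy hstab hun
  have haux : AuxLevelOK D.Q D.R := AuxLevelOK.of_five_le h5
  exact modWild_core D A hq hA hqR haux h5
    (modWild_exists_z D A hq hA hqR haux (Or.inl h4)) S y hy hstab hun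

end Fermat.Agent.R38
end
end MergeWrap_R38_D_ModWildFinal

section MergeWrap_R38_D_ModTame -- from R38/D/ModTame.lean

set_option autoImplicit false
set_option linter.style.haveILetI false
set_option linter.unusedSectionVars false
set_option linter.unusedVariables false
set_option synthInstance.maxHeartbeats 400000
set_option maxHeartbeats 1000000

noncomputable section

namespace Fermat.Agent.R38

open ModularCurve AlgebraicCurve Fermat.Agent.F3 Fermat.Agent.F3G Fermat.Agent.F3I2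
  Fermat.Agent.GaussInt Fermat.Agent.AtkinLehner Fermat.Agent.Deuring Fermat.Agent.RR
  Fermat.Agent.BadRed Fermat.Agent.EKp Fermat.Agent.PeuD

local notation "Qb" => AlgebraicClosure ℚ

attribute [local instance] Fermat.Agent.BadRed.fwFintype

/-- **SpDModTame**: the tame case of (INT) at an auxiliary level. -/
theorem spDModTame : SpDModTame := by
  intro D _ _ _ A hq hA hqR _ _ _ h5 h4 ζ hζ y hy hfix
  have haux : AuxLevelOK D.Q D.R := AuxLevelOK.of_five_le h5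
  obtain ⟨z, hz, hzfix⟩ := modWild_exists_z D A hq hA hqR haux (Or.inl h4)
  exact modTame_of_coord D A hq hA hqR h5 haux
    ⟨z, hz, fun τ hτ => hzfix _ ⟨τ, hτ, rfl⟩⟩ ζ hζ y hy hfix

end Fermat.Agent.R38
end
end MergeWrap_R38_D_ModTame

section MergeWrap_R38_D_SpJD -- from R38/D/SpJD.lean

set_option autoImplicit false

namespace Fermat.Agent.R38

/-- **J-D**: (INT). -/
theorem spJD : SpJD := spJD_of spDModWild spDModTame spDGenIndep spDPull

end Fermat.Agent.R38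
end MergeWrap_R38_D_SpJD
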